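import Fermat.Agent.SemistableSplit.Rigidity
import Fermat.Agent.SemistableHecke.TrivFrob

/-!
# Congruences of Laurent series and the norm to level `M`

Congruences of Laurent series modulo a constant (`serRing`, `prod_twist_congr`); the norm from
`X₀(Mq)` to `X₀(M)` of a function congruent to one at both branches is a `q`-th power modulo more
(`exists_norm_root`).
-/

set_option autoImplicit false

noncomputable section

open AlgebraicCurve ModularCurve FLTAgent.HeckeJacobian

namespace FLTAgent.SemistableSplit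

open FLTAgent.SemistableHecke (twist twist_coeff)

local notation "Qbar" => AlgebraicClosure ℚ

variable {A : ValuationSubring Qbar}

local notation "kA" => IsLocalRing.ResidueField A
local notation "lift" => coeffMap (A.subtype)
local notation "red" => coeffMap (IsLocalRing.residue A)

variable (A) in
/-- Series that are quotients of integral series with residually nonzero denominator. -/
def serRing : Subring (LaurentSeries Qbar) :=
  Semistable.Gauss.ring A (IsLocalRing.residue A) (AlgHom.id Qbar (LaurentSeries Qbar))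

theorem mem_serRing_iff {X : LaurentSeries Qbar} : X ∈ serRing A ↔
    ∃ y z : LaurentSeries A, red z ≠ 0 ∧ X * lift z = lift y := Iff.rfl

theorem lift_mem_serRing (y : LaurentSeries A) : lift y ∈ serRing A :=
  ⟨y, 1, by simp, by simp⟩

theorem algebraMap_mem_serRing (a : A) :
    algebraMap Qbar (LaurentSeries Qbar) (a : Qbar) ∈ serRing A :=
  Semistable.Gauss.algebraMap_mem A (IsLocalRing.residue A)
    (AlgHom.id Qbar (LaurentSeries Qbar)) a

theorem inv_lift_mem_serRing {z : LaurentSeries A} (hz : red z ≠ 0) : (lift z)⁻¹ ∈ serRing A := by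
  refine ⟨1, z, hz, ?_⟩
  show (lift z)⁻¹ * lift z = lift 1
  rw [map_one, inv_mul_cancel₀ (fun h => hz ?_)]
  rw [SemistableHecke.lift_injective (h.trans (map_zero _).symm), map_zero]

theorem qExpand_mem_serRing {q : ℕ} [NeZero q] {X : LaurentSeries Qbar} (hX : X ∈ serRing A) :
    qExpand Qbar q X ∈ serRing A := by
  obtain ⟨y, z, hz, e⟩ := mem_serRing_iff.mp hX
  refine mem_serRing_iff.mpr ⟨qExpand A q y, qExpand A q z, ?_, ?_⟩
  · rw [coeffMap_qExpand]
    exact fun h0 => hz (qExpand_injective q (h0.trans (map_zero _).symm))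
  · rw [coeffMap_qExpand, coeffMap_qExpand, ← e, map_mul]

theorem qExpand_const {q : ℕ} [NeZero q] (c : Qbar) :
    qExpand Qbar q (algebraMap Qbar (LaurentSeries Qbar) c) = algebraMap Qbar _ c := by
  rw [algebraMap_laurentSeries_eq_single, qExpand_single, mul_zero]

theorem twist_const (u : Qbarˣ) (c : Qbar) :
    twist u (algebraMap Qbar (LaurentSeries Qbar) c) = algebraMap Qbar _ c := by
  ext n
  rw [twist_coeff, algebraMap_laurentSeries_eq_single]
  rcases eq_or_ne n 0 with rfl | hn
  · rw [zpow_zero, Units.val_one, one_mul]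
  · rw [HahnSeries.coeff_single_of_ne hn, mul_zero]

/-- Twisting by a root of unity is the identity modulo `ζ - 1`. -/
theorem exists_twist_eq {q : ℕ} [Fact q.Prime] [CharP kA q] {u : Qbarˣ} (hu : IsPrimitiveRoot u q)
    (i : ℕ) {X : LaurentSeries Qbar} (hX : X ∈ serRing A) :
    ∃ R ∈ serRing A, twist (u ^ i) X = X + algebraMap Qbar _ ((u : Qbar) - 1) * R := by
  have hq : q.Prime := Fact.out
  have hu' : IsPrimitiveRoot (u : Qbar) q := IsPrimitiveRoot.coe_units_iff.mpr hu
  obtain ⟨ζA, hζA, -, hne, hlt, -⟩ :=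
    Semistable.primitiveRoot_level (π := IsLocalRing.residue A) IsLocalRing.residue_surjective
      hq hu'
  set lam := (u : Qbar) - 1 with hlam
  have hlamA : lam ∈ A := (A.valuation_le_one_iff _).mp hlt.le
  have hπlam : IsLocalRing.residue A ⟨lam, hlamA⟩ = 0 :=
    Semistable.π_eq_zero_of_lt_one IsLocalRing.residue_surjective hlt
  have hν : ∀ n : ℤ, ((((u ^ i) ^ n : Qbarˣ) : Qbar) - 1) / lam ∈ A := by
    intro n
    obtain ⟨e, he⟩ : ∃ e : ℕ, (u ^ i) ^ n = u ^ e := by
      have hq0 : (q : ℤ) ≠ 0 := by exact_mod_cast hq.ne_zero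
      refine ⟨(((i : ℤ) * n) % q).toNat, ?_⟩
      rw [← zpow_natCast u i, ← zpow_mul, ← zpow_natCast u (Int.toNat _),
        Int.toNat_of_nonneg (Int.emod_nonneg _ hq0)]
      conv_lhs => rw [← Int.emod_add_mul_ediv ((i : ℤ) * n) q, zpow_add, zpow_mul, zpow_natCast,
        hu.pow_eq_one, one_zpow, mul_one]
    rw [he, Units.val_pow_eq_pow_val, ← geom_sum_mul, mul_div_assoc, hlam, div_self hne, mul_one]
    exact sum_mem fun t _ => pow_mem (hζA ▸ ζA.2) t
  have hlift : ∀ y : LaurentSeries A, ∃ y' : LaurentSeries A,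
      twist (u ^ i) (lift y) = lift y + algebraMap Qbar _ lam * lift y' := by
    intro y
    refine ⟨⟨fun n => ⟨_, hν n⟩ * y.coeff n,
      y.isPWO_support.mono fun n hn h0 => hn (by simp only; rw [h0, mul_zero])⟩, ?_⟩
    ext n
    rw [twist_coeff, HahnSeries.coeff_add, algebraMap_laurentSeries_eq_single,
      HahnSeries.coeff_single_zero_mul, coeffMap_coeff, coeffMap_coeff]
    show _ = (y.coeff n : Qbar) +
      lam * (((((u ^ i) ^ n : Qbarˣ) : Qbar) - 1) / lam * (y.coeff n : Qbar))
    rw [← mul_assoc, mul_div_cancel₀ _ hne, sub_one_mul, add_sub_cancel]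
    rfl
  obtain ⟨y, z, hz, e⟩ := mem_serRing_iff.mp hX
  obtain ⟨y', hy'⟩ := hlift y
  obtain ⟨z', hz'⟩ := hlift z
  set z'' := z + HahnSeries.single 0 ⟨lam, hlamA⟩ * z' with hz''
  have hz''r : red z'' ≠ 0 := by
    rwa [hz'', map_add, map_mul, coeffMap_single, hπlam, map_zero, zero_mul, add_zero]
  have hliftz'' : lift z'' = twist (u ^ i) (lift z) := by
    rw [hz', hz'', map_add, map_mul, coeffMap_single, algebraMap_laurentSeries_eq_single]
    rfl
  have hne'' : lift z'' ≠ 0 := SemistableHecke.lift_ne_zero_of_red hz''r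
  refine ⟨(lift y' - X * lift z') * (lift z'')⁻¹, Subring.mul_mem _ (Subring.sub_mem _
    (lift_mem_serRing y') (Subring.mul_mem _ hX (lift_mem_serRing z')))
    (inv_lift_mem_serRing hz''r), ?_⟩
  have e' : twist (u ^ i) X * lift z'' = twist (u ^ i) (lift y) := by
    rw [hliftz'', ← map_mul, e]
  refine mul_right_cancel₀ hne'' ?_
  rw [e', add_mul, mul_assoc, mul_assoc _ (lift z'')⁻¹, inv_mul_cancel₀ hne'', mul_one, hliftz'',
    hy', hz', ← e]
  ring

/-- A product of twists of a series congruent to one is congruent to one more closely. -/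
theorem prod_twist_congr {q : ℕ} [Fact q.Prime] [CharP kA q] {u : Qbarˣ} (hu : IsPrimitiveRoot u q)
    {b s : Qbar} (hb1 : A.valuation b < 1)
    (hls : A.valuation ((u : Qbar) - 1) ≤ A.valuation s) (hbs : A.valuation b ≤ A.valuation s)
    (hs0 : s ≠ 0) (hs1 : A.valuation s < 1) {R : LaurentSeries Qbar} (hR : R ∈ serRing A) :
    ∃ R' ∈ serRing A, ∏ j : Fin q, twist (u ^ (j : ℕ)) (1 + algebraMap Qbar _ b * R) =
      1 + algebraMap Qbar _ (b * s) * R' := by
  have hq : q.Prime := Fact.out
  set κ := algebraMap Qbar (LaurentSeries Qbar) with hκ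
  have hu' : IsPrimitiveRoot (u : Qbar) q := IsPrimitiveRoot.coe_units_iff.mpr hu
  obtain ⟨-, -, -, hlne, hlt, hlq⟩ :=
    Semistable.primitiveRoot_level (π := IsLocalRing.residue A) IsLocalRing.residue_surjective
      hq hu'
  have div_s : ∀ {x : Qbar}, A.valuation x ≤ A.valuation s → ∃ a : A, x = s * (a : Qbar) :=
    fun {x} hx => ⟨⟨x / s, Semistable.div_mem_of_valuation_le hs0 hx⟩,
      (mul_div_cancel₀ _ hs0).symm⟩
  obtain ⟨al, hal⟩ := div_s hls
  obtain ⟨ab, hab⟩ := div_s hbs
  have hqle : A.valuation (q : Qbar) ≤ A.valuation s := by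
    rw [← hlq]
    exact (pow_le_of_le_one zero_le hlt.le (by have := hq.two_le; omega)).trans hls
  obtain ⟨aq, haq⟩ := div_s hqle
  let bA : A := ⟨b, (A.valuation_le_one_iff b).mp hb1.le⟩
  let Y := 1 + κ b * R
  have hY : Y ∈ serRing A :=
    Subring.add_mem _ (Subring.one_mem _) (Subring.mul_mem _ (algebraMap_mem_serRing bA) hR)
  have key : ∀ S : Finset (Fin q), ∃ R' ∈ serRing A,
      ∏ j ∈ S, twist (u ^ (j : ℕ)) Y = Y ^ S.card + κ (b * s) * R' := by
    intro S
    induction S using Finset.cons_induction with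
    | empty => exact ⟨0, Subring.zero_mem _, by simp⟩
    | cons j S hj ih =>
      obtain ⟨R', hR', e⟩ := ih
      obtain ⟨T, hT, eT⟩ := exists_twist_eq (A := A) hu (j : ℕ) hR
      have htw : twist (u ^ (j : ℕ)) Y = Y + κ (b * s) * (κ (al : Qbar) * T) := by
        simp only [Y, map_add, map_mul, map_one, twist_const, hκ]
        rw [eT, hal, map_mul]
        ring
      refine ⟨R' * Y + κ (al : Qbar) * T * (Y ^ S.card + κ (b * s) * R'), Subring.add_mem _
        (Subring.mul_mem _ hR' hY) (Subring.mul_mem _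
          (Subring.mul_mem _ (algebraMap_mem_serRing al) hT) ?_), ?_⟩
      · refine Subring.add_mem _ (pow_mem hY _) (Subring.mul_mem _ ?_ hR')
        have : κ (b * s) = κ (bA : Qbar) * κ s := map_mul _ _ _
        rw [this]
        refine Subring.mul_mem _ (algebraMap_mem_serRing bA) ?_
        exact algebraMap_mem_serRing ⟨s, (A.valuation_le_one_iff s).mp hs1.le⟩
      · rw [Finset.prod_cons, htw, e, Finset.card_cons, pow_succ]
        ring
  obtain ⟨R', hR', e⟩ := key Finset.univ
  rw [Finset.card_univ, Fintype.card_fin] at e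
  obtain ⟨r, hr⟩ := exists_add_pow_prime_eq hq (1 : serRing A)
    ⟨κ b * R, Subring.mul_mem _ (algebraMap_mem_serRing bA) hR⟩
  have hr' : Y ^ q = 1 + (κ b * R) ^ q + (q : LaurentSeries Qbar) * (κ b * R) *
      (r : LaurentSeries Qbar) := by
    have := congrArg (fun z : serRing A => (z : LaurentSeries Qbar)) hr
    push_cast at this
    rw [this]
    ring
  refine ⟨R' + κ (bA : Qbar) ^ (q - 2) * κ (ab : Qbar) * R ^ q + κ (aq : Qbar) * R * r,
    Subring.add_mem _ (Subring.add_mem _ hR' (Subring.mul_mem _ (Subring.mul_mem _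
      (pow_mem (algebraMap_mem_serRing bA) _) (algebraMap_mem_serRing ab)) (pow_mem hR q)))
      (Subring.mul_mem _ (Subring.mul_mem _ (algebraMap_mem_serRing aq) hR) r.2), ?_⟩
  obtain ⟨m, hm⟩ : ∃ m, q = m + 2 := ⟨q - 2, by have := hq.two_le; omega⟩
  have hbq : κ b ^ q = κ (b * s) * (κ (bA : Qbar) ^ (q - 2) * κ (ab : Qbar)) := by
    rw [← map_pow, ← map_pow, ← map_mul, ← map_mul]
    congr 1
    rw [hm, Nat.add_sub_cancel, pow_add, pow_two]
    show b ^ m * (b * b) = b * s * (b ^ m * (ab : Qbar))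
    calc b ^ m * (b * b) = b * b ^ m * b := by ring
      _ = b * b ^ m * (s * (ab : Qbar)) := by rw [← hab]
      _ = _ := by ring
  have hqb : (q : LaurentSeries Qbar) * κ b = κ (b * s) * κ (aq : Qbar) := by
    rw [← map_natCast κ, ← map_mul, ← map_mul, haq]
    congr 1
    ring
  rw [e, hr', mul_pow, hbq, ← mul_assoc _ (κ b) R, hqb]
  ring

variable {M q : ℕ} [NeZero M] [Fact q.Prime]

/-- A function whose expansion in `t` with `t ^ q = T` is integral is integral. -/
theorem mem_of_qExpand_mem [IsAlgClosed kA] [CharP kA q]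
    (S : Semistable.Level.Setting M q A (IsLocalRing.residue A))
    {f : modularFunctionFieldBar (M * q)}
    (h : qExpand Qbar q (f : LaurentSeries Qbar) ∈ serRing A) :
    f ∈ (Semistable.Level.branch₁ S).O := by
  rcases eq_or_ne f 0 with rfl | hf
  · exact zero_mem _
  obtain ⟨c, hc, hres⟩ := (Semistable.Level.branch₁ S).scale f hf
  by_cases hcA : c ∈ A
  · by_contra hnot
    obtain ⟨y, z, hz, e⟩ := hc
    obtain ⟨y', z', hz', e'⟩ := mem_serRing_iff.mp h
    have hπc : IsLocalRing.residue A ⟨c, hcA⟩ = 0 := by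
      refine Semistable.Branch.π_eq_zero_of_not_isUnit IsLocalRing.residue_surjective fun hu => ?_
      obtain ⟨d, hd⟩ := hu.exists_left_inv
      have hd' : (d : Qbar) * c = 1 := congrArg Subtype.val hd
      refine hnot ?_
      have := (Semistable.Level.branch₁ S).O.mul_mem _ _
        ((Semistable.Level.branch₁ S).algebraMap_mem d)
        (show c • f ∈ (Semistable.Level.branch₁ S).O from ⟨y, z, hz, e⟩)
      rwa [← Algebra.smul_def, smul_smul, hd', one_smul] at this
    have hyr : red y ≠ 0 := by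
      intro h0
      refine hres (Subtype.ext ((Semistable.Level.coe_res₁ S _).trans ?_))
      rw [Semistable.Gauss.res_mk A (IsLocalRing.residue A) (Semistable.Level.ι₁ M q) _ hz e, h0,
        zero_div]
      rfl
    have hcf : ((c • f : modularFunctionFieldBar (M * q)) : LaurentSeries Qbar) =
        HahnSeries.single 0 c * (f : LaurentSeries Qbar) :=
      (SemistableHecke.single_mul_eq_smul c f).symm
    have e1 : qExpand Qbar q (((c • f : modularFunctionFieldBar (M * q)) : LaurentSeries Qbar)) *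
        lift (qExpand A q z) = lift (qExpand A q y) := by
      rw [coeffMap_qExpand, coeffMap_qExpand, ← map_mul]
      exact congrArg _ e
    have e2 : qExpand A q y * z' = HahnSeries.single 0 (⟨c, hcA⟩ : A) * y' * qExpand A q z :=
      SemistableHecke.lift_injective (by
        rw [map_mul, map_mul, map_mul, ← e1, ← e', coeffMap_single, hcf, map_mul, qExpand_single,
          mul_zero]
        show _ = HahnSeries.single 0 c * _ * _
        ring)
    have e3 := congrArg (red) e2
    rw [map_mul, map_mul, map_mul, coeffMap_single, hπc, map_zero, zero_mul, zero_mul,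
      coeffMap_qExpand] at e3
    exact mul_ne_zero (fun h0 => hyr (qExpand_injective q (h0.trans (map_zero _).symm))) hz' e3
  · have hc0 : c ≠ 0 := fun h0 => hcA (h0 ▸ A.zero_mem)
    have := (Semistable.Level.branch₁ S).O.mul_mem _ _
      ((Semistable.Level.branch₁ S).algebraMap_mem ⟨c⁻¹, (A.mem_or_inv_mem c).resolve_left hcA⟩) hc
    rwa [← Algebra.smul_def, smul_smul, inv_mul_cancel₀ hc0, one_smul] at this

variable [IsAlgClosed (IsLocalRing.ResidueField A)] [CharP (IsLocalRing.ResidueField A) q]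
  (S : Semistable.Level.Setting M q A (IsLocalRing.residue A))

/-- The norm to level `M` makes a function congruent to one at both branches a `q`-th power,
modulo more. -/
theorem exists_norm_root {u : Qbarˣ} (hu : IsPrimitiveRoot u q)
    {D : Divisor.degZero (K := Qbar) (F := modularFunctionFieldBar (M * q))}
    {f : modularFunctionFieldBar (M * q)} (hf : f ≠ 0)
    (hdiv : ∀ v, (q : ℤ) * (D : Divisor Qbar (modularFunctionFieldBar (M * q))) v = v.ord f)
    (hpush : SemistableHecke.pushJ (heckeAlphaBar Qbar M q) (Pic0.mk D) = 0) {c₁ c₂ b s : Qbar}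
    (hb : b ≠ 0) (hb1 : A.valuation b < 1)
    (hls : A.valuation ((u : Qbar) - 1) ≤ A.valuation s) (hbs : A.valuation b ≤ A.valuation s)
    (hs0 : s ≠ 0) (hs1 : A.valuation s < 1)
    (h₁ : (Semistable.Level.branch₁ S).Mem b⁻¹ (c₁ • f - 1))
    (h₂ : (Semistable.Level.branch₁ S).Mem b⁻¹ (c₂ • S.al.w f - 1)) :
    ∃ h : modularFunctionFieldBar M, (Semistable.Level.branch₁ S).Mem (b * s)⁻¹
      (c₁ • f - heckeAlphaBar Qbar M q h ^ q) := by
  have hq : q.Prime := Fact.out
  rw [SemistableHecke.pushJ_mk, Pic0.mk, QuotientAddGroup.eq_zero_iff,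
    AddSubgroup.mem_addSubgroupOf] at hpush
  obtain ⟨h0, hh0, hh⟩ := hpush
  set Nf := normAlong (heckeAlphaBar Qbar M q) f
  have hNf0 : Nf ≠ 0 := normAlong_ne_zero _ (FFBasic.finiteAlong _) hf
  have hNord : ∀ v : Place Qbar (modularFunctionFieldBar M), v.ord Nf = (q : ℤ) * v.ord h0 :=
    fun v => by
      rw [← hh v, SemistableHecke.coe_pushDegZero, SemistableHecke.pushDiv_mul_eq_ord _ hf hdiv v]
  obtain ⟨a, ha⟩ : ∃ a : Qbar,
      algebraMap Qbar (modularFunctionFieldBar M) a = Nf / h0 ^ q := by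
    refine Semistable.exists_eq_algebraMap_of_isIntegral (IsAlgebraic.isIntegral
      (FFBasic.isAlgebraic_iff_forall_ord_eq_zero.mpr fun v => ?_))
    rw [div_eq_mul_inv, v.ord_mul hNf0 (inv_ne_zero (pow_ne_zero q hh0)), v.ord_inv,
      ← zpow_natCast, v.ord_zpow, hNord v]
    ring
  have hNeq : Nf = a • h0 ^ q := by
    rw [Algebra.smul_def, ha, div_mul_cancel₀ _ (pow_ne_zero q hh0)]
  obtain ⟨κ, hκ⟩ := IsAlgClosed.exists_pow_nat_eq (c₁ * c₂ ^ q * a) hq.pos
  refine ⟨κ • h0, ?_⟩
  have hpow : (κ • h0) ^ q = (c₁ * c₂ ^ q) • Nf := by rw [smul_pow, hκ, hNeq, smul_smul]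
  set e := algebraMap Qbar (LaurentSeries Qbar) with he
  have coe_smul' : ∀ (c : Qbar) {N : ℕ} (g : modularFunctionFieldBar N),
      ((c • g : modularFunctionFieldBar N) : LaurentSeries Qbar) = e c * (g : LaurentSeries Qbar) :=
    fun c N g => by rw [he, algebraMap_laurentSeries_eq_single, SemistableHecke.single_mul_eq_smul]
  set R := ((b⁻¹ • (c₂ • S.al.w f - 1) : modularFunctionFieldBar (M * q)) : LaurentSeries Qbar)
    with hRdef
  have hR : R ∈ serRing A := h₂
  have hY : e c₂ * (S.al.w f : LaurentSeries Qbar) = 1 + e b * R := by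
    rw [hRdef, ← coe_smul', ← coe_smul', smul_inv_smul₀ hb, AddSubgroupClass.coe_sub,
      OneMemClass.coe_one, add_sub_cancel]
  obtain ⟨R', hR', hP⟩ := prod_twist_congr hu hb1 hls hbs hs0 hs1 hR
  have hX : qExpand Qbar q (e c₁ * (f : LaurentSeries Qbar)) ∈ serRing A := by
    refine qExpand_mem_serRing ?_
    rw [← coe_smul']
    exact (Semistable.Level.branch₁ S).mem_one_iff.mp
      ((Semistable.Level.branch₁ S).mem_and_red_eq_one IsLocalRing.residue_surjective hb hb1 h₁).1
  refine mem_of_qExpand_mem S ?_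
  have key : qExpand Qbar q
      (((b * s)⁻¹ • (c₁ • f - heckeAlphaBar Qbar M q (κ • h0) ^ q) :
        modularFunctionFieldBar (M * q)) : LaurentSeries Qbar) =
      -(qExpand Qbar q (e c₁ * (f : LaurentSeries Qbar)) * R') := by
    rw [coe_smul', map_mul, he, qExpand_const, AddSubgroupClass.coe_sub, ← map_pow, hpow,
      coe_heckeAlphaBar, coe_smul', coe_smul', map_sub, map_mul, map_mul, qExpand_const,
      qExpand_const, map_mul, map_pow,
      SemistableHecke.series_norm_alpha Fact.out S.not_dvd S.al.w_alpha S.al.w_beta hu f]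
    have hprod : algebraMap Qbar (LaurentSeries Qbar) c₂ ^ q *
        ∏ j : Fin q, twist (u ^ (j : ℕ)) (S.al.w f : LaurentSeries Qbar) =
        1 + algebraMap Qbar (LaurentSeries Qbar) (b * s) * R' := by
      rw [← hP, ← hY]
      simp only [he, map_mul, twist_const, Finset.prod_mul_distrib, Finset.prod_const,
        Finset.card_univ, Fintype.card_fin]
    have hinv : algebraMap Qbar (LaurentSeries Qbar) (b * s)⁻¹ *
        algebraMap Qbar (LaurentSeries Qbar) (b * s) = 1 := by
      rw [← map_mul, inv_mul_cancel₀ (mul_ne_zero hb hs0), map_one]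
    linear_combination (-(algebraMap Qbar (LaurentSeries Qbar) (b * s)⁻¹ *
      algebraMap Qbar (LaurentSeries Qbar) c₁ * qExpand Qbar q (f : LaurentSeries Qbar))) * hprod
      - (algebraMap Qbar (LaurentSeries Qbar) c₁ * qExpand Qbar q (f : LaurentSeries Qbar) * R') *
        hinv
  rw [key]
  exact Subring.neg_mem _ (Subring.mul_mem _ hX hR')

end FLTAgent.SemistableSplit
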