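import Fermat.Agent.SemistableSplit.Lifting
import Fermat.Agent.SemistableSplit.Norm
import Fermat.Agent.Semistable.Setting

/-!
# Split classes on `J₀(Mq)`

Classes of `J₀(Mq)[q]` killed by both pushforwards to level `M`, with trivial residual series at
both cusps, are split at a valuation ring over `q` (`isSplit_of_pushJ_eq_zero`).
-/

set_option autoImplicit false

noncomputable section

open AlgebraicCurve ModularCurve FLTAgent.HeckeJacobian FLTAgent.FFBasic

namespace FLTAgent.SemistableSplit

open FLTAgent.SemistableHecke (pushJ IsData Triv)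

local notation "Qbar" => AlgebraicClosure ℚ

variable {M q : ℕ} [NeZero M] [Fact q.Prime] {A : ValuationSubring (AlgebraicClosure ℚ)}
  [IsAlgClosed (IsLocalRing.ResidueField A)] [CharP (IsLocalRing.ResidueField A) q]
  (S : Semistable.Level.Setting M q A (IsLocalRing.residue A))

omit [IsAlgClosed (IsLocalRing.ResidueField A)] [CharP (IsLocalRing.ResidueField A) q] in
theorem map_smul_al {N : ℕ}
    (w : modularFunctionFieldBar N →ₐ[Qbar] modularFunctionFieldBar N) (c : Qbar)
    (f : modularFunctionFieldBar N) : w (c • f) = c • w f := by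
  rw [Algebra.smul_def, Algebra.smul_def, map_mul, AlgHom.commutes]

/-- Congruences on the second branch are congruences of the images under the involution. -/
theorem mem₂_iff {g : Qbar} {u : modularFunctionFieldBar (M * q)} :
    (Semistable.Level.branch₂ S).Mem g u ↔ (Semistable.Level.branch₁ S).Mem g (S.al.w u) := by
  show g • u ∈ Semistable.Gauss.ring A (IsLocalRing.residue A) (Semistable.Level.ι₂ S.al) ↔
    g • S.al.w u ∈ Semistable.Gauss.ring A (IsLocalRing.residue A) (Semistable.Level.ι₁ M q)
  rw [Semistable.Level.mem_ring₂_iff, map_smul_al]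

omit [NeZero M] [IsAlgClosed (IsLocalRing.ResidueField A)] in
theorem coe_smul_eq_single {c : IsLocalRing.ResidueField A}
    (z : modularFunctionFieldFullC (IsLocalRing.ResidueField A) M) :
    ((c • z : modularFunctionFieldFullC (IsLocalRing.ResidueField A) M) :
        LaurentSeries (IsLocalRing.ResidueField A)) =
      HahnSeries.single (0 : ℤ) c * (z : LaurentSeries (IsLocalRing.ResidueField A)) := by
  rw [IntermediateField.coe_smul, Algebra.smul_def, algebraMap_laurentSeries_eq_single]

omit [NeZero M] [IsAlgClosed (IsLocalRing.ResidueField A)] [Fact q.Prime]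
  [CharP (IsLocalRing.ResidueField A) q] in
theorem exists_eq_smul_pow
    {z : modularFunctionFieldFullC (IsLocalRing.ResidueField A) M}
    (h : SemistableHecke.IsTrivRes A M q (z : LaurentSeries (IsLocalRing.ResidueField A))) :
    ∃ (a : IsLocalRing.ResidueField A)
      (y : modularFunctionFieldFullC (IsLocalRing.ResidueField A) M), z = a • y ^ q := by
  obtain ⟨c, y, -, -, hy, e⟩ := h
  exact ⟨c, ⟨y, hy⟩, Subtype.ext (by rw [e, coe_smul_eq_single, SubmonoidClass.coe_pow])⟩

omit [IsAlgClosed (IsLocalRing.ResidueField A)] [CharP (IsLocalRing.ResidueField A) q] in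
theorem pushJ_alpha_al (x : JZero (M * q)) :
    pushJ (heckeAlphaBar Qbar M q) (pushJ S.al.w x) = pushJ (heckeBetaBar Qbar M q) x := by
  rw [SemistableHecke.pushJ_comp, S.al.w_alpha]

omit [IsAlgClosed (IsLocalRing.ResidueField A)] [CharP (IsLocalRing.ResidueField A) q] in
/-- The image of torsion data under the involution. -/
theorem ord_pushDegZero_al
    (D : Divisor.degZero (K := Qbar) (F := modularFunctionFieldBar (M * q)))
    {f : modularFunctionFieldBar (M * q)} (hf : f ≠ 0)
    (hdiv : ∀ v, (q : ℤ) * (D : Divisor Qbar (modularFunctionFieldBar (M * q))) v = v.ord f)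
    (v : Place Qbar (modularFunctionFieldBar (M * q))) :
    (q : ℤ) * (SemistableHecke.pushDegZero S.al.w D :
      Divisor Qbar (modularFunctionFieldBar (M * q))) v = v.ord (S.al.w f) := by
  rw [← SemistableHecke.normAlong_al S.al.w_alpha S.al.w_beta f, SemistableHecke.coe_pushDegZero]
  exact SemistableHecke.pushDiv_mul_eq_ord S.al.w hf hdiv v

theorem isData_branch₁ (D : Divisor.degZero (K := Qbar) (F := modularFunctionFieldBar (M * q)))
    {f : modularFunctionFieldBar (M * q)} (hf : f ≠ 0)
    (hdiv : ∀ v, (q : ℤ) * (D : Divisor Qbar (modularFunctionFieldBar (M * q))) v = v.ord f)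
    {c : Qbar} (hc : c ≠ 0) (hm : (Semistable.Level.branch₁ S).Mem c f)
    (hr : (Semistable.Level.branch₁ S).red c f ≠ 0) :
    IsData A q (Pic0.mk D) (c • f) ((Semistable.Level.branch₁ S).red c f :
      LaurentSeries (IsLocalRing.ResidueField A)) := by
  refine ⟨D, rfl, smul_ne_zero hc hf, fun v => ?_, fun h => hr (Subtype.ext h), ?_⟩
  · rw [FFBasic.ord_smul_const v hc]
    exact hdiv v
  · refine (SemistableHecke.hasBar_iff (Semistable.Level.ι₁ M q) (c • f)
      ((Semistable.Level.branch₁ S).red c f : LaurentSeries (IsLocalRing.ResidueField A))).mpr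
      ⟨hm, ?_⟩
    rw [(Semistable.Level.branch₁ S).red_eq hm]
    exact (Semistable.Level.coe_res₁ S hm).symm

theorem isData_branch₂ (D : Divisor.degZero (K := Qbar) (F := modularFunctionFieldBar (M * q)))
    {f : modularFunctionFieldBar (M * q)} (hf : f ≠ 0)
    (hdiv : ∀ v, (q : ℤ) * (D : Divisor Qbar (modularFunctionFieldBar (M * q))) v = v.ord f)
    {c : Qbar} (hc : c ≠ 0) (hm : (Semistable.Level.branch₂ S).Mem c f)
    (hr : (Semistable.Level.branch₂ S).red c f ≠ 0) :
    IsData A q (pushJ S.al.w (Pic0.mk D)) (S.al.w (c • f))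
      ((Semistable.Level.branch₂ S).red c f : LaurentSeries (IsLocalRing.ResidueField A)) := by
  refine ⟨SemistableHecke.pushDegZero S.al.w D, (SemistableHecke.pushJ_mk _ _).symm,
    (map_ne_zero S.al.w).mpr (smul_ne_zero hc hf), ?_, fun h => hr (Subtype.ext h), ?_⟩
  · refine ord_pushDegZero_al S D (smul_ne_zero hc hf) fun v => ?_
    rw [FFBasic.ord_smul_const v hc]
    exact hdiv v
  · refine (SemistableHecke.hasBar_iff (Semistable.Level.ι₁ M q) (S.al.w (c • f))
      ((Semistable.Level.branch₂ S).red c f : LaurentSeries (IsLocalRing.ResidueField A))).mpr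
      ⟨(Semistable.Level.mem_ring₂_iff (IsLocalRing.residue A) S.al (c • f)).mp hm, ?_⟩
    rw [(Semistable.Level.branch₂ S).red_eq hm]
    exact ((Semistable.Level.coe_res₂ S hm).trans
      (Semistable.Level.res₂_eq (IsLocalRing.residue A) S.al hm)).symm

variable [IsFunctionField (IsLocalRing.ResidueField A)
  (modularFunctionFieldFullC (IsLocalRing.ResidueField A) M)]

/-- Approximation: such classes are split. -/
theorem isSplit_of_pushJ_eq_zero
    (hk : (Semistable.Level.hbar S : LaurentSeries (IsLocalRing.ResidueField A)) ∈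
      IntermediateField.adjoin (IsLocalRing.ResidueField A)
        {jqModC (IsLocalRing.ResidueField A)})
    (hA : A.LiesOverPrime q) {x : JZero (M * q)} (hx : q • x = 0)
    (hα : pushJ (heckeAlphaBar Qbar M q) x = 0) (hβ : pushJ (heckeBetaBar Qbar M q) x = 0)
    (h₁ : Triv A q x) (h₂ : Triv A q (pushJ S.al.w x)) :
    (Semistable.Level.pairReduction S hk).IsSplit q x := by
  have hq : q.Prime := Fact.out
  obtain ⟨u, hu⟩ := SemistableHecke.exists_primitiveRoot q
  obtain ⟨-, -, -, hlne, hlt, -⟩ :=
    Semistable.primitiveRoot_level (π := IsLocalRing.residue A) IsLocalRing.residue_surjective hq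
      (IsPrimitiveRoot.coe_units_iff.mpr hu)
  refine Semistable.PairReduction.isSplit_of_step hq (fun a b ha hb => S.arch a b ha hb)
    (Deuring.exists_residue_eq_zero hA) hlne hlt ?_ ?_
  · obtain ⟨T, hT⟩ := (Semistable.Level.pairReduction S hk).exists_torsionData hx
    refine ⟨T, hT, exists_eq_smul_pow ?_, exists_eq_smul_pow ?_⟩
    · refine SemistableHecke.Triv.of_data S hA h₁ (g := T.c.1 • T.f) ?_
      rw [← hT]
      exact isData_branch₁ S ⟨T.D, T.degree_eq⟩ T.f_ne T.div_eq T.c_ne₁ T.mem.1 T.ne₁
    · refine SemistableHecke.Triv.of_data S hA h₂ (g := S.al.w (T.c.2 • T.f)) ?_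
      rw [← hT]
      exact isData_branch₂ S ⟨T.D, T.degree_eq⟩ T.f_ne T.div_eq T.c_ne₂ T.mem.2 T.ne₂
  · intro T hT b s hb hb1 hls hbs hs1 i₁ i₂
    have hs0 : s ≠ 0 := fun h => hlne (by simpa [h] using hls)
    set D : Divisor.degZero (K := Qbar) (F := modularFunctionFieldBar (M * q)) :=
      ⟨T.D, T.degree_eq⟩ with hD
    have hmk : Pic0.mk D = x := hT
    have i₂' : (Semistable.Level.branch₁ S).Mem b⁻¹ (T.c.2 • S.al.w T.f - 1) := by
      have h : (Semistable.Level.branch₂ S).Mem b⁻¹ (T.c.2 • T.f - 1) := i₂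
      rwa [mem₂_iff, map_sub, map_smul_al, map_one] at h
    obtain ⟨h, hh⟩ := exists_norm_root S hu (D := D) T.f_ne T.div_eq (hmk ▸ hα) hb hb1 hls hbs hs0
      hs1 i₁ i₂'
    obtain ⟨h', hh'⟩ := exists_norm_root S hu (D := SemistableHecke.pushDegZero S.al.w D)
      ((map_ne_zero S.al.w).mpr T.f_ne) (ord_pushDegZero_al S D T.f_ne T.div_eq)
      (by rw [← SemistableHecke.pushJ_mk S.al.w D, pushJ_alpha_al, hmk, hβ]) hb hb1 hls hbs hs0
      hs1 i₂' (c₂ := T.c.1) (by rw [Semistable.Level.w_w]; exact i₁)
    refine ⟨heckeAlphaBar Qbar M q h, S.al.w (heckeAlphaBar Qbar M q h'), hh, ?_⟩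
    show (Semistable.Level.branch₂ S).Mem _ _
    rw [mem₂_iff, map_sub, map_smul_al, map_pow, Semistable.Level.w_w]
    exact hh'

end FLTAgent.SemistableSplit
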