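import Fermat.Agent.SemistableSplit.Approximation
import Fermat.Agent.Semistable.Rigidity
import Fermat.Agent.SemistableHecke.FixedClasses
import Mathlib.RingTheory.RootsOfUnity.Lemmas

/-!
# Split rigidity

A morphism trivial on the reductions acts on split classes through its action on the `p`-th roots
of unity (`IsSplit.smul_eq`).
-/

set_option autoImplicit false

noncomputable section

open AlgebraicCurve FLTAgent.FFRiemannRoch FLTAgent.FFBasic

namespace FLTAgent.Semistable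

variable {L k : Type*} [Field L] [Field k] {A : ValuationSubring L} {π : A →+* k}

/-- The level of a primitive `p`-th root of unity in residue characteristic `p`. -/
theorem primitiveRoot_level (hπ : Function.Surjective π) {p : ℕ} (hp : p.Prime) [CharP k p]
    {ζ : L} (hζ : IsPrimitiveRoot ζ p) :
    ∃ ζA : A, (ζA : L) = ζ ∧ π ζA = 1 ∧ ζ - 1 ≠ 0 ∧ A.valuation (ζ - 1) < 1 ∧
      A.valuation (ζ - 1) ^ (p - 1) = A.valuation (p : L) := by
  have := Fact.mk hp
  obtain ⟨n, rfl⟩ : ∃ n, p = n + 1 := ⟨p - 1, by have := hp.two_le; omega⟩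
  have hζA : ζ ∈ A := by
    rcases A.mem_or_inv_mem ζ with h | h
    · exact h
    · have h1 : ζ = ζ⁻¹ ^ n := by
        rw [inv_pow]
        exact eq_inv_of_mul_eq_one_right (by rw [← pow_succ, hζ.pow_eq_one])
      rw [h1]
      exact pow_mem h n
  set ζA : A := ⟨ζ, hζA⟩
  have hπζ : π ζA = 1 := by
    refine frobenius_inj k (n + 1) ?_
    rw [frobenius_def, frobenius_def, one_pow, ← map_pow, show ζA ^ (n + 1) = 1 from
      Subtype.ext (by simpa using hζ.pow_eq_one), map_one]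
  have hne : ζ - 1 ≠ 0 := sub_ne_zero.mpr (hζ.ne_one hp.one_lt)
  have hlt : A.valuation (ζ - 1) < 1 :=
    valuation_lt_one_of_π_eq_zero (π := π) (a := ζA - 1) (by rw [map_sub, hπζ, map_one, sub_self])
  refine ⟨ζA, rfl, hπζ, hne, hlt, ?_⟩
  have key : ∀ i ∈ Finset.range n, A.valuation (1 - ζ ^ (i + 1)) = A.valuation (ζ - 1) := by
    intro i hi
    have hi' : i < n := Finset.mem_range.mp hi
    set S : A := ∑ t ∈ Finset.range (i + 1), ζA ^ t
    have hS : π S = (i + 1 : ℕ) := by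
      simp only [S, map_sum, map_pow, hπζ, one_pow, Finset.sum_const, Finset.card_range,
        nsmul_eq_mul, mul_one]
    have hS0 : π S ≠ 0 := by
      rw [hS, Ne, CharP.cast_eq_zero_iff k (n + 1)]
      exact fun hd => absurd (Nat.le_of_dvd (Nat.succ_pos i) hd) (by omega)
    have hS1 : A.valuation (S : L) = 1 := le_antisymm (A.valuation_le_one S)
      (not_lt.mp fun h => hS0 (π_eq_zero_of_lt_one hπ h))
    have e : 1 - ζ ^ (i + 1) = -((S : L) * (ζ - 1)) := by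
      rw [show (S : L) = ∑ t ∈ Finset.range (i + 1), ζ ^ t by simp [S, ζA], geom_sum_mul]
      ring
    rw [e, Valuation.map_neg, map_mul, hS1, one_mul]
  rw [Nat.add_sub_cancel, Nat.cast_succ, ← hζ.prod_one_sub_pow_eq_order, map_prod,
    Finset.prod_congr rfl key, Finset.prod_const, Finset.card_range]

variable {F F₁ F₂ : Type*} [Field F] [Field F₁] [Field F₂]
  [Algebra L F] [Algebra k F₁] [Algebra k F₂] {ι : Type*} [Fintype ι]

namespace PairReduction

variable {C : PairReduction A π F F₁ F₂ ι}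

theorem TorsionData.exists_eq_smul [IsAlgClosed L] [IsFunctionField L F] {m : ℕ}
    {S T : C.TorsionData m} (h : S.cls = T.cls) :
    ∃ (a : L) (h0 : F), a ≠ 0 ∧ h0 ≠ 0 ∧ (∀ v : Place L F, T.D v - S.D v = v.ord h0) ∧
      T.f = a • (S.f * h0 ^ m) := by
  obtain ⟨h0, hh0, hh⟩ : ∃ h0 : F, h0 ≠ 0 ∧ ∀ v : Place L F, T.D v - S.D v = v.ord h0 := by
    have := (QuotientAddGroup.eq.mp h : _)
    rw [AddSubgroup.mem_addSubgroupOf] at this
    obtain ⟨h0, hh0, hh⟩ := this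
    exact ⟨h0, hh0, fun v => by rw [← hh v]; simp [sub_eq_neg_add]⟩
  obtain ⟨a, ha⟩ : ∃ a : L, algebraMap L F a = T.f / (S.f * h0 ^ m) := by
    refine exists_eq_algebraMap_of_isIntegral (IsAlgebraic.isIntegral
      (isAlgebraic_iff_forall_ord_eq_zero.mpr fun v => ?_))
    rw [div_eq_mul_inv, v.ord_mul T.f_ne (inv_ne_zero (mul_ne_zero S.f_ne (pow_ne_zero m hh0))),
      v.ord_inv, v.ord_mul S.f_ne (pow_ne_zero m hh0), ← zpow_natCast, v.ord_zpow, ← S.div_eq,
      ← T.div_eq, ← hh v]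
    ring
  have hf : T.f = a • (S.f * h0 ^ m) := by
    rw [Algebra.smul_def, ha, div_mul_cancel₀ _ (mul_ne_zero S.f_ne (pow_ne_zero m hh0))]
  exact ⟨a, h0, fun h0' => T.f_ne (by rw [hf, h0', zero_smul]), hh0, hh, hf⟩

theorem IsSplit.nsmul_eq_zero {p : ℕ} {x : Pic0 L F} (hx : C.IsSplit p x) : p • x = 0 := by
  obtain ⟨T, rfl, -⟩ := hx 1 one_ne_zero
  exact T.nsmul_cls

/-- Split classes have data of every precision with roots of the scales. -/
theorem IsSplit.exists_splitData [IsAlgClosed L] {p : ℕ} (hp : 0 < p) {x : Pic0 L F}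
    (hx : C.IsSplit p x) {b : L} (hb : b ≠ 0) (hb1 : A.valuation b < 1) :
    ∃ D : C.SplitData p b, D.T.cls = x := by
  have hbA : b ∈ A := (A.valuation_le_one_iff b).mp hb1.le
  obtain ⟨T, hT, ⟨r₁, hr₁, e₁⟩, r₂, hr₂, e₂⟩ :=
    hx ⟨b, hbA⟩ fun h => hb (congrArg Subtype.val h)
  obtain ⟨g₁, hg₁⟩ := IsAlgClosed.exists_pow_nat_eq T.c.1⁻¹ hp
  obtain ⟨g₂, hg₂⟩ := IsAlgClosed.exists_pow_nat_eq T.c.2⁻¹ hp
  refine ⟨{ T := T, g := (g₁, g₂), g_pow₁ := ?_, g_pow₂ := ?_, b_ne := hb, b_lt := hb1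
            near₁ := ?_, near₂ := ?_ }, hT⟩
  · rw [hg₁, inv_mul_cancel₀ T.c_ne₁]
  · rw [hg₂, inv_mul_cancel₀ T.c_ne₂]
  · rw [e₁, add_sub_cancel_left, C.b₁.mem_smul_iff, inv_mul_cancel₀ hb]
    exact hr₁
  · rw [e₂, add_sub_cancel_left, C.b₂.mem_smul_iff, inv_mul_cancel₀ hb]
    exact hr₂

namespace SplitData

variable {p : ℕ} {b b' : L} (D : C.SplitData p b) (Φ : Morph C C)

/-- The image of the data times a power of the data. -/
def image (hb' : b' ≠ 0) (hb'1 : A.valuation b' < 1) (h : A.valuation b ≤ A.valuation b')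
    (h' : A.valuation (SemilinearAut.baseAut Φ.g b) ≤ A.valuation b') (m : ℕ) :
    C.SplitData p b' where
  T := (Φ.mapData D.T).mul (D.T.npow m)
  g := Φ.base D.g * D.g ^ m
  g_pow₁ := by
    show (SemilinearAut.baseAut Φ.g D.g.1 * D.g.1 ^ m) ^ p *
      (SemilinearAut.baseAut Φ.g D.T.c.1 * D.T.c.1 ^ m) = 1
    have e := congrArg (SemilinearAut.baseAut Φ.g) D.g_pow₁
    rw [map_mul, map_pow, map_one] at e
    rw [mul_pow, mul_mul_mul_comm, e, one_mul, ← pow_mul, mul_comm m p, pow_mul, ← mul_pow,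
      D.g_pow₁, one_pow]
  g_pow₂ := by
    show (SemilinearAut.baseAut Φ.g D.g.2 * D.g.2 ^ m) ^ p *
      (SemilinearAut.baseAut Φ.g D.T.c.2 * D.T.c.2 ^ m) = 1
    have e := congrArg (SemilinearAut.baseAut Φ.g) D.g_pow₂
    rw [map_mul, map_pow, map_one] at e
    rw [mul_pow, mul_mul_mul_comm, e, one_mul, ← pow_mul, mul_comm m p, pow_mul, ← mul_pow,
      D.g_pow₂, one_pow]
  b_ne := hb'
  b_lt := hb'1
  near₁ := by
    show C.b₁.Mem b'⁻¹ ((SemilinearAut.baseAut Φ.g D.T.c.1 * D.T.c.1 ^ m) •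
      (Φ.g • D.T.f * D.T.f ^ m) - 1)
    rw [← smul_mul_smul_comm, ← Φ.smul_algebra_smul, ← smul_pow]
    have h1 := (Φ.branch₁_map D.near₁).1
    rw [map_inv₀, smul_sub, smul_one] at h1
    have h0 := C.b₁.mem_inv_mono D.b_ne h D.near₁
    have hm := C.b₁.mem_and_red_eq_one C.π_surj hb' hb'1 h0
    obtain ⟨hpow, -⟩ := C.b₁.red_inv_pow_sub_one C.π_surj hb' hb'1 h0 m
    refine C.b₁.mem_inv_mul_sub_one ?_ (C.b₁.mem_inv_mono ((map_ne_zero _).mpr D.b_ne) h' h1) hpow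
    simpa using Branch.Mem.pow C.b₁ hm.1 m
  near₂ := by
    show C.b₂.Mem b'⁻¹ ((SemilinearAut.baseAut Φ.g D.T.c.2 * D.T.c.2 ^ m) •
      (Φ.g • D.T.f * D.T.f ^ m) - 1)
    rw [← smul_mul_smul_comm, ← Φ.smul_algebra_smul, ← smul_pow]
    have h1 := (Φ.branch₂_map D.near₂).1
    rw [map_inv₀, smul_sub, smul_one] at h1
    have h0 := C.b₂.mem_inv_mono D.b_ne h D.near₂
    have hm := C.b₂.mem_and_red_eq_one C.π_surj hb' hb'1 h0
    obtain ⟨hpow, -⟩ := C.b₂.red_inv_pow_sub_one C.π_surj hb' hb'1 h0 m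
    refine C.b₂.mem_inv_mul_sub_one ?_ (C.b₂.mem_inv_mono ((map_ne_zero _).mpr D.b_ne) h' h1) hpow
    simpa using Branch.Mem.pow C.b₂ hm.1 m

end SplitData

end PairReduction

/-- The defect of `σx · x ^ m`, where `σ` scales the level by `ν`. -/
theorem Branch.red_twisted_power {F Fb : Type*} [Field F] [Field Fb] [Algebra L F] [Algebra k Fb]
    (B : Branch A π F Fb) (hπ : Function.Surjective π) {lam : L} (hlam : lam ≠ 0)
    (hlam1 : A.valuation lam < 1) {ν : A} (hν : (ν : L) ≠ 0) {x y : F} {d : Fb}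
    (hx : B.Mem lam⁻¹ (x - 1)) (hd : B.red lam⁻¹ (x - 1) = d)
    (hy : B.Mem (lam * ν)⁻¹ (y - 1)) (hdy : B.red (lam * ν)⁻¹ (y - 1) = d) (m : ℕ)
    (hsum : algebraMap k Fb (π ν) + (m : Fb) = 0) :
    B.Mem lam⁻¹ (y * x ^ m - 1) ∧ B.red lam⁻¹ (y * x ^ m - 1) = 0 := by
  have hne : lam * (ν : L) ≠ 0 := mul_ne_zero hlam hν
  have hle : A.valuation (lam * ν) ≤ A.valuation lam := by
    rw [map_mul]; exact mul_le_of_le_one_right' (A.valuation_le_one ν)
  have hy' : B.Mem lam⁻¹ (y - 1) := B.mem_inv_mono hne hle hy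
  have hry : B.red lam⁻¹ (y - 1) = π ν • d := by
    rw [← hdy, B.red_eq_smul_of_le (inv_ne_zero hne) (valuation_inv_le_inv hne hle) hy]
    congr 2
    refine Subtype.ext ?_
    show lam⁻¹ / (lam * (ν : L))⁻¹ = ν
    rw [div_inv_eq_mul, inv_mul_cancel_left₀ hlam]
  obtain ⟨hpow, hpr⟩ := B.red_inv_pow_sub_one hπ hlam hlam1 hx m
  obtain ⟨hx1, hx1r⟩ := B.mem_and_red_eq_one hπ hlam hlam1 hx
  have hxm : B.Mem 1 (x ^ m) := by simpa using Branch.Mem.pow B hx1 m
  have hxr : B.red 1 (x ^ m) = 1 := by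
    have := B.red_pow hx1 m
    rwa [one_pow, hx1r, one_pow] at this
  refine ⟨B.mem_inv_mul_sub_one hxm hy' hpow, ?_⟩
  rw [B.red_inv_mul_sub_one hxm hxr hy' hpow, hry, hpr, hd, Algebra.smul_def, ← add_mul, hsum,
    zero_mul]

namespace PairReduction

variable {C : PairReduction A π F F₁ F₂ ι}
variable [IsAlgClosed k] [IsFunctionField k F₁] [IsFunctionField k F₂]
  [IsAlgClosed L] [IsFunctionField L F]

/-- Split classes are acted on through the action on `p`-th roots of unity. -/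
theorem IsSplit.smul_eq {p : ℕ} (hp : p.Prime) [CharP k p] (harch : Arch π)
    (ht : ∃ t : A, t ≠ 0 ∧ π t = 0) (Φ : Morph C C) (h₁ : ∀ a, Φ.σ₁ a = a)
    (h₂ : ∀ a, Φ.σ₂ a = a) (hE : Φ.g • C.E = C.E) {ζ : L} (hζ : IsPrimitiveRoot ζ p) {n : ℕ}
    (hn : SemilinearAut.baseAut Φ.g ζ = ζ ^ n) {x : Pic0 L F} (hx : C.IsSplit p x) :
    Φ.g • x = n • x := by
  obtain ⟨ζA, hζA, hπζ, hlam, hlam1, hpl⟩ := primitiveRoot_level C.π_surj hp hζ
  set lam := ζ - 1 with hlamdef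
  have : NeZero p := ⟨hp.ne_zero⟩
  have hp0 : (p : L) ≠ 0 := hζ.neZero'.out
  set ν : A := ∑ i ∈ Finset.range n, ζA ^ i with hνdef
  have hν : SemilinearAut.baseAut Φ.g lam = lam * (ν : L) := by
    rw [hlamdef, map_sub, map_one, hn, mul_comm]
    simp [ν, hζA, geom_sum_mul]
  have hν0 : (ν : L) ≠ 0 := fun h => by
    have h1 : SemilinearAut.baseAut Φ.g lam ≠ 0 := (map_ne_zero _).mpr hlam
    rw [hν, h, mul_zero] at h1
    exact h1 rfl
  have hπν : π ν = n := by simp [ν, hπζ]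
  set m := (p - 1) * n with hm
  have hnm : n + m = p * n := by
    rw [hm]
    conv_rhs => rw [← Nat.sub_add_cancel hp.one_le, add_mul, one_mul, add_comm]
  have hsum₁ : algebraMap k F₁ (π ν) + (m : F₁) = 0 := by
    rw [hπν, map_natCast, ← Nat.cast_add, hnm, ← map_natCast (algebraMap k F₁), Nat.cast_mul,
      CharP.cast_eq_zero, zero_mul, map_zero]
  have hsum₂ : algebraMap k F₂ (π ν) + (m : F₂) = 0 := by
    rw [hπν, map_natCast, ← Nat.cast_add, hnm, ← map_natCast (algebraMap k F₂), Nat.cast_mul,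
      CharP.cast_eq_zero, zero_mul, map_zero]
  obtain ⟨n₀, hn₀⟩ := C.exists_adequate
  set N := (1 + m) * n₀ with hN
  have hadq : C.Adequate N := hn₀ N (Nat.le_mul_of_pos_left _ (by omega))
  have hadq₀ : C.Adequate n₀ := hn₀ n₀ le_rfl
  set y := Φ.g • x + m • x with hy
  -- approximate roots of data of `y`
  have main : ∀ β₀ : L, β₀ ≠ 0 → A.valuation β₀ ≤ A.valuation lam →
      ∃ (b : L) (D : C.SplitData p b), D.T.cls = y ∧ A.valuation b ≤ A.valuation β₀ ∧
        ∃ u ∈ D.lvl N, C.Near D.g β₀ 1 u := by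
    intro β₀ hβ₀ hβl
    have hβ1 : A.valuation β₀ < 1 := hβl.trans_lt hlam1
    set b₂ := (p : L) * β₀ * lam with hb₂
    have hb₂0 : b₂ ≠ 0 := mul_ne_zero (mul_ne_zero hp0 hβ₀) hlam
    have hp1 : A.valuation (p : L) ≤ 1 := (A.valuation_le_one_iff _).mpr (natCast_mem A p)
    have hb₂lt : A.valuation b₂ < A.valuation ((p : L) * β₀) := by
      rw [hb₂, map_mul ((A.valuation : Valuation L _)) ((p : L) * β₀)]
      exact mul_lt_of_lt_one_right (valuation_pos (mul_ne_zero hp0 hβ₀)) hlam1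
    have hb₂β : A.valuation b₂ ≤ A.valuation β₀ := by
      refine hb₂lt.le.trans ?_
      rw [map_mul]
      exact mul_le_of_le_one_left' hp1
    have hb₂1 : A.valuation b₂ < 1 := hb₂β.trans_lt hβ1
    obtain ⟨t, ht0, htπ⟩ := ht
    obtain ⟨t', ht', ht'π⟩ := Φ.exists_baseAut_eq t
    obtain ⟨B', hB', -⟩ := Φ.exists_baseAut_eq ⟨b₂, (A.valuation_le_one_iff b₂).mp hb₂1.le⟩
    rw [htπ, map_zero] at ht'π
    obtain ⟨M, hM⟩ := Arch.exists_pow_le harch C.π_surj
      (valuation_lt_one_of_π_eq_zero ht'π) hb₂0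
    set b := (t : L) ^ M * b₂ with hb
    have hb0 : b ≠ 0 :=
      mul_ne_zero (pow_ne_zero _ fun h => ht0 (Subtype.ext h)) hb₂0
    have hble : A.valuation b ≤ A.valuation b₂ := by
      rw [hb, map_mul, map_pow]
      exact mul_le_of_le_one_left' (pow_le_one₀ zero_le (A.valuation_le_one t))
    have hσb : A.valuation (SemilinearAut.baseAut Φ.g b) ≤ A.valuation b₂ := by
      rw [hb, map_mul (SemilinearAut.baseAut Φ.g), map_pow (SemilinearAut.baseAut Φ.g),
        ← ht', ← hB', map_mul, map_pow]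
      exact (mul_le_of_le_one_right' (A.valuation_le_one B')).trans hM
    obtain ⟨D, hD⟩ := hx.exists_splitData hp.pos hb0 (hble.trans_lt hb₂1)
    have hblam : A.valuation b₂ < A.valuation lam ^ p := by
      refine hb₂lt.trans_le ?_
      rw [map_mul, ← hpl]
      conv_rhs => rw [← Nat.sub_add_cancel hp.pos, pow_succ]
      exact mul_le_mul' le_rfl hβl
    obtain ⟨u, hu, hun⟩ := D.exists_near hp ⟨t, ht0, htπ⟩ harch hadq₀ (w := 1)
      (riemannRochSpace_mono (nsmul_le_nsmul_divisor C.polar.1 (Nat.zero_le n₀))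
        (pow_zero C.J ▸ C.polar.pow_mem 0)) mem_one_pair hlam hlam1 hpl.ge (hble.trans_lt hblam)
    set D' := D.image Φ hb₂0 hb₂1 hble hσb m with hD'
    have hcls : D'.T.cls = y := by
      show (Φ.mapData D.T).cls + (m • D.T.cls) = y
      rw [Φ.cls_mapData, hD]
    set u' := Φ.g • u * u ^ m with hu'
    have hu'V : u' ∈ D'.lvl N := by
      show u' ∈ riemannRochSpace (Φ.g • D.T.D + m • D.T.D + N • C.E)
      have h1 := SemistableHecke.smul_mem_riemannRochSpace Φ.g hu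
      rw [smul_add, smul_comm Φ.g n₀ C.E, hE] at h1
      have h2 := mul_mem_riemannRochSpace h1 (pow_mem_riemannRochSpace hu m)
      rwa [show Φ.g • D.T.D + n₀ • C.E + m • (D.T.D + n₀ • C.E)
          = Φ.g • D.T.D + m • D.T.D + N • C.E by
        rw [hN, nsmul_add, ← mul_nsmul' C.E m n₀, add_mul, one_mul, add_nsmul]; abel] at h2
    have e₁ : D'.g.1 • u' = (Φ.g • (D.g.1 • u)) * (D.g.1 • u) ^ m := by
      rw [Φ.smul_algebra_smul, smul_pow, smul_mul_smul_comm]; rfl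
    have e₂ : D'.g.2 • u' = (Φ.g • (D.g.2 • u)) * (D.g.2 • u) ^ m := by
      rw [Φ.smul_algebra_smul, smul_pow, smul_mul_smul_comm]; rfl
    obtain ⟨hy₁, hyr₁⟩ := Φ.branch₁_map hun.1
    obtain ⟨hy₂, hyr₂⟩ := Φ.branch₂_map hun.2
    rw [map_inv₀, hν, smul_sub, smul_one] at hy₁ hyr₁ hy₂ hyr₂
    rw [h₁] at hyr₁
    rw [h₂] at hyr₂
    obtain ⟨n₁, r₁⟩ := C.b₁.red_twisted_power C.π_surj hlam hlam1 hν0 hun.1 rfl hy₁ hyr₁ m hsum₁
    obtain ⟨n₂, r₂⟩ := C.b₂.red_twisted_power C.π_surj hlam hlam1 hν0 hun.2 rfl hy₂ hyr₂ m hsum₂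
    rw [← e₁] at n₁ r₁
    rw [← e₂] at n₂ r₂
    obtain ⟨v, hv, hvn⟩ := D'.exists_near_of_defect hp ⟨t, ht0, htπ⟩ harch hadq hlam hlam1 hp0 hpl
      hu'V ⟨n₁, n₂⟩ (fun s => by
        show valueAt _ (C.b₁.red lam⁻¹ _) = valueAt _ (C.b₂.red lam⁻¹ _)
        rw [r₁, r₂, (hasValue_zero (v := C.node₁ s)).valueAt_eq,
          (hasValue_zero (v := C.node₂ s)).valueAt_eq]) hβ₀ hβl hb₂lt
    exact ⟨b₂, D', hcls, hb₂β, v, hv, hvn⟩
  obtain ⟨b₀, D₀, hD₀, -, -⟩ := main lam hlam le_rfl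
  obtain ⟨v, hv⟩ := C.exists_root_of_approx (m := p) (f := D₀.T.f) (c := D₀.T.c) (g := D₀.g)
    (Prod.ext D₀.g_pow₁ D₀.g_pow₂) (D₀.g_ne₁ hp.pos) (D₀.g_ne₂ hp.pos) D₀.T.mem (D₀.lvl N) ht
    (fun b hb => by
      have hb0 : (b : L) ≠ 0 := fun h => hb (Subtype.ext h)
      obtain ⟨b₂, D, hD, hb₂, u, hu, hun⟩ := main ((b : L) * lam) (mul_ne_zero hb0 hlam) (by
        rw [map_mul]; exact mul_le_of_le_one_left' (A.valuation_le_one b))
      have hle : A.valuation ((b : L) * lam) ≤ A.valuation (b : L) := by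
        rw [map_mul]; exact mul_le_of_le_one_right' hlam1.le
      have hlt : A.valuation ((b : L) * lam) < 1 := by
        rw [map_mul]; exact (mul_le_of_le_one_left' (A.valuation_le_one b)).trans_lt hlam1
      obtain ⟨a, h0, -, hh0, hdiv, hf⟩ := TorsionData.exists_eq_smul (hD₀.trans hD.symm)
      obtain ⟨μ, hμ⟩ := IsAlgClosed.exists_pow_nat_eq a hp.pos
      set z := μ • (h0 * u) with hz
      have hG : z ^ p * D₀.T.f = u ^ p * D.T.f := by
        rw [hz, hf, smul_pow, hμ, mul_pow, smul_mul_assoc, mul_smul_comm]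
        congr 1
        ring
      have hzV : z ∈ D₀.lvl N := by
        refine Submodule.smul_mem _ μ fun v => ?_
        have h1 : h0 ∈ ball v (-v.ord h0) := (mem_ball_iff_ord v).mpr (Or.inr (by omega))
        have h2 := mul_mem_ball v h1 (hu v)
        rwa [show -v.ord h0 + (D.T.D + N • C.E : Divisor L F) v
            = (D₀.T.D + N • C.E : Divisor L F) v by
          simp only [Finsupp.add_apply]; linarith [hdiv v]] at h2
      have near : C.Mem (((b : L) * lam)⁻¹, ((b : L) * lam)⁻¹) (u ^ p * D.T.f - 1) := by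
        constructor
        · have hx1 := (C.b₁.red_inv_pow_sub_one C.π_surj (mul_ne_zero hb0 hlam) hlt hun.1 p).1
          have he := C.b₁.mem_inv_mono D.b_ne hb₂ D.near₁
          have := C.b₁.mem_inv_mul_sub_one
            (C.b₁.mem_and_red_eq_one C.π_surj (mul_ne_zero hb0 hlam) hlt he).1 hx1 he
          rwa [smul_pow, smul_mul_smul_comm, D.g_pow₁, one_smul] at this
        · have hx1 := (C.b₂.red_inv_pow_sub_one C.π_surj (mul_ne_zero hb0 hlam) hlt hun.2 p).1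
          have he := C.b₂.mem_inv_mono D.b_ne hb₂ D.near₂
          have := C.b₂.mem_inv_mul_sub_one
            (C.b₂.mem_and_red_eq_one C.π_surj (mul_ne_zero hb0 hlam) hlt he).1 hx1 he
          rwa [smul_pow, smul_mul_smul_comm, D.g_pow₂, one_smul] at this
      rw [← hG] at near
      refine ⟨z, hzV, ?_, C.b₁.mem_inv_mono (mul_ne_zero hb0 hlam) hle near.1,
        C.b₂.mem_inv_mono (mul_ne_zero hb0 hlam) hle near.2⟩
      have hGm := C.b₁.mem_and_red_eq_one C.π_surj (mul_ne_zero hb0 hlam) hlt near.1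
      have hGm' := C.b₂.mem_and_red_eq_one C.π_surj (mul_ne_zero hb0 hlam) hlt near.2
      constructor
      · refine C.b₁.mem_of_pow_mem hp.pos (C.b₁.mem_of_mul_mem C.π_surj D₀.T.mem.1 D₀.T.ne₁ ?_)
        rw [D₀.g_pow₁]
        exact hGm.1
      · refine C.b₂.mem_of_pow_mem hp.pos (C.b₂.mem_of_mul_mem C.π_surj D₀.T.mem.2 D₀.T.ne₂ ?_)
        rw [D₀.g_pow₂]
        exact hGm'.1)
  have hv0 : v ≠ 0 := fun h => by simp [h, zero_pow hp.ne_zero] at hv
  have hy0 : y = 0 := by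
    rw [← hD₀]
    show QuotientAddGroup.mk _ = (0 : Pic0 L F)
    rw [QuotientAddGroup.eq_zero_iff, AddSubgroup.mem_addSubgroupOf]
    refine ⟨v⁻¹, inv_ne_zero hv0, fun P => ?_⟩
    have e1 := congrArg P.ord hv
    rw [P.ord_mul (pow_ne_zero p hv0) D₀.T.f_ne, ← zpow_natCast, P.ord_zpow, P.ord_one,
      ← D₀.T.div_eq, ← mul_add] at e1
    have e2 := (mul_eq_zero.mp e1).resolve_left (by exact_mod_cast hp.ne_zero)
    show D₀.T.D P = _
    rw [P.ord_inv]
    omega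
  rw [hy] at hy0
  refine add_right_cancel (b := m • x) (hy0.trans ?_)
  rw [← add_nsmul, hnm, mul_comm, mul_nsmul', hx.nsmul_eq_zero, nsmul_zero]

end PairReduction

end FLTAgent.Semistable
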