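import Fermat.Agent.SemistableSplit.DeviationData

/-!
# The wild congruence for slopes

The slopes of a rational class with split deviation are congruent modulo `p` to a common multiple
of the widths (`IsSplit.exists_int_congr`).
-/

set_option autoImplicit false

noncomputable section

open AlgebraicCurve FLTAgent.FFRiemannRoch FLTAgent.FFBasic

namespace FLTAgent.Semistable

variable {L k : Type*} [Field L] [Field k] {A : ValuationSubring L} {π : A →+* k}
variable {F F₁ F₂ : Type*} [Field F] [Field F₁] [Field F₂]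
  [Algebra L F] [Algebra k F₁] [Algebra k F₂] {ι : Type*} [Fintype ι]
variable [IsAlgClosed k] [IsFunctionField k F₁] [IsFunctionField k F₂]
  [IsAlgClosed L] [IsFunctionField L F]

namespace PairReduction

variable {C : PairReduction A π F F₁ F₂ ι} {p : ℕ} [CharP k p]

/-- The wild congruence for a class with split deviation, with integral multipliers. -/
theorem IsSplit.exists_int_congr (hp : p.Prime) (U : NodeUnit C) {Φ : Morph C C} {R : RatForm C}
    (Δ : Deviation Φ R) (harch : Arch π) {x : Pic0 L F} {T : C.TorsionData p} (hT : T.cls = x)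
    (hf : T.f ∈ R.S)
    (hspan : ∀ n : ℕ, riemannRochSpace (T.D + n • C.E) ≤
      Submodule.span L ((R.S : Set F) ∩ riemannRochSpace (T.D + n • C.E)))
    {lam : L} (hlam : lam ≠ 0) (hlt : A.valuation lam < A.valuation (Δ.tt : L))
    (hpl : A.valuation (p : L) ≤ A.valuation lam ^ (p - 1))
    {e : ℤ} (he : A.valuation (R.ϖ ^ ((p : ℤ) * e)) = A.valuation U.Q)
    (hy : C.IsSplit p (x - Φ.g • x)) :
    ∃ j₀ : ℤ, ∀ s, ∃ j : ℤ, (p : ℤ) ∣ j - j₀ ∧
      e * (C.node₁ s).ord T.bar.1 = j * U.width₁ s := by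
  have : NeZero p := ⟨hp.ne_zero⟩
  rcases isEmpty_or_nonempty ι with hι | hι
  · exact ⟨0, fun s => (IsEmpty.false s).elim⟩
  rw [← hT] at hy
  obtain ⟨hz, n₀, w, d₁, d₂, hd₁, -, hw, hw₁, hw₂⟩ :=
    hy.exists_deviation_data hp U Δ harch T hf hspan hlam hlt hpl
  obtain ⟨s₀⟩ := hι
  obtain ⟨z₁, hm₁, hr₁⟩ := R.exists_norm₁ T.f hf T.f_ne
  obtain ⟨z₂, hm₂, hr₂⟩ := R.exists_norm₂ T.f hf T.f_ne
  have hv₁ := C.b₁.valuation_eq_of_red_ne_zero C.π_surj T.mem.1 T.ne₁ hm₁ hr₁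
  have hv₂ := C.b₂.valuation_eq_of_red_ne_zero C.π_surj T.mem.2 T.ne₂ hm₂ hr₂
  obtain ⟨d', hd'⟩ : (p : ℤ) ∣ z₂ - z₁ := by
    rw [← CharP.intCast_eq_zero_iff k p, Int.cast_sub, hz z₁ z₂ hm₁ hr₁ hm₂ hr₂, sub_self]
  have hϖ : A.valuation R.ϖ ≠ 0 := (Valuation.ne_zero_iff _).mpr R.ϖ_ne
  have key : ∀ s, ∃ (j : ℤ) (K : A), (d₂ : L) - d₁ = Δ.tt * K ∧ π K = π d₁ * π Δ.η * j ∧
      -((p : ℤ) * e * (C.node₁ s).ord T.bar.1) = (z₂ - z₁ + j * p) * U.width₁ s := by
    intro s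
    obtain ⟨N, hN'⟩ : ∃ N : ℕ, U.width₁ s = N :=
      ⟨_, (Int.toNat_of_nonneg (U.width₁_pos s).le).symm⟩
    have hpos := U.width₁_pos s
    have hb : 0 < N := by omega
    obtain ⟨n, g, y, hg₁, hg₂, hbal, hyS, hy', hyg, h₁, h₂⟩ :=
      T.exists_rational_exact U R harch (fun n₀ => ⟨n₀, le_rfl, hspan n₀⟩) hb
        (z := -(C.node₁ s).ord T.bar.1) (s := s) (by
          rw [show T.low₁ U N (-(C.node₁ s).ord T.bar.1) s = 0 by
            rw [TorsionData.low₁, hN']; ring]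
          exact dvd_zero _)
    obtain ⟨j, hj, K, hK, hKj⟩ :=
      T.deviation_key U Δ hw hw₁ hw₂ hb hbal hyS hy' hyg h₁ h₂
    refine ⟨j, K, hK, hKj, ?_⟩
    have hv : A.valuation ((g.2 ^ p * T.c.2) ^ N)
        = A.valuation ((g.1 ^ p * T.c.1) ^ N * U.Q ^ (-(C.node₁ s).ord T.bar.1)) := hbal
    have hg : A.valuation g.1 ≠ 0 := (Valuation.ne_zero_iff _).mpr hg₁
    rw [map_mul, map_pow, map_pow, map_zpow₀, map_mul, map_mul, map_pow, map_pow, hj, hv₁, hv₂,
      ← he, map_mul, map_zpow₀, map_zpow₀, map_zpow₀, map_zpow₀] at hv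
    simp only [← zpow_natCast, mul_zpow, ← zpow_mul, mul_assoc] at hv
    have h2 := mul_left_cancel₀ (zpow_ne_zero _ hg) hv
    rw [← zpow_add₀ hϖ, ← zpow_add₀ hϖ, ← map_zpow₀, ← map_zpow₀] at h2
    have h3 := valuation_zpow_injective R.ϖ_ne R.ϖ_lt h2
    rw [hN']
    linear_combination -h3
  choose j K hK hKj hrel using key
  have hconst : ∀ s, (j s : ZMod p) = j s₀ := fun s => by
    have hKK : K s = K s₀ := Subtype.ext (mul_left_cancel₀
      (fun h => Δ.tt_ne (Subtype.ext h)) ((hK s).symm.trans (hK s₀)))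
    have h := (hKj s).symm.trans ((congrArg π hKK).trans (hKj s₀))
    have h1 := mul_left_cancel₀ (mul_ne_zero hd₁ Δ.π_η) h
    rw [ZMod.intCast_eq_intCast_iff_dvd_sub, ← CharP.intCast_eq_zero_iff k p, Int.cast_sub,
      ← h1, sub_self]
  refine ⟨-(d' + j s₀), fun s => ⟨-(d' + j s), ?_, ?_⟩⟩
  · rw [← ZMod.intCast_eq_intCast_iff_dvd_sub]
    push_cast
    rw [hconst s]
  · refine mul_left_cancel₀ (by exact_mod_cast hp.ne_zero : (p : ℤ) ≠ 0) ?_
    have h := hrel s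
    rw [hd'] at h
    linear_combination -h

end PairReduction

end FLTAgent.Semistable
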