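import Fermat.Agent.SemistableSplit.SlopeNeZero
import Fermat.Agent.SemistableSplit.SlopeCongr
import Fermat.Agent.SemistableSplit.Modular
import Fermat.Agent.SemistableWild.Setting
import Fermat.Agent.SemistableEisenstein.SlopeHecke
import Fermat.Agent.SemistableEisenstein.NodeUnitX0
import Fermat.Agent.SemistableHecke.MazurInterface
import Fermat.Agent.SemistableHecke.TrivFrob
import Fermat.Agent.Semistable.Divisible
import Fermat.Agent.MazurStep.CuspFixed

/-!
# Nonzero slope gives Eisenstein eigenvalues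

Classes of `J₀(Mp)[p]` killed by both pushforwards and fixed by the inertia cutting out `ζ_p` and
a root of a unit have slopes proportional to the widths, hence Eisenstein eigenvalues when some
slope is nonzero: `slopeEisensteinAt_of_five_le` proves `SemistableHecke.SlopeEisensteinAt`.
-/

set_option autoImplicit false

noncomputable section

open AlgebraicCurve ModularCurve FLTAgent.HeckeJacobian FLTAgent.FFBasic
open FLTAgent.Semistable FLTAgent.Semistable.Level

namespace FLTAgent.SemistableSplit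

open FLTAgent.SemistableHecke (pushJ Triv IsData IsPeuFixed SlopeZero)

local notation "Qbar" => AlgebraicClosure ℚ

variable {M p : ℕ} [NeZero M]

section Galois

theorem smul_zero_jZero {N : ℕ} [NeZero N] (σ : Qbar ≃ₐ[ℚ] Qbar) : σ • (0 : JZero N) = 0 :=
  (DistribSMul.toAddMonoidHom (JZero N) σ).map_zero

variable [NeZero p]

/-- Pushforward along the first degeneracy map commutes with Galois. -/
theorem pushJ_alpha_galois (σ : Qbar ≃ₐ[ℚ] Qbar) (x : JZero (M * p)) :
    pushJ (heckeAlphaBar Qbar M p) (σ • x) = σ • pushJ (heckeAlphaBar Qbar M p) x :=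
  SemistableHecke.pushJ_galois _ σ (fun z => Subtype.ext (by
    show ((arithmeticGalois (modularFunctionFieldFull (M * p)) σ • heckeAlphaBar Qbar M p z :
        modularFunctionFieldBar (M * p)) : LaurentSeries Qbar) =
      ((heckeAlphaBar Qbar M p (arithmeticGalois (modularFunctionFieldFull M) σ • z) :
        modularFunctionFieldBar (M * p)) : LaurentSeries Qbar)
    rw [coe_arithmeticGalois_smul, coe_heckeAlphaBar, coe_heckeAlphaBar,
      coe_arithmeticGalois_smul])) x

/-- Pushforward along the second degeneracy map commutes with Galois. -/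
theorem pushJ_beta_galois (σ : Qbar ≃ₐ[ℚ] Qbar) (x : JZero (M * p)) :
    pushJ (heckeBetaBar Qbar M p) (σ • x) = σ • pushJ (heckeBetaBar Qbar M p) x :=
  SemistableHecke.pushJ_galois _ σ (fun z => Subtype.ext (by
    show ((arithmeticGalois (modularFunctionFieldFull (M * p)) σ • heckeBetaBar Qbar M p z :
        modularFunctionFieldBar (M * p)) : LaurentSeries Qbar) =
      ((heckeBetaBar Qbar M p (arithmeticGalois (modularFunctionFieldFull M) σ • z) :
        modularFunctionFieldBar (M * p)) : LaurentSeries Qbar)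
    rw [coe_arithmeticGalois_smul, coe_heckeBetaBar, coe_heckeBetaBar,
      coe_arithmeticGalois_smul, coeffMap_qExpand])) x

end Galois

variable [Fact p.Prime] {A : ValuationSubring (AlgebraicClosure ℚ)}
  [IsAlgClosed (IsLocalRing.ResidueField A)] [CharP (IsLocalRing.ResidueField A) p]
  [IsFunctionField (IsLocalRing.ResidueField A)
    (modularFunctionFieldFullC (IsLocalRing.ResidueField A) M)]
  [IsFunctionField (AlgebraicClosure ℚ) (modularFunctionFieldBar (M * p))]
  (S : Semistable.Level.Setting M p A (IsLocalRing.residue A))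
  (hk : (hbar S : LaurentSeries (IsLocalRing.ResidueField A)) ∈
    IntermediateField.adjoin (IsLocalRing.ResidueField A) {jqModC (IsLocalRing.ResidueField A)})

omit [IsFunctionField Qbar (modularFunctionFieldBar (M * p))] in
/-- Inertia moves classes killed by both pushforwards by split classes. -/
theorem isSplit_sub_galois (hA : A.LiesOverPrime p) {x : JZero (M * p)} (hx : p • x = 0)
    (hα : pushJ (heckeAlphaBar Qbar M p) x = 0) (hβ : pushJ (heckeBetaBar Qbar M p) x = 0)
    {σ : Qbar ≃ₐ[ℚ] Qbar} (hσ : σ ∈ A.inertiaSubgroupIn ℚ) :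
    (pairReduction S hk).IsSplit p (x - σ • x) := by
  have hp : p.Prime := Fact.out
  have hin : ∀ y : JZero (M * p), p • y = 0 → Triv A p (y - σ • y) := by
    intro y hy
    obtain ⟨hσD, hσ'⟩ : ∃ hσD : σ ∈ A.decompositionSubgroup ℚ,
        ∀ z : A, IsLocalRing.residue A ⟨σ z, MazurStep.inertia_mem hσ z.2⟩ =
          IsLocalRing.residue A z := by
      obtain ⟨⟨τ, hσD⟩, h, rfl⟩ := id hσ
      exact ⟨hσD, MazurStep.residue_inertia hσ⟩
    rw [← neg_sub]
    refine (SemistableHecke.triv_inertia_sub hp hA hσD (fun z => ?_) hy).neg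
    obtain ⟨z, rfl⟩ := IsLocalRing.residue_surjective z
    exact hσ' z
  refine isSplit_of_pushJ_eq_zero S hk hA
      (by rw [nsmul_sub, hx, smul_comm, hx]; exact (sub_eq_self.mpr (smul_zero_jZero σ)))
    ?_ ?_ (hin x hx) ?_
  · rw [map_sub, pushJ_alpha_galois, hα]
    exact sub_eq_self.mpr (smul_zero_jZero σ)
  · rw [map_sub, pushJ_beta_galois, hβ]
    exact sub_eq_self.mpr (smul_zero_jZero σ)
  · rw [map_sub, SemistableHecke.pushJ_al_galois S.al.w_alpha S.al.w_beta]
    exact hin _ (by rw [← map_nsmul, hx, map_zero])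

/-- Integral form of the wild congruence: the exponent `12 (p - 1)` times the orders of the
residual datum at the crossings are multiples of the widths by congruent integers. -/
theorem exists_int_congr (hp2 : p ≠ 2) (hA : A.LiesOverPrime p) {x : JZero (M * p)}
    (hx : p • x = 0) (hα : pushJ (heckeAlphaBar Qbar M p) x = 0)
    (hβ : pushJ (heckeBetaBar Qbar M p) x = 0) (hfix : IsPeuFixed A p x) :
    ∃ T : (pairReduction S hk).TorsionData p, T.cls = x ∧ ∃ j₀ : ℤ, ∀ s : nodeSet S, ∃ j : ℤ,
      (p : ℤ) ∣ j - j₀ ∧ ((12 * (p - 1) : ℕ) : ℤ) * (node₁ S s).ord T.bar.1 =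
        j * (node₁ S s).ord (hbar S) := by
  have hp : p.Prime := Fact.out
  obtain ⟨ζ, u, hζ, hu, huσ, hxfix⟩ := hfix
  obtain ⟨D⟩ := SemistableWild.nonempty_kummerData hp hp2 hA hζ hu huσ
  obtain ⟨O, hO⟩ := MazurStep.exists_galois_fixed_place (M * p)
  obtain ⟨T, hT, hf, -, hspan⟩ := D.discreteAction.exists_fixed_torsionData
    (C := pairReduction S hk) (fun g hg => D.group_smul_pol g hg) (P₀ := O)
    (by rintro _ ⟨σ, -, rfl⟩; exact hO σ) hx (D.smul_eq_of_fixed hxfix)
  have hϖlt := D.valuation_ϖ_lt hA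
  have hζv : A.valuation (ζ - 1) = A.valuation D.ϖ ^ p := by
    refine (pow_left_inj₀ zero_le zero_le (show p - 1 ≠ 0 by have := hp.two_le; omega)).mp ?_
    rw [SemistableWild.valuation_zeta_sub_one hp hζ, ← pow_mul, D.ϖ_pow]
  refine ⟨T, hT, ?_⟩
  refine PairReduction.IsSplit.exists_int_congr hp (Eisenstein.nodeUnit S hk)
    (D.deviation S hk hA) (fun a b ha hb => S.arch a b ha hb) hT hf hspan (lam := ζ - 1)
    (sub_ne_zero.mpr (hζ.ne_one hp.one_lt)) ?_
    (SemistableWild.valuation_zeta_sub_one hp hζ).ge (D.valuation_Q S hk hA) ?_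
  · show A.valuation (ζ - 1) < A.valuation (D.σ D.ϖ / D.ϖ - 1)
    rw [D.tt_val, hζv]
    exact pow_lt_self_of_lt_one₀ (zero_lt_iff.mpr ((Valuation.ne_zero_iff _).mpr D.ϖ_ne)) hϖlt
      hp.one_lt
  · exact isSplit_sub_galois S hk hA hx hα hβ D.σ_mem

/-- The slope of a multiple. -/
theorem slope₁_nsmul {x : JZero (M * p)} (hx : p • x = 0) (n : ℕ) (s : nodeSet S) :
    (pairReduction S hk).slope₁ p (n • x) s =
      (n : ZMod p) * (pairReduction S hk).slope₁ p x s := by
  obtain ⟨T, hT⟩ := (pairReduction S hk).exists_torsionData hx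
  have hn : (T.npow n).cls = n • x := by rw [← hT]; rfl
  rw [PairReduction.slope₁_eq hn, PairReduction.slope₁_eq hT, T.bar_npow, Prod.pow_fst,
    FFBasic.ord_pow, Int.cast_mul, Int.cast_natCast]

/-- Classes with slopes proportional to the widths and not all zero have Eisenstein eigenvalues. -/
theorem natCast_eq_succ_of_slope₁ {x : JZero (M * p)} (hx : p • x = 0)
    (hns : ¬ SlopeZero A p x) {c : ZMod p}
    (hc : ∀ s, (pairReduction S hk).slope₁ p x s = c * ((node₁ S s).ord (hbar S) : ZMod p))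
    {ℓ n : ℕ} (hℓ : ℓ.Prime) (hℓN : ¬ ℓ ∣ M * p)
    (hT : heckeOperatorBar (M * p) ⟨ℓ, hℓ⟩ x = n • x) : (n : ZMod p) = ℓ + 1 := by
  obtain ⟨s, hs⟩ := exists_slope₁_ne_zero S hk hns
  have h := Eisenstein.slope₁_hecke_pairReduction S hk hℓ hℓN hx one_ne_zero
    (w := fun t => t.ord (hbar S)) (fun t _ => by rw [Nat.cast_one, one_mul]) hc s
  rw [hT, slope₁_nsmul S hk hx] at h
  exact mul_right_cancel₀ hs h

/-- The wild congruence for `p ≥ 5`. -/
theorem exists_slope₁_eq (hp5 : 5 ≤ p) (hA : A.LiesOverPrime p) {x : JZero (M * p)}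
    (hx : p • x = 0) (hα : pushJ (heckeAlphaBar Qbar M p) x = 0)
    (hβ : pushJ (heckeBetaBar Qbar M p) x = 0) (hfix : IsPeuFixed A p x) :
    ∃ c : ZMod p, ∀ s, (pairReduction S hk).slope₁ p x s =
      c * ((node₁ S s).ord (hbar S) : ZMod p) := by
  obtain ⟨T, hT, j₀, hj⟩ := exists_int_congr S hk (by omega) hA hx hα hβ hfix
  obtain ⟨u, hu⟩ := SemistableWild.isUnit_exponent (p := p) hp5
  refine ⟨↑u⁻¹ * (j₀ : ZMod p), fun s => ?_⟩
  obtain ⟨j, hjd, h⟩ := hj s
  have h2 := congrArg (fun t : ℤ => (t : ZMod p)) h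
  simp only [Int.cast_mul] at h2
  rw [← hu, ← (ZMod.intCast_eq_intCast_iff_dvd_sub j₀ j p).mpr hjd] at h2
  rw [PairReduction.slope₁_eq hT, mul_assoc, ← h2, ← mul_assoc, Units.inv_mul, one_mul]
  rfl

/-- Classes with nonzero slope have Eisenstein eigenvalues. -/
theorem slopeEisensteinAt_of_five_le {M p : ℕ} [NeZero M] [Fact p.Prime] [NeZero p] (hp5 : 5 ≤ p)
    (hpM : ¬ p ∣ M) : SemistableHecke.SlopeEisensteinAt M p := by
  intro A hA x hx hα hβ hfix hns ℓ a hℓ hℓN hT
  have hp : p.Prime := Fact.out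
  have := Semistable.charP_residueField hA
  have := Deuring.isAlgClosed_residueField A
  have := Deuring.Modular.isFunctionFieldk (Semistable.Level.setting M p hpM hA).good
  have := FLTAgent.GaloisAttach.isFunctionField_bar (M * p)
  set S := Semistable.Level.setting M p hpM hA with hS
  have hk := Semistable.Level.hbar_mem_kj S (Semistable.Level.setting 1 p hp.not_dvd_one hA)
  obtain ⟨c, hc⟩ := exists_slope₁_eq S hk hp5 hA hx hα hβ hfix
  exact natCast_eq_succ_of_slope₁ S hk hx hns hc hℓ hℓN hT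

end FLTAgent.SemistableSplit
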