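import Fermat.Agent.SemistableHecke.MazurInterface
import Fermat.Agent.SemistableEisenstein.NodeUnitX0
import Fermat.Agent.Semistable.Divisible

/-!
# A nonzero slope at some crossing

A class whose residual divisor is not divisible by `p` has a nonzero slope at a crossing of the
special fibre.
-/

set_option autoImplicit false

noncomputable section

open AlgebraicCurve ModularCurve IsLocalRing FLTAgent.HeckeJacobian FLTAgent.FFBasic
open FLTAgent.Semistable FLTAgent.Semistable.Level
open FLTAgent.SemistableHecke (SlopeZero)

namespace FLTAgent.SemistableSplit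

local notation "Qbar" => AlgebraicClosure ℚ

variable {A : ValuationSubring Qbar} {M q : ℕ} [NeZero M] [Fact q.Prime] {p : ℕ} [NeZero p]
variable [IsAlgClosed (ResidueField A)] [CharP (ResidueField A) q]
variable [IsFunctionField (ResidueField A) (modularFunctionFieldFullC (ResidueField A) M)]
variable [IsFunctionField Qbar (modularFunctionFieldBar (M * q))]
variable (S : Setting M q A (residue A))
  (hk : (hbar S : LaurentSeries (ResidueField A)) ∈
    IntermediateField.adjoin (ResidueField A) {jqModC (ResidueField A)})

/-- A class with residual divisor nonzero modulo `p` has a nonzero slope. -/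
theorem exists_slope₁_ne_zero {x : JZero (M * q)}
    (hns : ¬ SlopeZero A p x) : ∃ s, (pairReduction S hk).slope₁ p x s ≠ 0 := by
  by_contra hall
  push Not at hall
  refine hns fun f r hd v => ?_
  obtain ⟨D, hD, hf, hdiv, hr, hb⟩ := hd
  obtain ⟨hm, hres⟩ := (SemistableHecke.hasBar_iff (ι₁ M q) f _).mp hb
  obtain ⟨c₂, -, hm₂, hr₂⟩ := (pairReduction S hk).b₂.exists_red_ne_zero hf
  have hm₁ : (branch₁ S).Mem 1 f := by
    show (1 : Qbar) • f ∈ Gauss.ring A (residue A) (ι₁ M q)
    rw [one_smul]
    exact hm
  have hred : (branch₁ S).red 1 f = r :=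
    ((branch₁ S).red_one hm).trans (Subtype.ext ((coe_res₁ S hm).trans hres))
  let T : (pairReduction S hk).TorsionData p :=
    { D := D, degree_eq := Divisor.mem_degZero.mp D.2, f := f, f_ne := hf, div_eq := hdiv,
      c := (1, c₂), mem := ⟨hm₁, hm₂⟩,
      ne₁ := by
        show (branch₁ S).red 1 f ≠ 0
        rw [hred]
        exact fun h => hr (by rw [h]; rfl)
      ne₂ := hr₂ }
  have hT : T.cls = x := hD
  have hT₁ : T.bar.1 = r := hred
  rw [← ZMod.intCast_zmod_eq_zero_iff_dvd, ← hT₁]
  by_cases hv : ∃ s, v = (pairReduction S hk).node₁ s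
  · obtain ⟨s, rfl⟩ := hv
    rw [← PairReduction.slope₁_eq hT]
    exact hall s
  · push Not at hv
    exact T.divisibility.1 v hv

end FLTAgent.SemistableSplit
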