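import Fermat.Agent.SemistableSplit.Pairs

/-!
# Torsion data close to one on both branches

Split classes (`IsSplit`) and their data (`SplitData`). Functions of the lattice approximate `p`-th
roots up to the level of `ζ - 1`, and up to the precision of the data when the defects at that
level agree at the nodes (`exists_near`, `exists_near_of_defect`).
-/

set_option autoImplicit false

noncomputable section

open AlgebraicCurve FLTAgent.FFRiemannRoch FLTAgent.FFBasic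

namespace FLTAgent.Semistable

variable {L k : Type*} [Field L] [Field k] {A : ValuationSubring L} {π : A →+* k}
variable {F F₁ F₂ : Type*} [Field F] [Field F₁] [Field F₂]
  [Algebra L F] [Algebra k F₁] [Algebra k F₂] {ι : Type*} [Fintype ι]

namespace PairReduction

/-- The class has data close to one on both branches to every precision. -/
def IsSplit (C : PairReduction A π F F₁ F₂ ι) (p : ℕ) (x : Pic0 L F) : Prop :=
  ∀ b : A, b ≠ 0 → ∃ T : C.TorsionData p, T.cls = x ∧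
    (∃ r : F, C.b₁.Mem 1 r ∧ T.c.1 • T.f = 1 + (b : L) • r) ∧
      ∃ r : F, C.b₂.Mem 1 r ∧ T.c.2 • T.f = 1 + (b : L) • r

/-- Torsion data with roots of the scales, equal to one modulo `b` on both branches. -/
structure SplitData (C : PairReduction A π F F₁ F₂ ι) (p : ℕ) (b : L) where
  T : C.TorsionData p
  g : L × L
  g_pow₁ : g.1 ^ p * T.c.1 = 1
  g_pow₂ : g.2 ^ p * T.c.2 = 1
  b_ne : b ≠ 0
  b_lt : A.valuation b < 1
  near₁ : C.b₁.Mem b⁻¹ (T.c.1 • T.f - 1)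
  near₂ : C.b₂.Mem b⁻¹ (T.c.2 • T.f - 1)

variable (C : PairReduction A π F F₁ F₂ ι)

/-- `g • u` is congruent to `w` modulo `β` on both branches. -/
def Near (g : L × L) (β : L) (w u : F) : Prop :=
  C.b₁.Mem β⁻¹ (g.1 • u - w) ∧ C.b₂.Mem β⁻¹ (g.2 • u - w)

/-- The reductions of the error of an approximation. -/
def defect (g : L × L) (β : L) (w u : F) : F₁ × F₂ :=
  (C.b₁.red β⁻¹ (g.1 • u - w), C.b₂.red β⁻¹ (g.2 • u - w))

variable {C}

theorem Near.mono {g : L × L} {β β' : L} {w u : F} (hβ : β ≠ 0)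
    (h : A.valuation β ≤ A.valuation β') (hn : C.Near g β w u) : C.Near g β' w u :=
  ⟨C.b₁.mem_inv_mono hβ h hn.1, C.b₂.mem_inv_mono hβ h hn.2⟩

theorem defect_of_le {g : L × L} {β β' : L} {w u : F} (hβ : β ≠ 0)
    (h : A.valuation β ≤ A.valuation β') (hn : C.Near g β w u) :
    C.defect g β' w u =
      π ⟨β'⁻¹ / β⁻¹, div_mem_of_valuation_le (inv_ne_zero hβ) (valuation_inv_le_inv hβ h)⟩ •
        C.defect g β w u :=
  Prod.ext (C.b₁.red_eq_smul_of_le (inv_ne_zero hβ) (valuation_inv_le_inv hβ h) hn.1)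
    (C.b₂.red_eq_smul_of_le (inv_ne_zero hβ) (valuation_inv_le_inv hβ h) hn.2)

theorem Near.linear {g : L × L} {β : L} {w u w' u' : F} (hn : C.Near g β w u)
    (hn' : C.Near g β w' u') (a c : A) :
    C.Near g β ((a : L) • w + (c : L) • w') ((a : L) • u + (c : L) • u') ∧
      C.defect g β ((a : L) • w + (c : L) • w') ((a : L) • u + (c : L) • u') =
        π a • C.defect g β w u + π c • C.defect g β w' u' := by
  have key : ∀ x : L, x • ((a : L) • u + (c : L) • u') - ((a : L) • w + (c : L) • w')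
      = (a : L) • (x • u - w) + (c : L) • (x • u' - w') := fun x => by
    simp only [smul_add, smul_sub, smul_comm x (a : L), smul_comm x (c : L)]
    abel
  refine ⟨⟨?_, ?_⟩, Prod.ext ?_ ?_⟩
  · rw [key]; exact Branch.Mem.add _ (Branch.Mem.smul _ hn.1 a) (Branch.Mem.smul _ hn'.1 c)
  · rw [key]; exact Branch.Mem.add _ (Branch.Mem.smul _ hn.2 a) (Branch.Mem.smul _ hn'.2 c)
  · show C.b₁.red β⁻¹ _ = π a • C.b₁.red β⁻¹ _ + π c • C.b₁.red β⁻¹ _
    rw [key, C.b₁.red_add (Branch.Mem.smul _ hn.1 a) (Branch.Mem.smul _ hn'.1 c),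
      C.b₁.red_smul hn.1, C.b₁.red_smul hn'.1]
  · show C.b₂.red β⁻¹ _ = π a • C.b₂.red β⁻¹ _ + π c • C.b₂.red β⁻¹ _
    rw [key, C.b₂.red_add (Branch.Mem.smul _ hn.2 a) (Branch.Mem.smul _ hn'.2 c),
      C.b₂.red_smul hn.2, C.b₂.red_smul hn'.2]

variable [IsAlgClosed k] [IsFunctionField k F₁] [IsFunctionField k F₂]
  [IsAlgClosed L] [IsFunctionField L F]

variable (C) in
/-- Degrees in which the reductions fill the compatible pairs and twisting does not change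
dimensions. -/
structure Adequate (N : ℕ) : Prop where
  pos : 0 < N
  resSub_eq : C.resSub (1, 1) (riemannRochSpace (N • C.E)) = C.glued N 1
  ell_eq : ∀ D : Divisor L F, Divisor.degree D = 0 → ell L F (D + N • C.E) = ell L F (N • C.E)

variable (C) in
theorem exists_adequate : ∃ n₀ : ℕ, ∀ N, n₀ ≤ N → C.Adequate N := by
  obtain ⟨a, ha⟩ := C.resSub_one_eq_glued
  obtain ⟨B, hB⟩ := exists_bound_ell (K := L) (F := F)
  refine ⟨a + B.toNat + 1, fun N hN => ⟨by omega, ha N (by omega), fun D hD => ?_⟩⟩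
  have hE : 0 < Divisor.degree C.E := by
    have := C.degree_pos₁
    have := C.degree_pos₂
    rw [C.degree_eq]
    omega
  have hmul : (N : ℤ) * 1 ≤ N * Divisor.degree C.E :=
    mul_le_mul_of_nonneg_left (by omega) (by omega)
  have h1 := hB (D + N • C.E) (by rw [map_add, hD, map_nsmul, nsmul_eq_mul]; omega)
  have h2 := hB (N • C.E) (by rw [map_nsmul, nsmul_eq_mul]; omega)
  rw [map_add, hD, zero_add] at h1
  omega

omit [IsAlgClosed k] [IsFunctionField k F₁] [IsFunctionField k F₂] [IsAlgClosed L]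
  [IsFunctionField L F] in
/-- `u ↦ u ^ p f` from `L(D + N E)` to `L(p N E)`. -/
theorem TorsionData.pow_mul_mem {p : ℕ} (T : C.TorsionData p) {N : ℕ} {u : F} (hp : 0 < p)
    (hu : u ∈ riemannRochSpace (T.D + N • C.E)) :
    u ^ p * T.f ∈ riemannRochSpace ((p * N) • C.E) := by
  rcases eq_or_ne u 0 with rfl | hu0
  · simp [zero_pow hp.ne']
  rw [mem_riemannRochSpace_iff] at hu ⊢
  intro v
  right
  have h := (hu v).resolve_left hu0
  rw [v.ord_mul (pow_ne_zero p hu0) T.f_ne, ← zpow_natCast, v.ord_zpow, ← T.div_eq v]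
  simp only [Finsupp.add_apply, Finsupp.smul_apply, nsmul_eq_mul, Nat.cast_mul] at h ⊢
  nlinarith

namespace SplitData

variable {p : ℕ} {b : L} (D : C.SplitData p b)

/-- The space containing the approximating functions. -/
abbrev lvl (N : ℕ) : Submodule L F := riemannRochSpace (D.T.D + N • C.E)

omit [IsAlgClosed k] [IsFunctionField k F₁] [IsFunctionField k F₂] [IsAlgClosed L]
  [IsFunctionField L F] in
theorem g_ne₁ (hp : 0 < p) : D.g.1 ≠ 0 := fun h => by
  have := D.g_pow₁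
  rw [h, zero_pow hp.ne', zero_mul] at this
  exact zero_ne_one this

omit [IsAlgClosed k] [IsFunctionField k F₁] [IsFunctionField k F₂] [IsAlgClosed L]
  [IsFunctionField L F] in
theorem g_ne₂ (hp : 0 < p) : D.g.2 ≠ 0 := fun h => by
  have := D.g_pow₂
  rw [h, zero_pow hp.ne', zero_mul] at this
  exact zero_ne_one this

omit [IsAlgClosed k] [IsFunctionField k F₁] [IsFunctionField k F₂] [IsAlgClosed L]
  [IsFunctionField L F] in
theorem bar_eq_one : D.T.bar = 1 := by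
  have e₁ := C.b₁.mem_and_red_eq_one C.π_surj D.b_ne D.b_lt D.near₁
  have e₂ := C.b₂.mem_and_red_eq_one C.π_surj D.b_ne D.b_lt D.near₂
  exact Prod.ext ((C.b₁.red_one_smul D.T.mem.1).symm.trans e₁.2)
    ((C.b₂.red_one_smul D.T.mem.2).symm.trans e₂.2)

variable [CharP k p]

omit [IsAlgClosed L] in
theorem resSub_eq (hp : p.Prime) {N : ℕ} (hN : C.Adequate N) :
    C.resSub D.g (D.lvl N) = C.glued N 1 := by
  have := C.finiteDimensional_glued N (1 : ι → k)
  refine Submodule.eq_of_le_of_finrank_le ?_ ?_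
  · rintro _ ⟨u, hu, hug, rfl⟩
    have e : D.g ^ p * D.T.c = (1, 1) := Prod.ext D.g_pow₁ D.g_pow₂
    have hG : C.Mem (1, 1) (u ^ p * D.T.f) := e ▸ (hug.pow p).mul D.T.mem
    have hr : C.red (1, 1) (u ^ p * D.T.f) = C.red D.g u ^ p := by
      rw [← e, red_mul (hug.pow p) D.T.mem, red_pow hug]
      show _ * D.T.bar = _
      rw [D.bar_eq_one, mul_one]
    have h := C.red_mem_glued_one hG (D.T.pow_mul_mem hp.pos hu)
    rw [hr] at h
    obtain ⟨h₁, h₂, hv⟩ := values_of_add_pow (C := C) (a := 0) (d := C.red D.g u) (c₂ := 0) hp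
      (one_ne_zero (α := k)) (zero_mem _) (by rwa [one_smul, zero_smul, add_zero])
    exact ⟨h₁, h₂, fun s => by rw [hv s (Or.inl rfl), Pi.one_apply, one_mul]⟩
  · rw [C.finrank_resSub (D.g_ne₁ hp.pos) (D.g_ne₂ hp.pos), ← hN.resSub_eq,
      C.finrank_resSub one_ne_zero one_ne_zero]
    exact (hN.ell_eq D.T.D D.T.degree_eq).ge

omit [IsAlgClosed L] [IsFunctionField L F] [CharP k p] in
/-- The equation satisfied by the defect of an approximation. -/
theorem expansion_mem_glued (hp : p.Prime) {N : ℕ} {β γ : L} {w u : F} (hu : u ∈ D.lvl N)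
    (hw : w ∈ riemannRochSpace (N • C.E)) (hwm : C.Mem (1, 1) w) (hn : C.Near D.g β w u)
    (hβ : β ≠ 0) (hβ1 : A.valuation β < 1) (hγ : γ ≠ 0) (hb : A.valuation b < A.valuation γ)
    {α₁ α₂ : A} (h₁ : γ * (α₁ : L) = β ^ p) (h₂ : γ * (α₂ : L) = (p : L) * β) :
    π α₁ • C.defect D.g β w u ^ p +
      π α₂ • (C.red (1, 1) w ^ (p - 1) * C.defect D.g β w u) ∈ C.glued (p * N) 1 := by
  have hβA : β ∈ A := (A.valuation_le_one_iff β).mp hβ1.le
  have hπβ : π ⟨β, hβA⟩ = 0 := π_eq_zero_of_lt_one C.π_surj hβ1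
  obtain ⟨m₁, r₁⟩ := C.b₁.red_expansion hp hβ hγ (βA := ⟨β, hβA⟩) rfl hπβ h₁ h₂ hwm.1 hn.1
    (C.b₁.mem_inv_mono D.b_ne hb.le D.near₁) (C.b₁.red_inv_eq_zero C.π_surj D.b_ne hb D.near₁)
  obtain ⟨m₂, r₂⟩ := C.b₂.red_expansion hp hβ hγ (βA := ⟨β, hβA⟩) rfl hπβ h₁ h₂ hwm.2 hn.2
    (C.b₂.mem_inv_mono D.b_ne hb.le D.near₂) (C.b₂.red_inv_eq_zero C.π_surj D.b_ne hb D.near₂)
  have e₁ : (D.g.1 • u) ^ p * (D.T.c.1 • D.T.f) = u ^ p * D.T.f := by
    rw [smul_pow, smul_mul_smul_comm, D.g_pow₁, one_smul]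
  have e₂ : (D.g.2 • u) ^ p * (D.T.c.2 • D.T.f) = u ^ p * D.T.f := by
    rw [smul_pow, smul_mul_smul_comm, D.g_pow₂, one_smul]
  rw [e₁] at m₁ r₁
  rw [e₂] at m₂ r₂
  set z := γ⁻¹ • (u ^ p * D.T.f - w ^ p)
  have hz : z ∈ riemannRochSpace ((p * N) • C.E) := by
    refine Submodule.smul_mem _ _ (Submodule.sub_mem _ (D.T.pow_mul_mem hp.pos hu) ?_)
    rw [mul_comm p N, mul_nsmul]
    exact pow_mem_riemannRochSpace hw p
  have hzm : C.Mem (1, 1) z := ⟨C.b₁.mem_smul_one_iff.mpr m₁, C.b₂.mem_smul_one_iff.mpr m₂⟩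
  have := C.red_mem_glued_one hzm hz
  convert this using 1
  exact Prod.ext (r₁.symm.trans (C.b₁.red_one_smul m₁).symm)
    (r₂.symm.trans (C.b₂.red_one_smul m₂).symm)

/-- Either an approximation at level `β₀`, or a best one at a larger level. -/
theorem exists_best (hp : p.Prime) (ht : ∃ t : A, t ≠ 0 ∧ π t = 0) (harch : Arch π) {N : ℕ}
    (hN : C.Adequate N) {w : F} (hw : w ∈ riemannRochSpace (N • C.E)) (hwm : C.Mem (1, 1) w)
    {β₀ : L} (hβ₀ : β₀ ≠ 0) (hβ₀1 : A.valuation β₀ < 1) :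
    (∃ u ∈ D.lvl N, C.Near D.g β₀ w u) ∨
      ∃ (β : L) (u : F), A.valuation β₀ < A.valuation β ∧ A.valuation β < 1 ∧ u ∈ D.lvl N ∧
        C.Near D.g β w u ∧ C.defect D.g β w u ∉ C.glued N 1 := by
  classical
  have hg₁ := D.g_ne₁ hp.pos
  have hg₂ := D.g_ne₂ hp.pos
  obtain ⟨y, hy₁, hy₂⟩ := C.exists_combine ht harch (mul_ne_zero (inv_ne_zero hβ₀) hg₁)
    (mul_ne_zero (inv_ne_zero hβ₀) hg₂) (D.g.1⁻¹ • w) (D.g.2⁻¹ • w)
  have key : ∀ {g : L}, g ≠ 0 → g • (y - g⁻¹ • w) = g • y - w := fun hg => by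
    rw [smul_sub, smul_inv_smul₀ hg]
  rw [← C.b₁.mem_smul_iff, key hg₁] at hy₁
  rw [← C.b₂.mem_smul_iff, key hg₂] at hy₂
  have hy : C.Near D.g β₀ w y := ⟨hy₁, hy₂⟩
  by_cases hyV : y ∈ D.lvl N
  · exact Or.inl ⟨y, hyV, hy⟩
  have hym : C.Mem D.g y := by
    constructor
    · have := Branch.Mem.add C.b₁ (C.b₁.mem_one_of_mem_inv hβ₀ hβ₀1.le hy₁) hwm.1
      rwa [sub_add_cancel, C.b₁.mem_smul_one_iff] at this
    · have := Branch.Mem.add C.b₂ (C.b₂.mem_one_of_mem_inv hβ₀ hβ₀1.le hy₂) hwm.2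
      rwa [sub_add_cancel, C.b₂.mem_smul_one_iff] at this
  have hyr : C.red D.g y = C.red (1, 1) w := by
    refine Prod.ext ?_ ?_
    · show C.b₁.red D.g.1 y = C.b₁.red 1 w
      rw [← C.b₁.red_one_smul hym.1, ← sub_add_cancel (D.g.1 • y) w,
        C.b₁.red_add (C.b₁.mem_one_of_mem_inv hβ₀ hβ₀1.le hy₁) hwm.1,
        C.b₁.red_one_eq_zero_of_mem_inv C.π_surj hβ₀ hβ₀1 hy₁, zero_add]
    · show C.b₂.red D.g.2 y = C.b₂.red 1 w
      rw [← C.b₂.red_one_smul hym.2, ← sub_add_cancel (D.g.2 • y) w,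
        C.b₂.red_add (C.b₂.mem_one_of_mem_inv hβ₀ hβ₀1.le hy₂) hwm.2,
        C.b₂.red_one_eq_zero_of_mem_inv C.π_surj hβ₀ hβ₀1 hy₂, zero_add]
  have hwg : C.red (1, 1) w ∈ C.glued N 1 := C.red_mem_glued_one hwm hw
  have := C.finiteDimensional_glued N (1 : ι → k)
  let V' : Submodule L F := D.lvl N ⊔ Submodule.span L {y}
  have hlt : Module.finrank L (D.lvl N) < Module.finrank L V' := by
    refine Submodule.finrank_lt_finrank_of_lt (lt_of_le_of_ne le_sup_left fun h => hyV ?_)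
    rw [h]
    exact Submodule.mem_sup_right (Submodule.mem_span_singleton_self y)
  obtain ⟨x, hxV, hxm, hxr⟩ : ∃ x ∈ V', C.Mem D.g x ∧ C.red D.g x ∉ C.glued N 1 := by
    by_contra! hall
    have hle : C.resSub D.g V' ≤ C.glued N 1 := by
      rintro _ ⟨x, hx, hxm, rfl⟩
      exact hall x hx hxm
    have h1 := Submodule.finrank_mono hle
    rw [← D.resSub_eq hp hN, C.finrank_resSub hg₁ hg₂, C.finrank_resSub hg₁ hg₂] at h1
    omega
  obtain ⟨v, hv, _, hz, rfl⟩ := Submodule.mem_sup.mp hxV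
  obtain ⟨l, rfl⟩ := Submodule.mem_span_singleton.mp hz
  have hl : 1 < A.valuation l := by
    by_contra h
    push Not at h
    set la : A := ⟨l, (A.valuation_le_one_iff l).mp h⟩
    have hly : C.Mem D.g (l • y) := hym.smul la
    have hvm : C.Mem D.g v := by
      have := hxm.sub hly
      rwa [add_sub_cancel_right] at this
    apply hxr
    rw [red_add hvm hly]
    refine add_mem ?_ ?_
    · rw [← D.resSub_eq hp hN]; exact ⟨v, hv, hvm, rfl⟩
    · rw [show l • y = ((la : A) : L) • y from rfl, red_smul hym, hyr]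
      exact Submodule.smul_mem _ _ hwg
  have hl0 : l ≠ 0 := fun h => by simp [h] at hl
  set β := l⁻¹ with hβ
  have hβ0 : β ≠ 0 := inv_ne_zero hl0
  have hβ1 : A.valuation β < 1 := by rw [hβ, map_inv₀]; exact inv_lt_one_of_one_lt₀ hl
  set u := (-β) • v with hu
  have huV : u ∈ D.lvl N := Submodule.smul_mem _ _ hv
  have heq : ∀ g : L, g • u - w = (g • y - w) - β • (g • (v + l • y)) := fun g => by
    rw [hu, smul_add, smul_add, smul_comm g (-β) v, smul_comm g l y, neg_smul, hβ,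
      inv_smul_smul₀ hl0]
    abel
  have m₁ : C.b₁.Mem β⁻¹ (β • (D.g.1 • (v + l • y))) := by
    rw [C.b₁.mem_smul_iff, inv_mul_cancel₀ hβ0, C.b₁.mem_smul_one_iff]; exact hxm.1
  have m₂ : C.b₂.Mem β⁻¹ (β • (D.g.2 • (v + l • y))) := by
    rw [C.b₂.mem_smul_iff, inv_mul_cancel₀ hβ0, C.b₂.mem_smul_one_iff]; exact hxm.2
  by_cases hle : A.valuation β ≤ A.valuation β₀
  · refine Or.inl ⟨u, huV, ?_, ?_⟩
    · rw [heq]; exact Branch.Mem.sub _ hy₁ (C.b₁.mem_inv_mono hβ0 hle m₁)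
    · rw [heq]; exact Branch.Mem.sub _ hy₂ (C.b₂.mem_inv_mono hβ0 hle m₂)
  push Not at hle
  refine Or.inr ⟨β, u, hle, hβ1, huV, ⟨?_, ?_⟩, fun hmem => hxr ?_⟩
  · rw [heq]; exact Branch.Mem.sub _ (C.b₁.mem_inv_mono hβ₀ hle.le hy₁) m₁
  · rw [heq]; exact Branch.Mem.sub _ (C.b₂.mem_inv_mono hβ₀ hle.le hy₂) m₂
  have hd : C.defect D.g β w u = -C.red D.g (v + l • y) := by
    refine Prod.ext ?_ ?_
    · show C.b₁.red β⁻¹ _ = -C.b₁.red D.g.1 _
      rw [heq, C.b₁.red_sub (C.b₁.mem_inv_mono hβ₀ hle.le hy₁) m₁,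
        C.b₁.red_inv_eq_zero C.π_surj hβ₀ hle hy₁, zero_sub,
        C.b₁.red_smul_eq (by rw [inv_mul_cancel₀ hβ0, C.b₁.mem_smul_one_iff]; exact hxm.1),
        inv_mul_cancel₀ hβ0, C.b₁.red_one_smul hxm.1]
    · show C.b₂.red β⁻¹ _ = -C.b₂.red D.g.2 _
      rw [heq, C.b₂.red_sub (C.b₂.mem_inv_mono hβ₀ hle.le hy₂) m₂,
        C.b₂.red_inv_eq_zero C.π_surj hβ₀ hle hy₂, zero_sub,
        C.b₂.red_smul_eq (by rw [inv_mul_cancel₀ hβ0, C.b₂.mem_smul_one_iff]; exact hxm.2),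
        inv_mul_cancel₀ hβ0, C.b₂.red_one_smul hxm.2]
  have := neg_mem hmem
  rwa [hd, neg_neg] at this

omit [IsAlgClosed L] [IsFunctionField L F] in
/-- Above the level of `ζ - 1` every defect is compatible. -/
theorem defect_mem_glued_of_gt (hp : p.Prime) {N : ℕ} {β : L} {w u : F} (hu : u ∈ D.lvl N)
    (hw : w ∈ riemannRochSpace (N • C.E)) (hwm : C.Mem (1, 1) w) (hn : C.Near D.g β w u)
    (hβ : β ≠ 0) (hβ1 : A.valuation β < 1)
    (hp1 : A.valuation (p : L) < A.valuation β ^ (p - 1))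
    (hb : A.valuation b < A.valuation β ^ p) : C.defect D.g β w u ∈ C.glued N 1 := by
  have hα : A.valuation ((p : L) / β ^ (p - 1)) < 1 := by
    rw [map_div₀, div_lt_one₀ (valuation_pos (pow_ne_zero _ hβ)), map_pow]
    exact hp1
  obtain ⟨α₂, hα₂⟩ : ∃ a : A, (a : L) = (p : L) / β ^ (p - 1) :=
    ⟨⟨_, (A.valuation_le_one_iff _).mp hα.le⟩, rfl⟩
  have hπ₂ : π α₂ = 0 := π_eq_zero_of_lt_one C.π_surj (by rw [hα₂]; exact hα)
  have h := D.expansion_mem_glued hp hu hw hwm hn hβ hβ1 (pow_ne_zero p hβ)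
    (by rwa [map_pow]) (α₁ := 1) (α₂ := α₂) (by rw [OneMemClass.coe_one, mul_one])
    (by
      rw [hα₂, ← Nat.sub_add_cancel hp.pos, pow_succ, Nat.add_sub_cancel]
      field_simp)
  rw [map_one, hπ₂] at h
  obtain ⟨h₁, h₂, hv⟩ := values_of_add_pow hp one_ne_zero (C.red_mem_glued_one hwm hw) h
  exact ⟨h₁, h₂, fun s => by rw [hv s (Or.inl rfl), Pi.one_apply, one_mul]⟩

/-- Approximations exist at every level `β₀` with `|p| ≤ |β₀| ^ (p - 1)`. -/
theorem exists_near (hp : p.Prime) (ht : ∃ t : A, t ≠ 0 ∧ π t = 0) (harch : Arch π) {N : ℕ}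
    (hN : C.Adequate N) {w : F} (hw : w ∈ riemannRochSpace (N • C.E)) (hwm : C.Mem (1, 1) w)
    {β₀ : L} (hβ₀ : β₀ ≠ 0) (hβ₀1 : A.valuation β₀ < 1)
    (hpβ : A.valuation (p : L) ≤ A.valuation β₀ ^ (p - 1))
    (hb : A.valuation b < A.valuation β₀ ^ p) : ∃ u ∈ D.lvl N, C.Near D.g β₀ w u := by
  refine (D.exists_best hp ht harch hN hw hwm hβ₀ hβ₀1).resolve_right ?_
  rintro ⟨β, u, hlt, hβ1, hu, hn, hd⟩
  have hβ0 : β ≠ 0 := fun h => by simp [h] at hlt
  exact hd (D.defect_mem_glued_of_gt hp hu hw hwm hn hβ0 hβ1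
    (hpβ.trans_lt (pow_lt_pow_left₀ hlt zero_le (by have := hp.two_le; omega)))
    (hb.trans (pow_lt_pow_left₀ hlt zero_le hp.ne_zero)))

omit [IsAlgClosed L] [IsFunctionField L F] in
/-- When the defects of the root of one at level `lam` agree at the nodes, all defects at that
level are compatible. -/
theorem defect_mem_glued (hp : p.Prime) {N : ℕ} {lam : L} (hlam : lam ≠ 0)
    (hlam1 : A.valuation lam < 1) (hpl : A.valuation lam ^ (p - 1) = A.valuation (p : L))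
    (hb : A.valuation b < A.valuation lam ^ p) {u₀ : F} (hu₀ : u₀ ∈ D.lvl N)
    (hn₀ : C.Near D.g lam 1 u₀)
    (hjump : ∀ s, valueAt (C.node₁ s) (C.defect D.g lam 1 u₀).1 =
      valueAt (C.node₂ s) (C.defect D.g lam 1 u₀).2)
    {w u : F} (hw : w ∈ riemannRochSpace (N • C.E)) (hwm : C.Mem (1, 1) w) (hu : u ∈ D.lvl N)
    (hn : C.Near D.g lam w u) : C.defect D.g lam w u ∈ C.glued N 1 := by
  have hone : (1 : F) ∈ riemannRochSpace (N • C.E) :=
    riemannRochSpace_mono (nsmul_le_nsmul_divisor C.polar.1 (Nat.zero_le N))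
      (pow_zero C.J ▸ C.polar.pow_mem 0)
  obtain ⟨α₂, hα₂⟩ : ∃ a : A, (a : L) = (p : L) * lam / lam ^ p := by
    refine ⟨⟨_, div_mem_of_valuation_le (pow_ne_zero p hlam) ?_⟩, rfl⟩
    rw [map_mul, map_pow, ← hpl, ← pow_succ, Nat.sub_add_cancel hp.pos]
  have hexp : ∀ {w u : F}, u ∈ D.lvl N → w ∈ riemannRochSpace (N • C.E) → C.Mem (1, 1) w →
      C.Near D.g lam w u →
      π (1 : A) • C.defect D.g lam w u ^ p +
        π α₂ • (C.red (1, 1) w ^ (p - 1) * C.defect D.g lam w u) ∈ C.glued (p * N) 1 :=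
    fun hu hw hwm hn => D.expansion_mem_glued hp hu hw hwm hn hlam hlam1 (pow_ne_zero p hlam)
      (by rwa [map_pow]) (by rw [OneMemClass.coe_one, mul_one])
      (by rw [hα₂, mul_div_cancel₀ _ (pow_ne_zero p hlam)])
  have hπ1 : π (1 : A) ≠ 0 := by rw [map_one]; exact one_ne_zero
  obtain ⟨h₁, h₂, -⟩ := values_of_add_pow hp hπ1 (C.red_mem_glued_one hwm hw) (hexp hu hw hwm hn)
  obtain ⟨h₁', h₂', -⟩ :=
    values_of_add_pow hp hπ1 (C.red_mem_glued_one mem_one_pair hone)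
      (hexp hu₀ hone mem_one_pair hn₀)
  refine ⟨h₁, h₂, fun s => ?_⟩
  obtain ⟨a, ha⟩ := C.π_surj (-valueAt (C.node₁ s) (C.red (1, 1) w).1)
  obtain ⟨hn', hd'⟩ := hn.linear hn₀ 1 a
  have hw' : ((1 : A) : L) • w + (a : L) • (1 : F) ∈ riemannRochSpace (N • C.E) :=
    add_mem (Submodule.smul_mem _ _ hw) (Submodule.smul_mem _ _ hone)
  have hwm' : C.Mem (1, 1) (((1 : A) : L) • w + (a : L) • (1 : F)) :=
    (hwm.smul 1).add (mem_one_pair.smul a)
  obtain ⟨-, -, hv⟩ := values_of_add_pow hp hπ1 (C.red_mem_glued_one hwm' hw')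
    (hexp (add_mem (Submodule.smul_mem _ _ hu) (Submodule.smul_mem _ _ hu₀)) hw' hwm' hn')
  have va := hasValue_valueAt (mem_ball_zero_of_mem (C.node₁_le N s)
    (C.red_mem_glued_one hwm hw).1)
  have hz := hv s (Or.inr (by
    rw [red_add (hwm.smul 1) (mem_one_pair.smul a), red_smul hwm, red_smul mem_one_pair, map_one,
      one_smul, ha, show C.red (1, 1) (1 : F) = (1, 1) from
        Prod.ext C.b₁.red_one_one C.b₂.red_one_one, Prod.fst_add, Prod.smul_fst,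
      (va.add (hasValue_one.smul _)).valueAt_eq]
    ring))
  rw [hd', map_one, one_smul, Prod.fst_add, Prod.snd_add, Prod.smul_fst, Prod.smul_snd,
    ((hasValue_valueAt (mem_ball_zero_of_mem (C.node₁_le N s) h₁)).add
      ((hasValue_valueAt (mem_ball_zero_of_mem (C.node₁_le N s) h₁')).smul _)).valueAt_eq,
    ((hasValue_valueAt (mem_ball_zero_of_mem (C.node₂_le N s) h₂)).add
      ((hasValue_valueAt (mem_ball_zero_of_mem (C.node₂_le N s) h₂')).smul _)).valueAt_eq,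
    hjump s] at hz
  rw [Pi.one_apply, one_mul]
  exact add_right_cancel hz

/-- With agreeing defects, one has approximate roots up to the precision of the data. -/
theorem exists_near_of_defect (hp : p.Prime) (ht : ∃ t : A, t ≠ 0 ∧ π t = 0) (harch : Arch π)
    {N : ℕ} (hN : C.Adequate N) {lam : L} (hlam : lam ≠ 0) (hlam1 : A.valuation lam < 1)
    (hp0 : (p : L) ≠ 0) (hpl : A.valuation lam ^ (p - 1) = A.valuation (p : L)) {u₀ : F}
    (hu₀ : u₀ ∈ D.lvl N) (hn₀ : C.Near D.g lam 1 u₀)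
    (hjump : ∀ s, valueAt (C.node₁ s) (C.defect D.g lam 1 u₀).1 =
      valueAt (C.node₂ s) (C.defect D.g lam 1 u₀).2)
    {β₀ : L} (hβ₀ : β₀ ≠ 0) (hβl : A.valuation β₀ ≤ A.valuation lam)
    (hb : A.valuation b < A.valuation ((p : L) * β₀)) :
    ∃ u ∈ D.lvl N, C.Near D.g β₀ 1 u := by
  have hβ₀1 : A.valuation β₀ < 1 := hβl.trans_lt hlam1
  have hbl : A.valuation b < A.valuation lam ^ p := by
    refine hb.trans_le ?_
    rw [map_mul, ← hpl, ← Nat.sub_add_cancel hp.pos, pow_succ, Nat.add_sub_cancel]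
    exact mul_le_mul' le_rfl hβl
  have hone : (1 : F) ∈ riemannRochSpace (N • C.E) :=
    riemannRochSpace_mono (nsmul_le_nsmul_divisor C.polar.1 (Nat.zero_le N))
      (pow_zero C.J ▸ C.polar.pow_mem 0)
  have hJ : C.J ^ N ∈ riemannRochSpace (N • C.E) := C.polar.pow_mem N
  -- a best approximation is at a level below `lam`
  have key : ∀ {w : F}, w ∈ riemannRochSpace (N • C.E) → C.Mem (1, 1) w →
      (∃ u ∈ D.lvl N, C.Near D.g β₀ w u) ∨
        ∃ β u, A.valuation β₀ < A.valuation β ∧ A.valuation β < A.valuation lam ∧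
          u ∈ D.lvl N ∧ C.Near D.g β w u ∧ C.defect D.g β w u ∉ C.glued N 1 := by
    intro w hw hwm
    refine (D.exists_best hp ht harch hN hw hwm hβ₀ hβ₀1).imp_right ?_
    rintro ⟨β, u, hlt, hβ1, hu, hn, hd⟩
    have hβ0 : β ≠ 0 := fun h => by simp [h] at hlt
    refine ⟨β, u, hlt, ?_, hu, hn, hd⟩
    by_contra hge
    push Not at hge
    rcases hge.eq_or_lt with heq | hgt
    · have hn' := hn.mono hβ0 heq.ge
      have h := D.defect_mem_glued hp hlam hlam1 hpl hbl hu₀ hn₀ hjump hw hwm hu hn'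
      refine hd ?_
      rw [defect_of_le hlam heq.le hn']
      exact Submodule.smul_mem _ _ h
    · exact hd (D.defect_mem_glued_of_gt hp hu hw hwm hn hβ0 hβ1
        (hpl ▸ pow_lt_pow_left₀ hgt zero_le (by have := hp.two_le; omega))
        (hbl.trans (pow_lt_pow_left₀ hgt zero_le hp.ne_zero)))
  by_contra hno
  obtain ⟨β₁, u₁, hβ₁gt, hβ₁lt, hu₁, hn₁, hd₁⟩ := (key hone mem_one_pair).resolve_left hno
  have hβ₁0 : β₁ ≠ 0 := fun h => by simp [h] at hβ₁gt
  obtain ⟨βJ, uJ, hβJ0, hβJlt, huJ, hnJ, hdJ⟩ : ∃ β u, β ≠ 0 ∧ A.valuation β < A.valuation lam ∧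
      u ∈ D.lvl N ∧ C.Near D.g β (C.J ^ N) u ∧
      (A.valuation β₀ < A.valuation β → C.defect D.g β (C.J ^ N) u ∉ C.glued N 1) := by
    rcases key hJ (C.J_pow_mem N) with ⟨u, hu, hn⟩ | ⟨β, u, h0, hlt, hu, hn, hd⟩
    · exact ⟨β₀, u, hβ₀, hβ₁gt.trans hβ₁lt, hu, hn, fun h => absurd h (lt_irrefl _)⟩
    · exact ⟨β, u, fun h => by simp [h] at h0, hlt, hu, hn, fun _ => hd⟩
  -- the common level
  obtain ⟨β, hβ0, hβlt, h1le, hJle, hmax⟩ : ∃ β, β ≠ 0 ∧ A.valuation β < A.valuation lam ∧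
      A.valuation β₁ ≤ A.valuation β ∧ A.valuation βJ ≤ A.valuation β ∧ (β = β₁ ∨ β = βJ) := by
    rcases le_total (A.valuation β₁) (A.valuation βJ) with h | h
    · exact ⟨βJ, hβJ0, hβJlt, h, le_rfl, Or.inr rfl⟩
    · exact ⟨β₁, hβ₁0, hβ₁lt, le_rfl, h, Or.inl rfl⟩
  have hβgt : A.valuation β₀ < A.valuation β := hβ₁gt.trans_le h1le
  have hβ1 : A.valuation β < 1 := hβlt.trans hlam1
  have n₁ := hn₁.mono hβ₁0 h1le
  have nJ := hnJ.mono hβJ0 hJle
  have hγ : (p : L) * β ≠ 0 := mul_ne_zero hp0 hβ0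
  have hα : A.valuation (β ^ p / ((p : L) * β)) < 1 := by
    rw [map_div₀, div_lt_one₀ (valuation_pos hγ), map_pow, map_mul, ← hpl]
    calc A.valuation β ^ p = A.valuation β ^ (p - 1) * A.valuation β := by
          rw [← pow_succ, Nat.sub_add_cancel hp.pos]
      _ < A.valuation lam ^ (p - 1) * A.valuation β :=
          mul_lt_mul_of_pos_right (pow_lt_pow_left₀ hβlt zero_le (by have := hp.two_le; omega))
            (valuation_pos hβ0)
  obtain ⟨α₁, hα₁⟩ : ∃ a : A, (a : L) = β ^ p / ((p : L) * β) :=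
    ⟨⟨_, (A.valuation_le_one_iff _).mp hα.le⟩, rfl⟩
  have hπ₁ : π α₁ = 0 := π_eq_zero_of_lt_one C.π_surj (by rw [hα₁]; exact hα)
  have hone' : C.red (1, 1) (1 : F) = 1 := Prod.ext C.b₁.red_one_one C.b₂.red_one_one
  have hcomb : ∀ α γ : k, (α • 1 + γ • C.red (1, 1) (C.J ^ N)) ^ (p - 1) *
      (α • C.defect D.g β 1 u₁ + γ • C.defect D.g β (C.J ^ N) uJ) ∈ C.glued (p * N) 1 := by
    intro α γ
    obtain ⟨a, rfl⟩ := C.π_surj α
    obtain ⟨c, rfl⟩ := C.π_surj γ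
    obtain ⟨hn', hd'⟩ := n₁.linear nJ a c
    have h := D.expansion_mem_glued hp
      (add_mem (Submodule.smul_mem _ _ hu₁) (Submodule.smul_mem _ _ huJ))
      (add_mem (Submodule.smul_mem _ _ hone) (Submodule.smul_mem _ _ hJ))
      ((mem_one_pair.smul a).add ((C.J_pow_mem N).smul c)) hn' hβ0 hβ1 hγ
      (hb.trans (by rw [map_mul, map_mul]; exact mul_lt_mul_of_pos_left hβgt (valuation_pos hp0)))
      (α₁ := α₁) (α₂ := 1) (by rw [hα₁, mul_div_cancel₀ _ hγ])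
      (by rw [OneMemClass.coe_one, mul_one])
    rw [hπ₁, zero_smul, zero_add, map_one, one_smul, hd', red_add (mem_one_pair.smul a)
      ((C.J_pow_mem N).smul c), red_smul mem_one_pair, red_smul (C.J_pow_mem N), hone'] at h
    exact h
  have hjr : C.red (1, 1) (C.J ^ N) = C.red (1, 1) C.J ^ N := red_J_pow N
  obtain ⟨g₁, gJ⟩ := mem_glued_of_combinations hp.two_le hN.pos
    (C.red_mem_glued_one (C.J_pow_mem N) hJ)
    (fun v hv => by rw [hjr, Prod.pow_fst]; exact IsPolarDivisor.ord_pow (by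
      show IsPolarDivisor (C.b₁.red 1 C.J) C.E₁
      rw [C.b₁.red_one C.J_mem₁]; exact C.polar₁) hv N)
    (fun v hv => by rw [hjr, Prod.pow_snd]; exact IsPolarDivisor.ord_pow (by
      show IsPolarDivisor (C.b₂.red 1 C.J) C.E₂
      rw [C.b₂.red_one C.J_mem₂]; exact C.polar₂) hv N) hcomb
  rcases hmax with rfl | rfl
  · exact hd₁ g₁
  · exact hdJ hβgt gJ

end SplitData

end PairReduction

end FLTAgent.Semistable
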