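import Fermat.Agent.Semistable.Transport
import Fermat.Agent.SemistableNodes.Scale
import Mathlib.Data.Nat.Choose.Dvd
import Mathlib.RingTheory.Valuation.ValuationSubring
import Mathlib.Algebra.Ring.GeomSum

/-!
# Congruences on one branch

Congruences modulo a constant for functions on one branch of a semistable reduction: monotonicity,
`p`-th powers (`red_expansion`), products, and images under semilinear morphisms (`branch₁_map`,
`branch₂_map`). Basic calculus for the study of split classes.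
-/

set_option autoImplicit false

noncomputable section

open AlgebraicCurve

namespace FLTAgent.Semistable

theorem exists_add_pow_prime_eq_sq {R : Type*} [CommRing R] {p : ℕ} (hp : p.Prime) (x y : R) :
    ∃ c : R, (x + y) ^ p = x ^ p + y ^ p + (p : R) * (x ^ (p - 1) * y + y ^ 2 * c) := by
  obtain ⟨k, rfl⟩ : ∃ k, p = k + 2 := ⟨p - 2, by have := hp.two_le; omega⟩
  refine ⟨∑ i ∈ Finset.range k,
    x ^ (k - i) * y ^ i * (((k + 2).choose (i + 2) / (k + 2) : ℕ) : R), ?_⟩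
  have hdiv : ∀ i ∈ Finset.range k, (((k + 2).choose (i + 2) : ℕ) : R)
      = ((k + 2 : ℕ) : R) * (((k + 2).choose (i + 2) / (k + 2) : ℕ) : R) := fun i hi => by
    rw [← Nat.cast_mul, Nat.mul_div_cancel']
    exact hp.dvd_choose_self (by omega) (by have := Finset.mem_range.mp hi; omega)
  rw [add_comm x y, add_pow, Finset.sum_range_succ, Finset.sum_range_succ', Finset.sum_range_succ']
  simp only [Nat.choose_self, Nat.choose_one_right, Nat.choose_zero_right, pow_zero, pow_one,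
    Nat.sub_self, zero_add, Nat.cast_one, mul_one, one_mul, Nat.sub_zero]
  rw [mul_add, Finset.mul_sum, Finset.mul_sum]
  have hsum : ∑ i ∈ Finset.range k, y ^ (i + 1 + 1) * x ^ (k + 2 - (i + 1 + 1)) *
        (((k + 2).choose (i + 1 + 1) : ℕ) : R)
      = ∑ i ∈ Finset.range k, ((k + 2 : ℕ) : R) *
        (y ^ 2 * (x ^ (k - i) * y ^ i * (((k + 2).choose (i + 2) / (k + 2) : ℕ) : R))) := by
    refine Finset.sum_congr rfl fun i hi => ?_
    rw [show i + 1 + 1 = i + 2 from rfl, hdiv i hi, show k + 2 - (i + 2) = k - i by omega, pow_add]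
    ring
  rw [hsum]
  ring

variable {L k : Type*} [Field L] [Field k] {A : ValuationSubring L} {π : A →+* k}
variable {F Fb : Type*} [Field F] [Field Fb] [Algebra L F] [Algebra k Fb]

theorem valuation_pos {x : L} (hx : x ≠ 0) : 0 < A.valuation x :=
  zero_lt_iff.mpr ((Valuation.ne_zero_iff _).mpr hx)

theorem valuation_inv_le_inv {x y : L} (hx : x ≠ 0) (h : A.valuation x ≤ A.valuation y) :
    A.valuation y⁻¹ ≤ A.valuation x⁻¹ := by
  rw [map_inv₀, map_inv₀]
  exact inv_anti₀ (valuation_pos hx) h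

theorem valuation_inv_lt_inv {x y : L} (hx : x ≠ 0) (h : A.valuation x < A.valuation y) :
    A.valuation y⁻¹ < A.valuation x⁻¹ := by
  rw [map_inv₀, map_inv₀]
  exact inv_strictAnti₀ (valuation_pos hx) h

namespace Branch

variable (B : Branch A π F Fb)

theorem mem_one_iff {u : F} : B.Mem 1 u ↔ u ∈ B.O := by
  unfold Mem
  rw [one_smul]

theorem mem_smul_one_iff {g : L} {u : F} : B.Mem 1 (g • u) ↔ B.Mem g u := by
  rw [B.mem_smul_iff, one_mul]

theorem red_one_smul {g : L} {u : F} (h : B.Mem g u) : B.red 1 (g • u) = B.red g u := by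
  rw [B.red_smul_eq (by rwa [one_mul]), one_mul]

/-- Congruence modulo a smaller constant gives congruence modulo a larger one. -/
theorem mem_inv_mono {x y : L} {u : F} (hx : x ≠ 0) (h : A.valuation x ≤ A.valuation y)
    (hm : B.Mem x⁻¹ u) : B.Mem y⁻¹ u :=
  B.mem_of_le (inv_ne_zero hx) (valuation_inv_le_inv hx h) hm

theorem red_inv_eq_zero (hπ : Function.Surjective π) {x y : L} {u : F} (hx : x ≠ 0)
    (h : A.valuation x < A.valuation y) (hm : B.Mem x⁻¹ u) : B.red y⁻¹ u = 0 :=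
  B.red_eq_zero_of_lt hπ (inv_ne_zero hx) (valuation_inv_lt_inv hx h) hm

theorem mem_one_of_mem_inv {β : L} {u : F} (hβ : β ≠ 0) (hβ1 : A.valuation β ≤ 1)
    (h : B.Mem β⁻¹ u) : B.Mem 1 u := by
  simpa using B.mem_inv_mono hβ (y := 1) (by simpa using hβ1) h

theorem red_one_eq_zero_of_mem_inv (hπ : Function.Surjective π) {β : L} {u : F} (hβ : β ≠ 0)
    (hβ1 : A.valuation β < 1) (h : B.Mem β⁻¹ u) : B.red 1 u = 0 := by
  simpa using B.red_inv_eq_zero hπ hβ (y := 1) (by simpa using hβ1) h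

theorem mem_and_red_eq_one (hπ : Function.Surjective π) {β : L} {x : F} (hβ : β ≠ 0)
    (hβ1 : A.valuation β < 1) (h : B.Mem β⁻¹ (x - 1)) : B.Mem 1 x ∧ B.red 1 x = 1 := by
  have h1 := B.mem_one_of_mem_inv hβ hβ1.le h
  have h2 := B.red_one_eq_zero_of_mem_inv hπ hβ hβ1 h
  have hx := Branch.Mem.add B h1 B.mem_one
  rw [sub_add_cancel] at hx
  refine ⟨hx, ?_⟩
  rw [show x = x - 1 + 1 from (sub_add_cancel x 1).symm, B.red_add h1 B.mem_one, h2, zero_add,
    B.red_one_one]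

theorem mem_of_algebraMap_mem (hπ : Function.Surjective π) {c : L} (h : algebraMap L F c ∈ B.O) :
    c ∈ A := by
  by_contra hc
  have hc0 : c ≠ 0 := fun h0 => hc (h0 ▸ A.zero_mem)
  have hinv : c⁻¹ ∈ A := (A.mem_or_inv_mem c).resolve_left hc
  have hnu : ¬IsUnit (⟨c⁻¹, hinv⟩ : A) := fun hu => hc (by
    obtain ⟨d, hd⟩ := hu.exists_right_inv
    have hd' : c⁻¹ * (d : L) = 1 := congrArg Subtype.val hd
    exact (inv_mul_eq_one₀ hc0).mp hd' ▸ d.2)
  have h1 : B.constHom ⟨c⁻¹, hinv⟩ * ⟨algebraMap L F c, h⟩ = 1 :=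
    Subtype.ext (by simp [constHom, hc0])
  have := congrArg B.res h1
  rw [map_mul, B.res_constHom, π_eq_zero_of_not_isUnit hπ hnu, map_zero, zero_mul, map_one] at this
  exact zero_ne_one this

theorem mem_of_pow_mem {g : L} {u : F} {m : ℕ} (hm : 0 < m) (h : B.Mem (g ^ m) (u ^ m)) :
    B.Mem g u := by
  unfold Mem at *
  rw [← smul_pow] at h
  set x := g • u
  rcases B.O.mem_or_inv_mem x with hx | hx
  · exact hx
  rcases eq_or_ne x 0 with h0 | h0
  · rw [h0]; exact B.O.zero_mem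
  have := B.O.mul_mem _ _ h (pow_mem hx (m - 1))
  have e : x ^ m * x⁻¹ ^ (m - 1) = x := by
    obtain ⟨k, rfl⟩ : ∃ k, m = k + 1 := ⟨m - 1, by omega⟩
    rw [pow_succ, Nat.add_sub_cancel, mul_right_comm, ← mul_pow, mul_inv_cancel₀ h0, one_pow,
      one_mul]
  rwa [e] at this

theorem mem_inv_sub_pow {β : L} {x y : F} (hx : B.Mem 1 x) (hy : B.Mem 1 y)
    (h : B.Mem β⁻¹ (x - y)) (m : ℕ) : B.Mem β⁻¹ (x ^ m - y ^ m) := by
  have hS : B.Mem 1 (∑ i ∈ Finset.range m, x ^ i * y ^ (m - 1 - i)) :=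
    Branch.Mem.sum B fun i _ => by
      have := Branch.Mem.mul B (Branch.Mem.pow B hx i) (Branch.Mem.pow B hy (m - 1 - i))
      rwa [one_pow, one_pow, one_mul] at this
  have := Branch.Mem.mul B h hS
  rwa [mul_one, mul_comm (x - y), geom_sum₂_mul] at this

theorem mem_inv_mul_sub_one {β : L} {x y : F} (hy : B.Mem 1 y) (h : B.Mem β⁻¹ (x - 1))
    (h' : B.Mem β⁻¹ (y - 1)) : B.Mem β⁻¹ (x * y - 1) := by
  rw [show x * y - 1 = (x - 1) * y + (y - 1) by ring]
  refine Branch.Mem.add B ?_ h'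
  have := Branch.Mem.mul B h hy
  rwa [mul_one] at this

theorem red_inv_mul_sub_one {β : L} {x y : F} (hy : B.Mem 1 y) (hy1 : B.red 1 y = 1)
    (h : B.Mem β⁻¹ (x - 1)) (h' : B.Mem β⁻¹ (y - 1)) :
    B.red β⁻¹ (x * y - 1) = B.red β⁻¹ (x - 1) + B.red β⁻¹ (y - 1) := by
  have hm : B.Mem β⁻¹ ((x - 1) * y) := by
    have := Branch.Mem.mul B h hy
    rwa [mul_one] at this
  rw [show x * y - 1 = (x - 1) * y + (y - 1) by ring, B.red_add hm h']
  have := B.red_mul h hy
  rw [mul_one] at this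
  rw [this, hy1, mul_one]

theorem red_inv_pow_sub_one (hπ : Function.Surjective π) {β : L} {x : F} (hβ : β ≠ 0)
    (hβ1 : A.valuation β < 1) (h : B.Mem β⁻¹ (x - 1)) : ∀ m : ℕ,
    B.Mem β⁻¹ (x ^ m - 1) ∧ B.red β⁻¹ (x ^ m - 1) = (m : Fb) * B.red β⁻¹ (x - 1)
  | 0 => by simp [B.mem_zero, B.red_zero]
  | m + 1 => by
    obtain ⟨ih, ihr⟩ := red_inv_pow_sub_one hπ hβ hβ1 h m
    obtain ⟨hx, hx1⟩ := B.mem_and_red_eq_one hπ hβ hβ1 h
    rw [pow_succ]
    refine ⟨B.mem_inv_mul_sub_one hx ih h, ?_⟩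
    rw [B.red_inv_mul_sub_one hx hx1 ih h, ihr]
    push_cast
    ring

/-- Nonzero functions of every scale. -/
theorem exists_mem (u : F) : ∃ c : L, c ≠ 0 ∧ B.Mem c u := by
  rcases eq_or_ne u 0 with rfl | hu
  · exact ⟨1, one_ne_zero, B.mem_zero 1⟩
  · obtain ⟨c, hc, hm, -⟩ := B.exists_red_ne_zero hu
    exact ⟨c, hc, hm⟩

/-- The expansion of a `p`-th power around `w` at level `β`, times a factor close to one. -/
theorem red_expansion {p : ℕ} (hp : p.Prime) {x w e : F} {β γ : L} (hβ : β ≠ 0) (hγ : γ ≠ 0)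
    {βA α₁ α₂ : A} (hβA : (βA : L) = β) (hπβ : π βA = 0) (h₁ : γ * (α₁ : L) = β ^ p)
    (h₂ : γ * (α₂ : L) = (p : L) * β) (hw : B.Mem 1 w) (hxw : B.Mem β⁻¹ (x - w))
    (he : B.Mem γ⁻¹ (e - 1)) (he0 : B.red γ⁻¹ (e - 1) = 0) :
    B.Mem γ⁻¹ (x ^ p * e - w ^ p) ∧ B.red γ⁻¹ (x ^ p * e - w ^ p) =
      π α₁ • B.red β⁻¹ (x - w) ^ p +
        π α₂ • (B.red 1 w ^ (p - 1) * B.red β⁻¹ (x - w)) := by
  let W : B.O := ⟨w, B.mem_one_iff.mp hw⟩
  let R : B.O := ⟨β⁻¹ • (x - w), hxw⟩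
  let E : B.O := ⟨γ⁻¹ • (e - 1), he⟩
  let X : B.O := W + B.constHom βA * R
  obtain ⟨c, hc⟩ := exists_add_pow_prime_eq_sq hp W (B.constHom βA * R)
  let Q : B.O := B.constHom α₁ * R ^ p
    + B.constHom α₂ * (W ^ (p - 1) * R + B.constHom βA * R ^ 2 * c) + X ^ p * E
  have hX : (X : F) = x := by
    show w + algebraMap L F (βA : L) * β⁻¹ • (x - w) = x
    rw [hβA, ← Algebra.smul_def, smul_inv_smul₀ hβ, add_sub_cancel]
  have hbR : algebraMap L F β * (R : F) = x - w := by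
    show algebraMap L F β * β⁻¹ • (x - w) = x - w
    rw [← Algebra.smul_def, smul_inv_smul₀ hβ]
  have hE : algebraMap L F γ * (E : F) = e - 1 := by
    show algebraMap L F γ * γ⁻¹ • (e - 1) = e - 1
    rw [← Algebra.smul_def, smul_inv_smul₀ hγ]
  have hc' : x ^ p = w ^ p + (algebraMap L F β * (R : F)) ^ p
      + (p : F) * (w ^ (p - 1) * (algebraMap L F β * (R : F))
        + (algebraMap L F β * (R : F)) ^ 2 * (c : F)) := by
    have h := congrArg (fun z : B.O => (z : F)) hc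
    push_cast at h
    rw [show (B.constHom βA : F) = algebraMap L F β from congrArg (algebraMap L F) hβA] at h
    rw [← hX]
    show ((W : F) + (B.constHom βA : F) * (R : F)) ^ p = _
    rw [show (B.constHom βA : F) = algebraMap L F β from congrArg (algebraMap L F) hβA]
    exact h
  have hQ : x ^ p * e - w ^ p = γ • (Q : F) := by
    have e1 : algebraMap L F γ * algebraMap L F (α₁ : L) = algebraMap L F β ^ p := by
      rw [← map_mul, h₁, map_pow]
    have e2 : algebraMap L F γ * algebraMap L F (α₂ : L) = (p : F) * algebraMap L F β := by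
      rw [← map_mul, h₂, map_mul, map_natCast]
    rw [Algebra.smul_def]
    show _ = algebraMap L F γ * (algebraMap L F (α₁ : L) * (R : F) ^ p
      + algebraMap L F (α₂ : L) * (w ^ (p - 1) * (R : F)
        + algebraMap L F (βA : L) * (R : F) ^ 2 * (c : F)) + (X : F) ^ p * (E : F))
    rw [hβA, hX]
    linear_combination (x ^ p) * (hE.symm) + hc'
      - (R : F) ^ p * e1 - (w ^ (p - 1) * (R : F) + algebraMap L F β * (R : F) ^ 2 * (c : F)) * e2
  have hQ' : γ⁻¹ • (x ^ p * e - w ^ p) = (Q : F) := by rw [hQ, inv_smul_smul₀ hγ]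
  refine ⟨by show _ ∈ B.O; rw [hQ']; exact Q.2, ?_⟩
  rw [B.red_eq_res Q.2 hQ', B.red_eq hxw, B.red_eq_res W.2 (one_smul L w)]
  have hE0 : B.res E = 0 := (B.red_eq he).symm.trans he0
  show B.res Q = π α₁ • B.res R ^ p + π α₂ • (B.res W ^ (p - 1) * B.res R)
  simp only [Q, map_add, map_mul, map_pow, B.res_constHom, hE0, hπβ, map_zero, zero_mul, add_zero,
    mul_zero, Algebra.smul_def]

end Branch

variable {F₁ F₂ : Type*} [Field F₁] [Field F₂] [Algebra k F₁] [Algebra k F₂] {ι : Type*}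
  [Fintype ι]

namespace PairReduction.Morph

variable {C : PairReduction A π F F₁ F₂ ι} (Φ : Morph C C)

theorem branch₁_map {c : L} {u : F} (h : C.b₁.Mem c u) :
    C.b₁.Mem (SemilinearAut.baseAut Φ.g c) (Φ.g • u) ∧
      C.b₁.red (SemilinearAut.baseAut Φ.g c) (Φ.g • u) = Φ.σ₁ (C.b₁.red c u) := by
  have hm : C.b₁.Mem (SemilinearAut.baseAut Φ.g c) (Φ.g • u) := by
    show _ • (Φ.g • u) ∈ C.b₁.O
    rw [← Φ.smul_algebra_smul]
    exact Φ.map_mem₁ _ h
  refine ⟨hm, ?_⟩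
  rw [C.b₁.red_eq h, ← Φ.map_res₁ _ h]
  exact C.b₁.red_eq_res (Φ.map_mem₁ _ h) (Φ.smul_algebra_smul _ _).symm

theorem branch₂_map {c : L} {u : F} (h : C.b₂.Mem c u) :
    C.b₂.Mem (SemilinearAut.baseAut Φ.g c) (Φ.g • u) ∧
      C.b₂.red (SemilinearAut.baseAut Φ.g c) (Φ.g • u) = Φ.σ₂ (C.b₂.red c u) := by
  have hm : C.b₂.Mem (SemilinearAut.baseAut Φ.g c) (Φ.g • u) := by
    show _ • (Φ.g • u) ∈ C.b₂.O
    rw [← Φ.smul_algebra_smul]
    exact Φ.map_mem₂ _ h
  refine ⟨hm, ?_⟩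
  rw [C.b₂.red_eq h, ← Φ.map_res₂ _ h]
  exact C.b₂.red_eq_res (Φ.map_mem₂ _ h) (Φ.smul_algebra_smul _ _).symm

/-- A morphism preserves `A`, and acts on the residue field through `τ`. -/
theorem exists_baseAut_eq (a : A) :
    ∃ a' : A, (a' : L) = SemilinearAut.baseAut Φ.g (a : L) ∧ π a' = Φ.τ (π a) := by
  obtain ⟨hm, hr⟩ := Φ.branch₁_map (C.b₁.mem_algebraMap a)
  rw [map_one, SemilinearAut.smul_algebraMap] at hm hr
  have hA : SemilinearAut.baseAut Φ.g (a : L) ∈ A :=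
    C.b₁.mem_of_algebraMap_mem C.π_surj (C.b₁.mem_one_iff.mp hm)
  refine ⟨⟨_, hA⟩, rfl, (algebraMap k F₁).injective ?_⟩
  rw [← C.b₁.red_algebraMap, hr, C.b₁.red_algebraMap, Φ.σ₁_algebraMap]

end PairReduction.Morph

end FLTAgent.Semistable
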