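import Fermat.Agent.SemistableSplit.Approximation

/-!
# A criterion for split classes

A class is split when its reductions are `p`-th powers up to constants and data close to one can
be improved by `p`-th powers (`isSplit_of_step`).
-/

set_option autoImplicit false

noncomputable section

open AlgebraicCurve FLTAgent.FFRiemannRoch FLTAgent.FFBasic

namespace FLTAgent.Semistable

variable {L k : Type*} [Field L] [Field k] {A : ValuationSubring L} {π : A →+* k}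
variable {F Fb : Type*} [Field F] [Field Fb] [Algebra L F] [Algebra k Fb]

/-- A `p`-th root of a function with reduction one has reduction one. -/
theorem Branch.red_eq_one_of_pow (B : Branch A π F Fb) {p : ℕ} (hp : p.Prime) [CharP k p] {y : F}
    (hy : B.Mem 1 (y ^ p)) (hr : B.red 1 (y ^ p) = 1) : B.Mem 1 y ∧ B.red 1 y = 1 := by
  have := Fact.mk hp
  have : CharP Fb p := charP_of_injective_algebraMap (algebraMap k Fb).injective p
  have hy' : B.Mem 1 y := B.mem_of_pow_mem (g := 1) hp.pos (by rwa [one_pow])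
  refine ⟨hy', frobenius_inj Fb p ?_⟩
  rw [frobenius_def, frobenius_def, one_pow, ← B.red_pow hy', one_pow, hr]

/-- Dividing a rescaled function by a `p`-th power with nonzero reduction. -/
theorem Branch.mem_smul_div_pow (B : Branch A π F Fb) (hπ : Function.Surjective π) {p : ℕ}
    {f y : F} (hy0 : y ≠ 0) {c : L} {a : A} (hm : B.Mem c f) (hr : B.red c f ≠ 0)
    (hyp : B.Mem 1 (y ^ p)) (hy1 : B.Mem 1 y) (hyr : B.red 1 y ≠ 0) (ha : π a ≠ 0) :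
    B.Mem ((a : L) * c) (f / y ^ p) ∧ B.red ((a : L) * c) (f / y ^ p) ≠ 0 := by
  have hyr' : B.red 1 (y ^ p) ≠ 0 := by
    have := B.red_pow hy1 p
    rw [one_pow] at this
    rw [this]; exact pow_ne_zero p hyr
  have h1 : B.Mem c (f / y ^ p) := B.mem_of_mul_mem hπ hyp hyr' (by
    rwa [mul_one, div_mul_cancel₀ _ (pow_ne_zero p hy0)])
  have h2 := B.red_mul h1 hyp
  rw [mul_one, div_mul_cancel₀ _ (pow_ne_zero p hy0)] at h2
  have h3 : B.Mem ((a : L) * c) (f / y ^ p) := by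
    rw [mul_comm, ← B.mem_smul_iff]; exact Branch.Mem.smul B h1 a
  refine ⟨h3, ?_⟩
  rw [mul_comm, ← B.red_smul_eq (by rwa [mul_comm]), B.red_smul h1]
  exact smul_ne_zero ha fun h => hr (by rw [h2, h, zero_mul])

/-- Removing a residual `p`-th power and a constant. -/
theorem Branch.red_sub_one_of_div_pow (B : Branch A π F Fb) (hπ : Function.Surjective π) {p : ℕ}
    {f f' h : F} {c c' : L} {a : k} {α : A} {z : Fb} (ha : a ≠ 0) (hz : z ≠ 0)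
    (hα : π α = a⁻¹) (hc : B.Mem c f) (hcr : B.red c f = a • z ^ p) (hh : B.Mem 1 h)
    (hhr : B.red 1 h = z) (hc' : B.Mem c' f') (e : c' • f' = (α : L) • (c • f / h ^ p)) :
    B.Mem 1 (c' • f' - 1) ∧ B.red 1 (c' • f' - 1) = 0 := by
  have hh0 : h ≠ 0 := fun h0 => hz (by rw [← hhr, h0, B.red_zero])
  have hhp : B.Mem 1 (h ^ p) := by simpa using Branch.Mem.pow B hh p
  have hhpr : B.red 1 (h ^ p) = z ^ p := by
    have := B.red_pow hh p
    rwa [one_pow, hhr] at this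
  have hq : B.Mem 1 (c • f / h ^ p) := B.mem_of_mul_mem hπ hhp
    (by rw [hhpr]; exact pow_ne_zero p hz)
    (by rw [mul_one, div_mul_cancel₀ _ (pow_ne_zero p hh0), B.mem_smul_one_iff]; exact hc)
  have hqr : B.red 1 (c • f / h ^ p) = a • (1 : Fb) := by
    have := B.red_mul hq hhp
    rw [mul_one, div_mul_cancel₀ _ (pow_ne_zero p hh0), B.red_one_smul hc, hcr, hhpr] at this
    refine mul_right_cancel₀ (pow_ne_zero p hz) (this.symm.trans ?_)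
    rw [smul_mul_assoc, one_mul]
  have hm1 : B.Mem 1 (c' • f') := B.mem_smul_one_iff.mpr hc'
  refine ⟨Branch.Mem.sub B hm1 B.mem_one, ?_⟩
  rw [B.red_sub hm1 B.mem_one, B.red_one_one, e, B.red_smul hq, hqr, hα, smul_smul,
    inv_mul_cancel₀ ha, one_smul, sub_self]

/-- One improvement step on a branch. -/
theorem Branch.mem_div_pow_sub_one (B : Branch A π F Fb) (hπ : Function.Surjective π) {p : ℕ}
    (hp : p.Prime) [CharP k p] {b s : L} {f y G' : F} {c : L} (hb : b ≠ 0)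
    (hb1' : A.valuation b < 1) (hbs0 : b * s ≠ 0) (hbs1 : A.valuation (b * s) < 1)
    (hb1 : B.Mem b⁻¹ (c • f - 1)) (hk : B.Mem (b * s)⁻¹ (c • f - G' ^ p))
    (hyG : B.Mem (b * s)⁻¹ (y - G')) :
    B.Mem 1 y ∧ B.red 1 y = 1 ∧ B.Mem (b * s)⁻¹ (c • f / y ^ p - 1) := by
  obtain ⟨hcf, hcfr⟩ := B.mem_and_red_eq_one hπ hb hb1' hb1
  have hd := B.mem_one_of_mem_inv hbs0 hbs1.le hk
  have hdr := B.red_one_eq_zero_of_mem_inv hπ hbs0 hbs1 hk
  have hGp : B.Mem 1 (G' ^ p) ∧ B.red 1 (G' ^ p) = 1 := by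
    rw [show G' ^ p = c • f - (c • f - G' ^ p) by ring]
    exact ⟨Branch.Mem.sub B hcf hd, by rw [B.red_sub hcf hd, hcfr, hdr, sub_zero]⟩
  obtain ⟨hG, hGr⟩ := B.red_eq_one_of_pow hp hGp.1 hGp.2
  have hyd := B.mem_one_of_mem_inv hbs0 hbs1.le hyG
  have hyr := B.red_one_eq_zero_of_mem_inv hπ hbs0 hbs1 hyG
  have hy : B.Mem 1 y ∧ B.red 1 y = 1 := by
    rw [show y = y - G' + G' from (sub_add_cancel y G').symm]
    exact ⟨Branch.Mem.add B hyd hG, by rw [B.red_add hyd hG, hyr, hGr, zero_add]⟩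
  refine ⟨hy.1, hy.2, ?_⟩
  have hy0 : y ≠ 0 := fun h0 => one_ne_zero (α := Fb) (by rw [← hy.2, h0, B.red_zero])
  have hyp : B.Mem 1 (y ^ p) := by simpa using Branch.Mem.pow B hy.1 p
  have hypr : B.red 1 (y ^ p) = 1 := by
    have := B.red_pow hy.1 p
    rwa [one_pow, hy.2, one_pow] at this
  refine B.mem_of_mul_mem hπ hyp (by rw [hypr]; exact one_ne_zero) ?_
  rw [mul_one, sub_mul, one_mul, div_mul_cancel₀ _ (pow_ne_zero p hy0),
    show c • f - y ^ p = (c • f - G' ^ p) - (y ^ p - G' ^ p) by ring]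
  exact Branch.Mem.sub B hk (B.mem_inv_sub_pow hy.1 hG hyG p)

variable {F₁ F₂ : Type*} [Field F₁] [Field F₂] [Algebra k F₁] [Algebra k F₂] {ι : Type*}
  [Fintype ι] [IsFunctionField L F]

namespace PairReduction

variable {C : PairReduction A π F F₁ F₂ ι}

/-- Dividing the function of torsion data by a `p`-th power with nonzero reductions. -/
theorem TorsionData.exists_div_pow {p : ℕ} (T : C.TorsionData p) {y : F} (hy : C.Mem (1, 1) y)
    (hy₁ : C.b₁.red 1 y ≠ 0) (hy₂ : C.b₂.red 1 y ≠ 0) {a₁ a₂ : A} (ha₁ : π a₁ ≠ 0)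
    (ha₂ : π a₂ ≠ 0) :
    ∃ T' : C.TorsionData p, T'.cls = T.cls ∧
      T'.c.1 • T'.f = (a₁ : L) • (T.c.1 • T.f / y ^ p) ∧
      T'.c.2 • T'.f = (a₂ : L) • (T.c.2 • T.f / y ^ p) := by
  have hy0 : y ≠ 0 := fun h => hy₁ (by rw [h, C.b₁.red_zero])
  have hyp := hy.pow p
  rw [show ((1, 1) : L × L) = 1 from rfl, one_pow] at hyp
  obtain ⟨m₁, r₁⟩ := C.b₁.mem_smul_div_pow C.π_surj hy0 (a := a₁) T.mem.1 T.ne₁ hyp.1 hy.1 hy₁ ha₁
  obtain ⟨m₂, r₂⟩ := C.b₂.mem_smul_div_pow C.π_surj hy0 (a := a₂) T.mem.2 T.ne₂ hyp.2 hy.2 hy₂ ha₂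
  refine ⟨{ D := T.D - divOf y
            degree_eq := by rw [map_sub, T.degree_eq, degree_divOf, sub_zero]
            f := T.f / y ^ p
            f_ne := div_ne_zero T.f_ne (pow_ne_zero p hy0)
            div_eq := fun v => by
              rw [div_eq_mul_inv, v.ord_mul T.f_ne (inv_ne_zero (pow_ne_zero p hy0)), v.ord_inv,
                ← zpow_natCast, v.ord_zpow, Finsupp.sub_apply, divOf_apply, mul_sub, T.div_eq]
              ring
            c := ((a₁ : L) * T.c.1, (a₂ : L) * T.c.2)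
            mem := ⟨m₁, m₂⟩
            ne₁ := r₁
            ne₂ := r₂ }, ?_, ?_, ?_⟩
  · show QuotientAddGroup.mk _ = QuotientAddGroup.mk _
    rw [QuotientAddGroup.eq, AddSubgroup.mem_addSubgroupOf]
    refine ⟨y, hy0, fun v => ?_⟩
    simp [divOf_apply]
  · show ((a₁ : L) * T.c.1) • (T.f / y ^ p) = _
    rw [mul_smul, div_eq_mul_inv, div_eq_mul_inv, smul_mul_assoc]
  · show ((a₂ : L) * T.c.2) • (T.f / y ^ p) = _
    rw [mul_smul, div_eq_mul_inv, div_eq_mul_inv, smul_mul_assoc]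

variable [IsAlgClosed k] [IsFunctionField k F₁] [IsFunctionField k F₂] [IsAlgClosed L]

/-- Criterion for splitting by successive improvement. -/
theorem isSplit_of_step {p : ℕ} (hp : p.Prime) [CharP k p] (harch : Arch π)
    (ht : ∃ t : A, t ≠ 0 ∧ π t = 0) {lam : L} (hlam : lam ≠ 0) (hlam1 : A.valuation lam < 1)
    {x : Pic0 L F}
    (hbase : ∃ T : C.TorsionData p, T.cls = x ∧
      (∃ (a : k) (z : F₁), T.bar.1 = a • z ^ p) ∧ ∃ (a : k) (z : F₂), T.bar.2 = a • z ^ p)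
    (hstep : ∀ T : C.TorsionData p, T.cls = x → ∀ b s : L, b ≠ 0 → A.valuation b < 1 →
      A.valuation lam ≤ A.valuation s → A.valuation b ≤ A.valuation s → A.valuation s < 1 →
      C.b₁.Mem b⁻¹ (T.c.1 • T.f - 1) → C.b₂.Mem b⁻¹ (T.c.2 • T.f - 1) →
      ∃ G₁ G₂ : F, C.b₁.Mem (b * s)⁻¹ (T.c.1 • T.f - G₁ ^ p) ∧
        C.b₂.Mem (b * s)⁻¹ (T.c.2 • T.f - G₂ ^ p)) :
    C.IsSplit p x := by
  obtain ⟨T₀, hT₀, ⟨a₁, z₁, e₁⟩, a₂, z₂, e₂⟩ := hbase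
  have ha₁ : a₁ ≠ 0 := fun h => T₀.bar_ne₁ (by rw [e₁, h, zero_smul])
  have ha₂ : a₂ ≠ 0 := fun h => T₀.bar_ne₂ (by rw [e₂, h, zero_smul])
  have hz₁ : z₁ ≠ 0 := fun h => T₀.bar_ne₁ (by rw [e₁, h, zero_pow hp.ne_zero, smul_zero])
  have hz₂ : z₂ ≠ 0 := fun h => T₀.bar_ne₂ (by rw [e₂, h, zero_pow hp.ne_zero, smul_zero])
  obtain ⟨h, hm, hr⟩ := C.exists_red_eq (z₁, z₂)
  obtain ⟨α₁, hα₁⟩ := C.π_surj a₁⁻¹
  obtain ⟨α₂, hα₂⟩ := C.π_surj a₂⁻¹
  have hr₁ : C.b₁.red 1 h = z₁ := congrArg Prod.fst hr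
  have hr₂ : C.b₂.red 1 h = z₂ := congrArg Prod.snd hr
  obtain ⟨T₁, hT₁, f₁, f₂⟩ := T₀.exists_div_pow hm (hr₁ ▸ hz₁) (hr₂ ▸ hz₂)
    (hα₁ ▸ inv_ne_zero ha₁) (hα₂ ▸ inv_ne_zero ha₂)
  obtain ⟨n₁, s₁⟩ := C.b₁.red_sub_one_of_div_pow C.π_surj ha₁ hz₁ hα₁ T₀.mem.1 e₁ hm.1 hr₁
    T₁.mem.1 f₁
  obtain ⟨n₂, s₂⟩ := C.b₂.red_sub_one_of_div_pow C.π_surj ha₂ hz₂ hα₂ T₀.mem.2 e₂ hm.2 hr₂
    T₁.mem.2 f₂
  obtain ⟨d₁, hd₁, hs₁⟩ := C.b₁.exists_small ht n₁ s₁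
  obtain ⟨d₂, hd₂, hs₂⟩ := C.b₂.exists_small ht n₂ s₂
  have hinv : ∀ {d : L}, d ∉ A → d⁻¹ ≠ 0 ∧ A.valuation d⁻¹ < 1 := fun {d} hd => by
    refine ⟨inv_ne_zero fun h => hd (h ▸ A.zero_mem), ?_⟩
    rw [map_inv₀]
    exact inv_lt_one_of_one_lt₀ (not_le.mp fun h' => hd ((A.valuation_le_one_iff d).mp h'))
  obtain ⟨b₀, hb₀, hb₀1, hle₁, hle₂⟩ : ∃ b₀ : L, b₀ ≠ 0 ∧ A.valuation b₀ < 1 ∧
      A.valuation d₁⁻¹ ≤ A.valuation b₀ ∧ A.valuation d₂⁻¹ ≤ A.valuation b₀ := by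
    rcases le_total (A.valuation d₁⁻¹) (A.valuation d₂⁻¹) with h | h
    · exact ⟨_, (hinv hd₂).1, (hinv hd₂).2, h, le_rfl⟩
    · exact ⟨_, (hinv hd₁).1, (hinv hd₁).2, le_rfl, h⟩
  obtain ⟨s, hs, hs1, hls, hbs⟩ : ∃ s : L, s ≠ 0 ∧ A.valuation s < 1 ∧
      A.valuation lam ≤ A.valuation s ∧ A.valuation b₀ ≤ A.valuation s := by
    rcases le_total (A.valuation lam) (A.valuation b₀) with h | h
    · exact ⟨_, hb₀, hb₀1, h, le_rfl⟩
    · exact ⟨_, hlam, hlam1, le_rfl, h⟩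
  have hiter : ∀ j : ℕ, ∃ T : C.TorsionData p, T.cls = x ∧
      C.b₁.Mem (b₀ * s ^ j)⁻¹ (T.c.1 • T.f - 1) ∧ C.b₂.Mem (b₀ * s ^ j)⁻¹ (T.c.2 • T.f - 1) := by
    intro j
    induction j with
    | zero =>
      refine ⟨T₁, hT₁.trans hT₀, ?_, ?_⟩ <;> rw [pow_zero, mul_one]
      · exact C.b₁.mem_inv_mono (hinv hd₁).1 hle₁ (by rwa [inv_inv])
      · exact C.b₂.mem_inv_mono (hinv hd₂).1 hle₂ (by rwa [inv_inv])
    | succ j ih =>
      obtain ⟨T, hT, i₁, i₂⟩ := ih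
      set b := b₀ * s ^ j with hbdef
      have hb : b ≠ 0 := mul_ne_zero hb₀ (pow_ne_zero j hs)
      have hbb : A.valuation b ≤ A.valuation b₀ := by
        rw [hbdef, map_mul, map_pow]
        exact mul_le_of_le_one_right' (pow_le_one₀ zero_le hs1.le)
      obtain ⟨G₁, G₂, k₁, k₂⟩ := hstep T hT b s hb (hbb.trans_lt hb₀1) hls (hbb.trans hbs) hs1 i₁ i₂
      have hbs0 : b * s ≠ 0 := mul_ne_zero hb hs
      have hbs1 : A.valuation (b * s) < 1 := by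
        rw [map_mul]; exact (mul_le_of_le_one_right' hs1.le).trans_lt (hbb.trans_lt hb₀1)
      obtain ⟨y, hy₁, hy₂⟩ := C.exists_combine ht harch (inv_ne_zero hbs0) (inv_ne_zero hbs0) G₁ G₂
      obtain ⟨y₁, yr₁, l₁⟩ :=
          C.b₁.mem_div_pow_sub_one C.π_surj hp hb (hbb.trans_lt hb₀1) hbs0 hbs1 i₁ k₁ hy₁
      obtain ⟨y₂, yr₂, l₂⟩ :=
          C.b₂.mem_div_pow_sub_one C.π_surj hp hb (hbb.trans_lt hb₀1) hbs0 hbs1 i₂ k₂ hy₂
      obtain ⟨T', hT', g₁, g₂⟩ := T.exists_div_pow (a₁ := 1) (a₂ := 1) ⟨y₁, y₂⟩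
        (by rw [yr₁]; exact one_ne_zero) (by rw [yr₂]; exact one_ne_zero)
        (by rw [map_one]; exact one_ne_zero) (by rw [map_one]; exact one_ne_zero)
      rw [OneMemClass.coe_one, one_smul] at g₁ g₂
      refine ⟨T', hT'.trans hT, ?_, ?_⟩
      · rw [g₁, pow_succ, ← mul_assoc, ← hbdef]; exact l₁
      · rw [g₂, pow_succ, ← mul_assoc, ← hbdef]; exact l₂
  intro b hb
  have hb' : (b : L) ≠ 0 := fun h => hb (Subtype.ext h)
  obtain ⟨j, hj⟩ := harch.exists_pow_le C.π_surj hs1 hb'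
  obtain ⟨T, hT, i₁, i₂⟩ := hiter j
  have hle : A.valuation (b₀ * s ^ j) ≤ A.valuation (b : L) := by
    rw [map_mul, map_pow]; exact (mul_le_of_le_one_left' hb₀1.le).trans hj
  have hne : b₀ * s ^ j ≠ 0 := mul_ne_zero hb₀ (pow_ne_zero j hs)
  refine ⟨T, hT, ⟨(b : L)⁻¹ • (T.c.1 • T.f - 1), ?_, ?_⟩, (b : L)⁻¹ • (T.c.2 • T.f - 1), ?_, ?_⟩
  · exact C.b₁.mem_smul_one_iff.mpr (C.b₁.mem_inv_mono hne hle i₁)
  · rw [smul_inv_smul₀ hb', add_sub_cancel]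
  · exact C.b₂.mem_smul_one_iff.mpr (C.b₂.mem_inv_mono hne hle i₂)
  · rw [smul_inv_smul₀ hb', add_sub_cancel]

end PairReduction

end FLTAgent.Semistable
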