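import Fermat.Agent.SemistableSplit.Regularity
import Fermat.Agent.SemistableSplit.Lifting
import Fermat.Agent.SemistableSplit.Rigidity

/-!
# Sections of split deviations

A rational class whose deviation under an automorphism is split has a section of the deviation
that is constant on each branch at the level of the deviation, and equal scales modulo `p`
(`IsSplit.exists_deviation_data`).
-/

set_option autoImplicit false

noncomputable section

open AlgebraicCurve FLTAgent.FFRiemannRoch FLTAgent.FFBasic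

namespace FLTAgent.Semistable

variable {L k : Type*} [Field L] [Field k] {A : ValuationSubring L} {π : A →+* k}
variable {F Fb : Type*} [Field F] [Field Fb] [Algebra L F] [Algebra k Fb]

/-- The ratio `u / w` when `c • w` is a deformation of `c • u`. -/
theorem Branch.quot_deviation (B : Branch A π F Fb) (hπ : Function.Surjective π) {u w q : F}
    {c : L} {tt : A} {a : k} (htt : (tt : L) ≠ 0) (htt0 : π tt = 0) (hw : w ≠ 0)
    (hu : B.Mem c u) (hur : B.red c u ≠ 0) (hq : B.Mem 1 q) (hqr : B.red 1 q = a • B.red c u)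
    (he : c • w = c • u + algebraMap L F (tt : L) * q) :
    B.Mem (tt : L)⁻¹ (u / w - 1) ∧ B.red (tt : L)⁻¹ (u / w - 1) = (-a) • (1 : Fb) ∧
      B.Mem 1 (u / w) ∧ B.red 1 (u / w) = 1 := by
  have hu1 : B.Mem 1 (c • u) := B.mem_smul_one_iff.mpr hu
  have he' : c • w = c • u + (tt : L) • q := by rw [Algebra.smul_def (tt : L) q]; exact he
  have hS : B.Mem 1 (c • w) := by
    rw [he']; exact Branch.Mem.add B hu1 (Branch.Mem.smul B hq tt)
  have hSr : B.red 1 (c • w) = B.red c u := by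
    rw [he', B.red_add hu1 (Branch.Mem.smul B hq tt), B.red_smul hq, htt0, zero_smul, add_zero,
      B.red_one_smul hu]
  have e : (tt : L)⁻¹ • (u / w - 1) * c • w = -q := by
    rw [smul_mul_assoc, sub_mul, one_mul, mul_smul_comm, div_mul_cancel₀ _ hw, he',
      sub_add_cancel_left, smul_neg, inv_smul_smul₀ htt]
  have hP : B.Mem 1 ((tt : L)⁻¹ • (u / w - 1)) :=
    B.mem_of_mul_mem hπ hS (by rw [hSr]; exact hur)
      (by rw [mul_one, e]; exact Branch.Mem.neg B hq)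
  have hPr : B.red 1 ((tt : L)⁻¹ • (u / w - 1)) = (-a) • (1 : Fb) := by
    have := B.red_mul hP hS
    rw [mul_one, e, B.red_neg hq, hqr, hSr] at this
    refine mul_right_cancel₀ hur (this.symm.trans ?_)
    rw [smul_mul_assoc, one_mul, neg_smul]
  have hm := B.mem_smul_one_iff.mp hP
  rw [B.red_one_smul hm] at hPr
  exact ⟨hm, hPr, B.mem_and_red_eq_one hπ htt (valuation_lt_one_of_π_eq_zero htt0) hm⟩

/-- The first order terms of a product congruent to one. -/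
theorem Branch.slope_relation (B : Branch A π F Fb) (hπ : Function.Surjective π) {p : ℕ}
    [CharP k p] {tt e : A} {c : k} {x y : F} (htt : (tt : L) ≠ 0) (htt0 : π tt = 0)
    (he : π e = 1) (hx : B.Mem (tt : L)⁻¹ (x - 1)) (hy : B.Mem (tt : L)⁻¹ (y - 1))
    (hyr : B.red (tt : L)⁻¹ (y - 1) = c • (1 : Fb))
    (hG : B.Mem (tt : L)⁻¹ ((e : L) • (x ^ p * y) - 1))
    (hG0 : B.red (tt : L)⁻¹ ((e : L) • (x ^ p * y) - 1) = 0) :
    ∃ h : ((e : L) - 1) / tt ∈ A, c + π ⟨_, h⟩ = 0 := by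
  have htt1 := valuation_lt_one_of_π_eq_zero htt0
  have := charP_of_injective_algebraMap (algebraMap k Fb).injective p
  obtain ⟨hp, hpr⟩ := B.red_inv_pow_sub_one hπ htt htt1 hx p
  rw [CharP.cast_eq_zero, zero_mul] at hpr
  obtain ⟨hy1, hy1r⟩ := B.mem_and_red_eq_one hπ htt htt1 hy
  have hQ := B.mem_inv_mul_sub_one hy1 hp hy
  have hQr : B.red (tt : L)⁻¹ (x ^ p * y - 1) = c • (1 : Fb) := by
    rw [B.red_inv_mul_sub_one hy1 hy1r hp hy, hpr, hyr, zero_add]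
  have key : ((e : L) - 1) • (1 : F) =
      ((e : L) • (x ^ p * y) - 1) - (e : L) • (x ^ p * y - 1) := by
    rw [smul_sub, sub_smul, one_smul]; ring
  have hE : B.Mem (tt : L)⁻¹ (((e : L) - 1) • (1 : F)) := by
    rw [key]; exact Branch.Mem.sub B hG (Branch.Mem.smul B hQ e)
  have hE' : (tt : L)⁻¹ • ((e : L) - 1) • (1 : F) =
      algebraMap L F (((e : L) - 1) / tt) := by
    rw [smul_smul, Algebra.smul_def, mul_one, div_eq_inv_mul]
  have hEO : algebraMap L F (((e : L) - 1) / tt) ∈ B.O := hE' ▸ hE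
  refine ⟨B.mem_of_algebraMap_mem hπ hEO, (algebraMap k Fb).injective ?_⟩
  set b : A := ⟨((e : L) - 1) / tt, B.mem_of_algebraMap_mem hπ hEO⟩ with hb
  have h1 : B.red (tt : L)⁻¹ (((e : L) - 1) • (1 : F)) = algebraMap k Fb (π b) := by
    rw [← B.red_one_smul hE, hE', show ((e : L) - 1) / tt = (b : L) from rfl, B.red_algebraMap]
  have h2 : B.red (tt : L)⁻¹ (((e : L) - 1) • (1 : F)) = -(c • (1 : Fb)) := by
    rw [key, B.red_sub hG (Branch.Mem.smul B hQ e), hG0, B.red_smul hQ, hQr, he, one_smul,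
      zero_sub]
  rw [h1] at h2
  rw [map_add, map_zero, h2, Algebra.smul_def, mul_one, add_neg_cancel]

/-- A `p`-th root of the ratio of two functions near one reduces to one. -/
theorem Branch.exists_ratio (B : Branch A π F Fb) (hπ : Function.Surjective π) {p : ℕ}
    [CharP k p] (hp : p.Prime) {b c g : L} {f₀ H ff : F} (hb : b ≠ 0) (hb1 : A.valuation b < 1)
    (hg : g ^ p * c = 1) (hnear : B.Mem b⁻¹ (c • ff - 1)) (hff : ff = f₀ * H ^ p)
    (hf₀m : B.Mem 1 f₀) (hf₀r : B.red 1 f₀ = 1) :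
    ∃ K : F, (∀ u : F, u * H = g • u * K) ∧ B.Mem 1 K ∧ B.red 1 K = 1 ∧
      K ^ p * f₀ = c • ff := by
  have hg0 : g ≠ 0 := fun h => by simp [h, hp.ne_zero] at hg
  have e : (g⁻¹ • H) ^ p * f₀ = c • ff := by
    rw [smul_pow, inv_pow, inv_eq_of_mul_eq_one_right hg, hff, smul_mul_assoc, mul_comm]
  have hc := B.mem_and_red_eq_one hπ hb hb1 hnear
  have hm : B.Mem 1 ((g⁻¹ • H) ^ p) :=
    B.mem_of_mul_mem hπ hf₀m (by rw [hf₀r]; exact one_ne_zero)
      (by rw [mul_one, e]; exact hc.1)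
  have hr : B.red 1 ((g⁻¹ • H) ^ p) = 1 := by
    have := B.red_mul hm hf₀m
    rwa [mul_one, e, hc.2, hf₀r, mul_one, eq_comm] at this
  obtain ⟨h1, h2⟩ := B.red_eq_one_of_pow hp hm hr
  exact ⟨_, fun u => by rw [smul_mul_smul_comm, mul_inv_cancel₀ hg0, one_smul], h1, h2, e⟩

/-- A product of a function near one and one reducing to one reduces to one. -/
theorem Branch.mem_and_red_mul_ratio (B : Branch A π F Fb) (hπ : Function.Surjective π)
    {lam g : L} {u H K : F} (hlam : lam ≠ 0) (hlam1 : A.valuation lam < 1)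
    (hu : B.Mem lam⁻¹ (g • u - 1)) (hK : u * H = g • u * K) (hKm : B.Mem 1 K)
    (hKr : B.red 1 K = 1) : B.Mem 1 (u * H) ∧ B.red 1 (u * H) = 1 := by
  obtain ⟨hu', hur⟩ := B.mem_and_red_eq_one hπ hlam hlam1 hu
  refine ⟨by rw [hK]; simpa using Branch.Mem.mul B hu' hKm, ?_⟩
  have h1 := B.red_mul hu' hKm
  rwa [mul_one, ← hK, hur, hKr, mul_one] at h1

/-- Two approximations, multiplied by a common ratio, stay congruent after twisting by `w`. -/
theorem Branch.mem_inv_ratio_sub (B : Branch A π F Fb) {lam g : L} {u v w H K : F}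
    (hu : B.Mem lam⁻¹ (g • u - 1)) (hv : B.Mem lam⁻¹ (g • v - w)) (hw : B.Mem 1 w)
    (hKu : u * H = g • u * K) (hKv : v * H = g • v * K) (hKm : B.Mem 1 K) :
    B.Mem lam⁻¹ (v * H - u * H * w) := by
  rw [show v * H - u * H * w = ((g • v - w) - (g • u - 1) * w) * K by rw [hKv, hKu]; ring]
  have h1 := Branch.Mem.mul B hu hw
  rw [mul_one] at h1
  have h2 := Branch.Mem.mul B (Branch.Mem.sub B hv h1) hKm
  rwa [mul_one] at h2

/-- The slope of a quotient of the data, from a section congruent to a constant. -/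
theorem Branch.slope_of_ratio (B : Branch A π F Fb) (hπ : Function.Surjective π) {p : ℕ}
    [CharP k p] {tt d : A} {lam b g cT : L} {c : k} {u K z f ff : F} (htt : (tt : L) ≠ 0)
    (htt0 : π tt = 0) (hlam : lam ≠ 0) (hlt : A.valuation lam < A.valuation (tt : L))
    (hd : π d = 1) (hb : b ≠ 0) (hbl : A.valuation b ≤ A.valuation lam)
    (hu : B.Mem lam⁻¹ (g • u - 1)) (hz : z = g • u * K) (hK : K ^ p * f = cT • ff)
    (hnear : B.Mem b⁻¹ (cT • ff - 1)) (hzt : B.Mem (tt : L)⁻¹ (z - (d : L) • (1 : F)))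
    (hf : B.Mem (tt : L)⁻¹ (f - 1)) (hfr : B.red (tt : L)⁻¹ (f - 1) = c • (1 : Fb)) :
    ∃ h : (((d ^ p : A) : L) - 1) / tt ∈ A, c + π ⟨_, h⟩ = 0 := by
  have hlam1 := hlt.trans (valuation_lt_one_of_π_eq_zero htt0)
  have hdu : (d : L) ≠ 0 := fun h => by
    rw [show d = 0 from Subtype.ext h, map_zero] at hd
    exact zero_ne_one hd
  have hdi : (d : L)⁻¹ ∈ A := by
    refine (A.valuation_le_one_iff _).mp ?_
    rw [map_inv₀]
    refine (inv_le_one₀ (valuation_pos hdu)).mpr ?_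
    by_contra hlt'
    exact one_ne_zero (α := k) (hd.symm.trans (π_eq_zero_of_lt_one hπ (not_le.mp hlt')))
  set x := (d : L)⁻¹ • z with hx
  have hxe : x - 1 = ((⟨_, hdi⟩ : A) : L) • (z - (d : L) • (1 : F)) := by
    rw [hx, smul_sub]
    show _ = _ - (d : L)⁻¹ • (d : L) • (1 : F)
    rw [inv_smul_smul₀ hdu]
  have hG : ((d ^ p : A) : L) • (x ^ p * f) = z ^ p * f := by
    show ((d : L) ^ p) • _ = _
    rw [hx, smul_pow, smul_mul_assoc, inv_pow, smul_inv_smul₀ (pow_ne_zero p hdu)]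
  have hbl' := B.mem_inv_mono hb hbl hnear
  have hG₁ : B.Mem lam⁻¹ (z ^ p * f - 1) := by
    rw [hz, mul_pow, mul_assoc, hK]
    exact B.mem_inv_mul_sub_one (B.mem_and_red_eq_one hπ hlam hlam1 hbl').1
      (B.red_inv_pow_sub_one hπ hlam hlam1 hu p).1 hbl'
  exact B.slope_relation hπ htt htt0 (by rw [map_pow, hd, one_pow]) (x := x)
    (by rw [hxe]; exact Branch.Mem.smul B hzt _) hf hfr
    (by rw [hG]; exact B.mem_inv_mono hlam hlt.le hG₁)
    (by rw [hG]; exact B.red_inv_eq_zero hπ hlam hlt hG₁)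

/-- A function congruent to a constant is that constant plus an error reducing to zero. -/
theorem Branch.exists_const_add (B : Branch A π F Fb) {tt d a : A} {z : F} (htt : (tt : L) ≠ 0)
    (hzt : B.Mem (tt : L)⁻¹ (z - (d : L) • (1 : F)))
    (hr : B.red (tt : L)⁻¹ (z - (d : L) • (1 : F)) = π a • (1 : Fb)) :
    ∃ r, B.Mem 1 r ∧ B.red 1 r = 0 ∧
      z = algebraMap L F ((d + tt * a : A) : L) + algebraMap L F (tt : L) * r := by
  refine ⟨(tt : L)⁻¹ • (z - (d : L) • (1 : F)) - algebraMap L F (a : L),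
    Branch.Mem.sub B (B.mem_smul_one_iff.mpr hzt) (B.mem_algebraMap a), ?_, ?_⟩
  · rw [B.red_sub (B.mem_smul_one_iff.mpr hzt) (B.mem_algebraMap a), B.red_one_smul hzt, hr,
      B.red_algebraMap, Algebra.algebraMap_eq_smul_one, sub_self]
  · rw [show ((d + tt * a : A) : L) = (d : L) + (tt : L) * (a : L) from rfl, map_add,
      map_mul, mul_sub, ← Algebra.smul_def (tt : L) ((tt : L)⁻¹ • (z - (d : L) • (1 : F))),
      smul_inv_smul₀ htt, Algebra.algebraMap_eq_smul_one (d : L)]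
    ring

/-- A function with poles bounded by `N • E`, also after multiplying by `J ^ N`, is constant. -/
theorem exists_const_of_mem_ball {G : Type*} [Field G] [Algebra k G] [IsAlgClosed k]
    [IsFunctionField k G] {J : G} {E : Divisor k G} (hJ : IsPolarDivisor J E) {N : ℕ} (hN : 0 < N)
    {x : G} (hx : ∀ v, x ∈ ball v ((N : ℤ) * E v))
    (hxJ : ∀ v, x * J ^ N ∈ ball v ((N : ℤ) * E v)) : ∃ c : k, algebraMap k G c = x := by
  refine Deuring.exists_const_of_forall_ord_nonneg fun v => ?_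
  rcases eq_or_ne x 0 with h0 | h0
  · rw [h0, Place.ord_zero]
  rcases (hJ.1 v).eq_or_lt with hE | hE
  · have := ((mem_ball_iff_ord v).mp (hx v)).resolve_left h0
    rw [show E v = 0 from hE.symm, mul_zero] at this
    omega
  · have hord : v.ord (J ^ N) = -((N : ℤ) * E v) := hJ.ord_pow hE N
    have hJ0 : J ^ N ≠ 0 := fun hz => by
      rw [hz, Place.ord_zero] at hord
      have : (1 : ℤ) ≤ N := by exact_mod_cast hN
      rw [Finsupp.zero_apply] at hE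
      nlinarith
    have h' := ((mem_ball_iff_ord v).mp (hxJ v)).resolve_left (mul_ne_zero h0 hJ0)
    rw [v.ord_mul h0 hJ0, hord] at h'
    linarith

variable {F₁ F₂ : Type*} [Field F₁] [Field F₂] [Algebra k F₁] [Algebra k F₂] {ι : Type*}
  [Fintype ι]

namespace PairReduction

variable {C : PairReduction A π F F₁ F₂ ι}

/-- The span of `1` and a nonconstant `z` has a section with nonconstant reduction. -/
theorem exists_red_notMem_span [IsAlgClosed L] [IsFunctionField L F] {z : F}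
    (hzc : z ∉ Submodule.span L {(1 : F)}) :
    ∃ a l : L, C.Mem (1, 1) (a • (1 : F) + l • z) ∧
      C.red (1, 1) (a • (1 : F) + l • z) ∉ Submodule.span k {((1, 1) : F₁ × F₂)} := by
  set V : Submodule L F := Submodule.span L {1, z}
  have hfin : FiniteDimensional L V := FiniteDimensional.span_of_finite L (Set.toFinite _)
  obtain ⟨x, hxV, hxm, hxr⟩ : ∃ x ∈ V, C.Mem (1, 1) x ∧
      C.red (1, 1) x ∉ Submodule.span k {((1, 1) : F₁ × F₂)} := by
    by_contra! hall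
    have hle : C.resSub (1, 1) V ≤ Submodule.span k {((1, 1) : F₁ × F₂)} := by
      rintro _ ⟨x, hx, hxm, rfl⟩
      exact hall x hx hxm
    have h1 := Submodule.finrank_mono hle
    rw [C.finrank_resSub one_ne_zero one_ne_zero,
      finrank_span_singleton (fun h => one_ne_zero (α := F₁) (congrArg Prod.fst h))] at h1
    have h2 : Submodule.span L {(1 : F)} < V := by
      refine lt_of_le_of_ne (Submodule.span_mono (by simp)) fun h => hzc ?_
      rw [h]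
      exact Submodule.subset_span (by simp)
    have h3 := Submodule.finrank_lt_finrank_of_lt h2
    rw [finrank_span_singleton one_ne_zero] at h3
    omega
  obtain ⟨a, l, rfl⟩ := Submodule.mem_span_pair.mp hxV
  exact ⟨a, l, hxm, hxr⟩

/-- The coefficient of `z` in such a section is not integral. -/
theorem one_lt_valuation_of_red_notMem {z : F} (hzm : C.Mem (1, 1) z)
    (hz1 : C.red (1, 1) z = (1, 1)) {a l : L} (hxm : C.Mem (1, 1) (a • (1 : F) + l • z))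
    (hxr : C.red (1, 1) (a • (1 : F) + l • z) ∉ Submodule.span k {((1, 1) : F₁ × F₂)}) :
    1 < A.valuation l := by
  by_contra h
  push Not at h
  set la : A := ⟨l, (A.valuation_le_one_iff l).mp h⟩
  have hlz : C.Mem (1, 1) (l • z) := hzm.smul la
  have ham : C.Mem (1, 1) (a • (1 : F)) := by
    have := hxm.sub hlz
    rwa [add_sub_cancel_right] at this
  have haA : a ∈ A := C.b₁.mem_of_algebraMap_mem C.π_surj (by
    have := C.b₁.mem_one_iff.mp ham.1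
    rwa [← Algebra.algebraMap_eq_smul_one] at this)
  refine hxr ?_
  rw [red_add ham hlz, show a • (1 : F) = ((⟨a, haA⟩ : A) : L) • (1 : F) from rfl,
    red_smul mem_one_pair, show l • z = ((la : A) : L) • z from rfl, red_smul hzm, hz1,
    show C.red (1, 1) (1 : F) = (1, 1) from Prod.ext C.b₁.red_one_one C.b₂.red_one_one]
  exact add_mem (Submodule.smul_mem _ _ (Submodule.mem_span_singleton_self _))
    (Submodule.smul_mem _ _ (Submodule.mem_span_singleton_self _))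

/-- The best approximation by a common constant, down to a given level. -/
theorem exists_best_const [IsAlgClosed L] [IsFunctionField L F] {z : F} (hzm : C.Mem (1, 1) z)
    (hz1 : C.red (1, 1) z = (1, 1)) {t : L} (ht0 : t ≠ 0) (ht1 : A.valuation t < 1) :
    ∃ (δ : L) (d : A), δ ≠ 0 ∧ A.valuation t ≤ A.valuation δ ∧ A.valuation δ < 1 ∧ π d = 1 ∧
      C.Mem (δ⁻¹, δ⁻¹) (z - (d : L) • (1 : F)) ∧
      (A.valuation t < A.valuation δ → ∀ c : k,
        C.red (δ⁻¹, δ⁻¹) (z - (d : L) • (1 : F)) ≠ (c • (1 : F₁), c • (1 : F₂))) := by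
  classical
  have hz₁ : C.b₁.red 1 z = 1 := congrArg Prod.fst hz1
  have hd1 : ∀ {δ : L} {d : A}, δ ≠ 0 → A.valuation δ < 1 →
      C.Mem (δ⁻¹, δ⁻¹) (z - (d : L) • (1 : F)) → π d = 1 := by
    intro δ d hδ hδ1 hm
    have h0 := C.b₁.red_one_eq_zero_of_mem_inv C.π_surj hδ hδ1 hm.1
    rw [C.b₁.red_sub hzm.1 (Branch.Mem.smul _ C.b₁.mem_one d), hz₁, C.b₁.red_smul C.b₁.mem_one,
      C.b₁.red_one_one, sub_eq_zero, Algebra.smul_def, mul_one, eq_comm,
      ← map_one (algebraMap k F₁)] at h0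
    exact (algebraMap k F₁).injective h0
  by_cases hzc : z ∈ Submodule.span L {(1 : F)}
  · obtain ⟨c, hc⟩ := Submodule.mem_span_singleton.mp hzc
    have hcA : c ∈ A := C.b₁.mem_of_algebraMap_mem C.π_surj (by
      have := C.b₁.mem_one_iff.mp hzm.1
      rwa [← hc, ← Algebra.algebraMap_eq_smul_one] at this)
    have hm : C.Mem (t⁻¹, t⁻¹) (z - ((⟨c, hcA⟩ : A) : L) • (1 : F)) := by
      rw [show z - ((⟨c, hcA⟩ : A) : L) • (1 : F) = 0 by rw [← hc, sub_self]]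
      exact C.mem_zero _
    exact ⟨t, ⟨c, hcA⟩, ht0, le_rfl, ht1, hd1 ht0 ht1 hm, hm, fun h => absurd h (lt_irrefl _)⟩
  obtain ⟨a, l, hxm, hxr⟩ := exists_red_notMem_span (C := C) hzc
  have hl := one_lt_valuation_of_red_notMem hzm hz1 hxm hxr
  have hl0 : l ≠ 0 := fun h => by simp [h] at hl
  set β := l⁻¹ with hβ
  have hβ0 : β ≠ 0 := inv_ne_zero hl0
  have hβ1 : A.valuation β < 1 := by rw [hβ, map_inv₀]; exact inv_lt_one_of_one_lt₀ hl
  have heq : z - (-(β * a)) • (1 : F) = β • (a • (1 : F) + l • z) := by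
    rw [smul_add, smul_smul, smul_smul, hβ, inv_mul_cancel₀ hl0, one_smul, neg_smul,
      sub_neg_eq_add, add_comm]
  have hβA : β ∈ A := (A.valuation_le_one_iff β).mp hβ1.le
  have hdA : -(β * a) ∈ A := C.b₁.mem_of_algebraMap_mem C.π_surj (by
    have h1 : C.b₁.Mem 1 (β • (a • (1 : F) + l • z)) := Branch.Mem.smul C.b₁ hxm.1 ⟨β, hβA⟩
    rw [← heq] at h1
    have := C.b₁.mem_one_iff.mp (Branch.Mem.sub C.b₁ hzm.1 h1)
    rwa [sub_sub_cancel, ← Algebra.algebraMap_eq_smul_one] at this)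
  have hmem : C.Mem (β⁻¹, β⁻¹) (z - ((⟨_, hdA⟩ : A) : L) • (1 : F)) := by
    show C.Mem (β⁻¹, β⁻¹) (z - (-(β * a)) • (1 : F))
    rw [heq]
    refine ⟨?_, ?_⟩
    · rw [C.b₁.mem_smul_iff, inv_mul_cancel₀ hβ0]; exact hxm.1
    · rw [C.b₂.mem_smul_iff, inv_mul_cancel₀ hβ0]; exact hxm.2
  by_cases hle : A.valuation β ≤ A.valuation t
  · have hmem' : C.Mem (t⁻¹, t⁻¹) (z - ((⟨_, hdA⟩ : A) : L) • (1 : F)) :=
      ⟨C.b₁.mem_inv_mono hβ0 hle hmem.1, C.b₂.mem_inv_mono hβ0 hle hmem.2⟩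
    exact ⟨t, ⟨_, hdA⟩, ht0, le_rfl, ht1, hd1 ht0 ht1 hmem', hmem',
      fun h => absurd h (lt_irrefl _)⟩
  refine ⟨β, ⟨_, hdA⟩, hβ0, (not_le.mp hle).le, hβ1, hd1 hβ0 hβ1 hmem, hmem,
    fun _ c hc => hxr ?_⟩
  have e : C.red (β⁻¹, β⁻¹) (z - ((⟨_, hdA⟩ : A) : L) • (1 : F)) =
      C.red (1, 1) (a • (1 : F) + l • z) := by
    show C.red (β⁻¹, β⁻¹) (z - (-(β * a)) • (1 : F)) = _
    rw [heq]
    refine Prod.ext ?_ ?_
    · show C.b₁.red β⁻¹ _ = _
      rw [C.b₁.red_smul_eq (by rw [inv_mul_cancel₀ hβ0]; exact hxm.1), inv_mul_cancel₀ hβ0]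
      rfl
    · show C.b₂.red β⁻¹ _ = _
      rw [C.b₂.red_smul_eq (by rw [inv_mul_cancel₀ hβ0]; exact hxm.2), inv_mul_cancel₀ hβ0]
      rfl
  rw [← e, hc]
  exact Submodule.mem_span_singleton.mpr ⟨c, rfl⟩

variable [IsAlgClosed k] [IsFunctionField k F₁] [IsFunctionField k F₂]
  [IsAlgClosed L] [IsFunctionField L F] {p : ℕ} [CharP k p]
variable {Φ : Morph C C} {R : RatForm C}

section Pieces

omit [IsAlgClosed k] [IsFunctionField k F₁] [IsFunctionField k F₂] [IsAlgClosed L]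
  [IsFunctionField L F] [CharP k p] in
/-- The quotient of a function of the rational form by its image under the deviation. -/
theorem quot_moved (Δ : Deviation Φ R) (B : Branch A π F Fb) {f : F} (hσ : Φ.g • f ≠ 0)
    {z : ℤ} (hm : B.Mem (R.ϖ ^ z) f) (hr : B.red (R.ϖ ^ z) f ≠ 0)
    (hdev : ∃ r, B.Mem 1 r ∧ B.red 1 r = 0 ∧
      Φ.g • (R.ϖ ^ z • f) - R.ϖ ^ z • f = algebraMap L F (Δ.tt : L) * r) :
    B.Mem (Δ.tt : L)⁻¹ (f / Φ.g • f - 1) ∧
      B.red (Δ.tt : L)⁻¹ (f / Φ.g • f - 1) = ((z : k) * π Δ.η) • (1 : Fb) ∧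
      B.Mem 1 (f / Φ.g • f) ∧ B.red 1 (f / Φ.g • f) = 1 := by
  obtain ⟨q, hq, hqr, he⟩ := deviation_scaled Δ B hm hr hdev hm
  rw [B.red_one_smul hm] at hqr
  have h := B.quot_deviation C.π_surj (fun h => Δ.tt_ne (Subtype.ext h)) Δ.π_tt hσ hm hr hq hqr he
  rw [neg_mul, neg_neg] at h
  exact h

/-- The torsion data of `cls - g • cls`, when the quotient of the functions reduces to one. -/
def TorsionData.movedData (T : C.TorsionData p)
    (h₁ : C.b₁.Mem 1 (T.f / Φ.g • T.f) ∧ C.b₁.red 1 (T.f / Φ.g • T.f) = 1)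
    (h₂ : C.b₂.Mem 1 (T.f / Φ.g • T.f) ∧ C.b₂.red 1 (T.f / Φ.g • T.f) = 1) :
    C.TorsionData p where
  D := T.D - Φ.g • T.D
  degree_eq := by rw [map_sub, SemilinearAut.degree_smul, T.degree_eq, sub_zero]
  f := T.f / Φ.g • T.f
  f_ne := div_ne_zero T.f_ne (Φ.smul_ne T.f_ne)
  div_eq := fun v => by
    rw [Finsupp.sub_apply, mul_sub, T.div_eq, Φ.div_map T.div_eq, div_eq_mul_inv,
      v.ord_mul T.f_ne (inv_ne_zero (Φ.smul_ne T.f_ne)), v.ord_inv]
    ring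
  c := (1, 1)
  mem := ⟨h₁.1, h₂.1⟩
  ne₁ := by show C.b₁.red 1 _ ≠ 0; rw [h₁.2]; exact one_ne_zero
  ne₂ := by show C.b₂.red 1 _ ≠ 0; rw [h₂.2]; exact one_ne_zero

omit [IsAlgClosed k] [IsFunctionField k F₁] [IsFunctionField k F₂] [IsAlgClosed L]
  [IsFunctionField L F] in
/-- Multiplication by a function linking two divisors carries the one space into the other. -/
theorem mul_smul_mem_riemannRochSpace {D D₀ : Divisor L F} {h0 : F}
    (hdiv : ∀ v : Place L F, D v - D₀ v = v.ord h0) (μ : L) {N : ℕ} {u : F}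
    (hu : u ∈ riemannRochSpace (D + N • C.E)) :
    u * μ • h0 ∈ riemannRochSpace (D₀ + N • C.E) := by
  intro v
  have h1 : μ • h0 ∈ ball v (-v.ord h0) :=
    Submodule.smul_mem _ μ ((mem_ball_iff_ord v).mpr (Or.inr (by omega)))
  have h2 := mul_mem_ball v (hu v) h1
  rwa [show (D + N • C.E : Divisor L F) v + -v.ord h0 = (D₀ + N • C.E : Divisor L F) v by
    simp only [Finsupp.add_apply]
    have := hdiv v
    linarith] at h2

omit [IsAlgClosed k] [IsFunctionField k F₁] [IsFunctionField k F₂] [IsAlgClosed L]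
  [IsFunctionField L F] [CharP k p] in
/-- A congruent multiple by a power of `J` deviates by the same reduction times that power. -/
theorem red_sub_smul_J_pow {lam δ : L} {d : A} {z zJ : F} {N : ℕ} (hlam : lam ≠ 0)
    (hlδ : A.valuation lam < A.valuation δ) (hzJ : C.Mem (lam⁻¹, lam⁻¹) (zJ - z * C.J ^ N))
    (hzd : C.Mem (δ⁻¹, δ⁻¹) (z - (d : L) • (1 : F))) :
    C.Mem (δ⁻¹, δ⁻¹) (zJ - (d : L) • C.J ^ N) ∧
      C.red (δ⁻¹, δ⁻¹) (zJ - (d : L) • C.J ^ N) =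
        C.red (δ⁻¹, δ⁻¹) (z - (d : L) • (1 : F)) * C.red (1, 1) (C.J ^ N) := by
  have e : zJ - (d : L) • C.J ^ N = (zJ - z * C.J ^ N) + (z - (d : L) • (1 : F)) * C.J ^ N := by
    rw [sub_mul, smul_mul_assoc, one_mul]; ring
  have m2 : C.Mem ((δ⁻¹, δ⁻¹) * (1, 1)) ((z - (d : L) • (1 : F)) * C.J ^ N) :=
    hzd.mul (C.J_pow_mem N)
  have r2 := red_mul hzd (C.J_pow_mem N)
  rw [Prod.mk_mul_mk, mul_one] at m2 r2
  have m1 : C.Mem (δ⁻¹, δ⁻¹) (zJ - z * C.J ^ N) :=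
    ⟨C.b₁.mem_inv_mono hlam hlδ.le hzJ.1, C.b₂.mem_inv_mono hlam hlδ.le hzJ.2⟩
  have r1 : C.red (δ⁻¹, δ⁻¹) (zJ - z * C.J ^ N) = 0 :=
    Prod.ext (C.b₁.red_inv_eq_zero C.π_surj hlam hlδ hzJ.1)
      (C.b₂.red_inv_eq_zero C.π_surj hlam hlδ hzJ.2)
  rw [e]
  exact ⟨m1.add m2, by rw [red_add m1 m2, r1, zero_add, r2]⟩

omit [CharP k p] [IsAlgClosed L] in
/-- The reductions of the deviation from the best constant are constants. -/
theorem exists_red_eq_const [Nonempty ι] (hp : p.Prime) (U : NodeUnit C) (Δ : Deviation Φ R)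
    (harch : Arch π) (T : C.TorsionData p)
    (hspan : ∀ n : ℕ, riemannRochSpace (T.D + n • C.E) ≤
      Submodule.span L ((R.S : Set F) ∩ riemannRochSpace (T.D + n • C.E)))
    {g : L × L} (hg₁ : g.1 ≠ 0) (hg₂ : g.2 ≠ 0) {M₀ : ℕ} {y : F}
    (hyV : y ∈ riemannRochSpace (T.D + M₀ • C.E)) (hyg : C.Mem g y)
    (h₁ : (C.red g y).1 ≠ 0) (h₂ : (C.red g y).2 ≠ 0) {N : ℕ} (hN : 0 < N) {lam δ : L} {d : A}
    {z zJ : F} (hz : z ∈ riemannRochSpace (T.D - Φ.g • T.D + N • C.E))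
    (hzJV : zJ ∈ riemannRochSpace (T.D - Φ.g • T.D + N • C.E)) (hlam : lam ≠ 0)
    (hlδ : A.valuation lam < A.valuation δ) (hzJ : C.Mem (lam⁻¹, lam⁻¹) (zJ - z * C.J ^ N))
    (hδ : δ ≠ 0) (htt : A.valuation (Δ.tt : L) ≤ A.valuation δ) (hδ1 : A.valuation δ < 1)
    (hd : π d = 1) (hzd : C.Mem (δ⁻¹, δ⁻¹) (z - (d : L) • (1 : F))) :
    ∃ c₁ c₂ : k, C.red (δ⁻¹, δ⁻¹) (z - (d : L) • (1 : F)) = (c₁ • (1 : F₁), c₂ • (1 : F₂)) := by
  have hone : (1 : F) ∈ riemannRochSpace (N • C.E) :=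
    riemannRochSpace_mono (nsmul_le_nsmul_divisor C.polar.1 (Nat.zero_le N))
      (pow_zero C.J ▸ C.polar.pow_mem 0)
  obtain ⟨hX₁, hX₂⟩ := T.red_mem_rr U Δ harch hp.pos hspan hg₁ hg₂ hyV hyg h₁ h₂ hz hone
    mem_one_pair hδ htt hδ1 hd hzd
  obtain ⟨hlm, hlr⟩ := red_sub_smul_J_pow hlam hlδ hzJ hzd
  obtain ⟨hY₁, hY₂⟩ := T.red_mem_rr U Δ harch hp.pos hspan hg₁ hg₂ hyV hyg h₁ h₂ hzJV
    (C.polar.pow_mem N) (C.J_pow_mem N) hδ htt hδ1 hd hlm
  rw [hlr] at hY₁ hY₂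
  have hJ₁ : (C.red (1, 1) (C.J ^ N)).1 = C.b₁.red 1 C.J ^ N := by
    rw [red_J_pow N, Prod.pow_fst]; rfl
  have hJ₂ : (C.red (1, 1) (C.J ^ N)).2 = C.b₂.red 1 C.J ^ N := by
    rw [red_J_pow N, Prod.pow_snd]; rfl
  obtain ⟨c₁, hc₁⟩ := exists_const_of_mem_ball (J := C.b₁.red 1 C.J)
    (by rw [C.b₁.red_one C.J_mem₁]; exact C.polar₁) hN hX₁
    fun v => by have h := hY₁ v; rwa [Prod.fst_mul, hJ₁] at h
  obtain ⟨c₂, hc₂⟩ := exists_const_of_mem_ball (J := C.b₂.red 1 C.J)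
    (by rw [C.b₂.red_one C.J_mem₂]; exact C.polar₂) hN hX₂
    fun v => by have h := hY₂ v; rwa [Prod.snd_mul, hJ₂] at h
  exact ⟨c₁, c₂, Prod.ext (by rw [← hc₁, Algebra.algebraMap_eq_smul_one])
    (by rw [← hc₂, Algebra.algebraMap_eq_smul_one])⟩

omit [CharP k p] [IsAlgClosed L] [IsFunctionField L F] in
/-- A best constant sits at the level of the deviation. -/
theorem valuation_le_tt_of_best (hp : p.Prime) (U : NodeUnit C) (Δ : Deviation Φ R)
    (T : C.TorsionData p) {W : ℕ} (hW : 0 < W) {j : ℤ} {g : L × L} (hg₁ : g.1 ≠ 0)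
    (hg₂ : g.2 ≠ 0) (hbal : T.Balanced U g W j) {M₀ : ℕ} {y : F} (hyS : y ∈ R.S)
    (hyV : y ∈ riemannRochSpace (T.D + M₀ • C.E)) (hyg : C.Mem g y) {s : ι}
    (hy₂ : (C.red g y).2 ≠ 0)
    (hys : ((W * p : ℕ) : ℤ) * (C.node₂ s).ord (C.red g y).2 = T.low₂ U W j s)
    {N : ℕ} {z : F} (hz : z ∈ riemannRochSpace (T.D - Φ.g • T.D + N • C.E))
    (hone : (1 : F) ∈ riemannRochSpace (N • C.E)) {δ : L} {d : A} (hδ : δ ≠ 0)
    (htt : A.valuation (Δ.tt : L) ≤ A.valuation δ) (hδ1 : A.valuation δ < 1) (hd : π d = 1)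
    (hzd : C.Mem (δ⁻¹, δ⁻¹) (z - (d : L) • (1 : F))) {c₁ c₂ : k}
    (hX : C.red (δ⁻¹, δ⁻¹) (z - (d : L) • (1 : F)) = (c₁ • (1 : F₁), c₂ • (1 : F₂)))
    (hbest : A.valuation (Δ.tt : L) < A.valuation δ → ∀ c : k,
      C.red (δ⁻¹, δ⁻¹) (z - (d : L) • (1 : F)) ≠ (c • (1 : F₁), c • (1 : F₂))) :
    A.valuation δ ≤ A.valuation (Δ.tt : L) := by
  by_contra hcon
  have hgt := not_le.mp hcon
  obtain ⟨v, q₁, q₂, hvV, hvg, hq0, hvr⟩ :=
    T.exists_step Δ hz hone mem_one_pair hδ htt hδ1 hd hzd hyS hyV hyg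
  obtain ⟨rfl, rfl⟩ := hq0 hgt
  rw [zero_smul, zero_smul, Prod.mk_zero_zero, add_zero, hX] at hvr
  obtain ⟨a, ha⟩ := C.π_surj c₁
  have hvm : C.Mem g (v - (a : L) • y) := hvg.sub (hyg.smul a)
  have hr' : C.red g (v - (a : L) • y) = (0, (c₂ - c₁) • (C.red g y).2) := by
    rw [red_sub hvg (hyg.smul a), red_smul hyg, hvr, ha]
    refine Prod.ext ?_ ?_
    · simp [sub_self]
    · simp [sub_smul]
  have hyM : y ∈ riemannRochSpace (T.D + (M₀ + N) • C.E) :=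
    riemannRochSpace_mono (add_le_add le_rfl
      (nsmul_le_nsmul_divisor C.polar.1 (Nat.le_add_right _ _))) hyV
  rcases eq_or_ne c₂ c₁ with hcc | hcc
  · exact hbest hgt c₁ (by rw [hX, hcc])
  · have hne : c₂ - c₁ ≠ 0 := sub_ne_zero.mpr hcc
    have hnb := (T.node_bounds U hp.pos hW hg₁ hg₂ hbal
      (Submodule.sub_mem _ hvV (Submodule.smul_mem _ _ hyM)) hvm s).2.2.mpr
    rw [hr'] at hnb
    exact (hnb ⟨smul_ne_zero hne hy₂, by
      rw [FFBasic.ord_smul_const _ hne]; exact hys⟩).1 rfl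

end Pieces

/-- For split deviations: a section of the deviation constant on each branch at the level of the
deviation, and congruent scales. -/
theorem IsSplit.exists_deviation_data [Nonempty ι] (hp : p.Prime) (U : NodeUnit C)
    (Δ : Deviation Φ R) (harch : Arch π) (T : C.TorsionData p) (hf : T.f ∈ R.S)
    (hspan : ∀ n : ℕ, riemannRochSpace (T.D + n • C.E) ≤
      Submodule.span L ((R.S : Set F) ∩ riemannRochSpace (T.D + n • C.E)))
    {lam : L} (hlam : lam ≠ 0) (hlt : A.valuation lam < A.valuation (Δ.tt : L))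
    (hpl : A.valuation (p : L) ≤ A.valuation lam ^ (p - 1))
    (hy : C.IsSplit p (T.cls - Φ.g • T.cls)) :
    (∀ z₁ z₂ : ℤ, C.b₁.Mem (R.ϖ ^ z₁) T.f → C.b₁.red (R.ϖ ^ z₁) T.f ≠ 0 →
      C.b₂.Mem (R.ϖ ^ z₂) T.f → C.b₂.red (R.ϖ ^ z₂) T.f ≠ 0 → (z₁ : k) = (z₂ : k)) ∧
    ∃ (n₀ : ℕ) (w : F) (d₁ d₂ : A), π d₁ ≠ 0 ∧ π d₂ ≠ 0 ∧
      w ∈ riemannRochSpace (T.D - Φ.g • T.D + n₀ • C.E) ∧
      (∃ r, C.b₁.Mem 1 r ∧ C.b₁.red 1 r = 0 ∧
        w = algebraMap L F (d₁ : L) + algebraMap L F (Δ.tt : L) * r) ∧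
      ∃ r, C.b₂.Mem 1 r ∧ C.b₂.red 1 r = 0 ∧
        w = algebraMap L F (d₂ : L) + algebraMap L F (Δ.tt : L) * r := by
  have : NeZero p := ⟨hp.ne_zero⟩
  have htt : (Δ.tt : L) ≠ 0 := fun h => Δ.tt_ne (Subtype.ext h)
  have hlam1 : A.valuation lam < 1 := hlt.trans (valuation_lt_one_of_π_eq_zero Δ.π_tt)
  have hσf : Φ.g • T.f ≠ 0 := Φ.smul_ne T.f_ne
  have hq₁ := fun (z : ℤ) hm hr => quot_moved Δ C.b₁ hσf (z := z) hm hr
    (Δ.dev₁ _ (R.smul_mem _ (zpow_mem R.ϖ_mem z) _ hf) (C.b₁.mem_smul_one_iff.mpr hm))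
  have hq₂ := fun (z : ℤ) hm hr => quot_moved Δ C.b₂ hσf (z := z) hm hr
    (Δ.dev₂ _ (R.smul_mem _ (zpow_mem R.ϖ_mem z) _ hf) (C.b₂.mem_smul_one_iff.mpr hm))
  obtain ⟨a₁, ha₁, ha₁r⟩ := R.exists_norm₁ T.f hf T.f_ne
  obtain ⟨a₂, ha₂, ha₂r⟩ := R.exists_norm₂ T.f hf T.f_ne
  obtain ⟨-, -, hf₁⟩ := hq₁ a₁ ha₁ ha₁r
  obtain ⟨-, -, hf₂⟩ := hq₂ a₂ ha₂ ha₂r
  have hT₀ : (T.movedData hf₁ hf₂).cls = T.cls - Φ.g • T.cls :=
    congrArg Pic0.mk (Subtype.ext rfl)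
  set b := lam ^ (p + 1)
  have hblam : A.valuation b < A.valuation lam ^ p := by
    rw [map_pow, pow_succ]
    exact mul_lt_of_lt_one_right (pow_pos (valuation_pos hlam) p) hlam1
  have hbl : A.valuation b ≤ A.valuation lam :=
    hblam.le.trans (pow_le_of_le_one zero_le hlam1.le hp.ne_zero)
  -- split data and the ratio of its function to that of the moved class
  obtain ⟨D, hD⟩ := hy.exists_splitData hp.pos (pow_ne_zero _ hlam) (hbl.trans_lt hlam1)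
  obtain ⟨a, h0, -, -, hdiv, hfa⟩ := TorsionData.exists_eq_smul (hT₀.trans hD.symm)
  obtain ⟨μ, hμ⟩ := IsAlgClosed.exists_pow_nat_eq a hp.pos
  have hfH : D.T.f = T.f / Φ.g • T.f * (μ • h0) ^ p := by
    rw [hfa, smul_pow, hμ, mul_smul_comm]; rfl
  obtain ⟨K₁, hK₁, hK₁m, hK₁r, hK₁p⟩ :=
    C.b₁.exists_ratio C.π_surj hp D.b_ne D.b_lt D.g_pow₁ D.near₁ hfH hf₁.1 hf₁.2
  obtain ⟨K₂, hK₂, hK₂m, hK₂r, hK₂p⟩ :=
    C.b₂.exists_ratio C.π_surj hp D.b_ne D.b_lt D.g_pow₂ D.near₂ hfH hf₂.1 hf₂.2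
  -- approximations to one and to a power of `J`
  obtain ⟨N, hN⟩ : ∃ N, C.Adequate N := C.exists_adequate.imp fun n hn => hn n le_rfl
  have hone : (1 : F) ∈ riemannRochSpace (N • C.E) :=
    riemannRochSpace_mono (nsmul_le_nsmul_divisor C.polar.1 (Nat.zero_le N))
      (pow_zero C.J ▸ C.polar.pow_mem 0)
  obtain ⟨u, hu, hun⟩ :=
    D.exists_near hp U.exists_zero harch hN hone mem_one_pair hlam hlam1 hpl hblam
  obtain ⟨uJ, huJ, huJn⟩ := D.exists_near hp U.exists_zero harch hN (C.polar.pow_mem N)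
    (C.J_pow_mem N) hlam hlam1 hpl hblam
  obtain ⟨hz₁, hzr₁⟩ :=
    C.b₁.mem_and_red_mul_ratio C.π_surj hlam hlam1 hun.1 (hK₁ u) hK₁m hK₁r
  obtain ⟨hz₂, hzr₂⟩ :=
    C.b₂.mem_and_red_mul_ratio C.π_surj hlam hlam1 hun.2 (hK₂ u) hK₂m hK₂r
  obtain ⟨δ, d, hδ, htδ, hδ1, hd, hzd, hbest⟩ :=
    exists_best_const ⟨hz₁, hz₂⟩ (Prod.ext hzr₁ hzr₂) htt (valuation_lt_one_of_π_eq_zero Δ.π_tt)
  -- an extremal rational section, against which the deviation is constant on each branch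
  obtain ⟨s⟩ := ‹Nonempty ι›
  obtain ⟨W, hW⟩ : ∃ W : ℕ, U.width₁ s = W := ⟨_, (Int.toNat_of_nonneg (U.width₁_pos s).le).symm⟩
  have hW0 : 0 < W := by have := U.width₁_pos s; omega
  obtain ⟨M₀, g, y, hg₁, hg₂, hbal, hyS, hyV, hyg, e₁, e₂⟩ :=
    T.exists_rational_exact U R harch (fun n₀ => ⟨n₀, le_rfl, hspan n₀⟩) hW0
      (z := -(C.node₁ s).ord T.bar.1) (s := s) (by
        rw [show T.low₁ U W (-(C.node₁ s).ord T.bar.1) s = 0 by
          rw [TorsionData.low₁, hW]; ring]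
        exact dvd_zero _)
  have hzV := mul_smul_mem_riemannRochSpace (C := C) (D₀ := T.D - Φ.g • T.D) hdiv μ hu
  obtain ⟨c₁, c₂, hX⟩ := exists_red_eq_const hp U Δ harch T hspan hg₁ hg₂ hyV hyg e₁.1 e₂.1
    hN.pos hzV (mul_smul_mem_riemannRochSpace (C := C) (D₀ := T.D - Φ.g • T.D) hdiv μ huJ) hlam
    (hlt.trans_le htδ)
    ⟨C.b₁.mem_inv_ratio_sub hun.1 huJn.1 (C.J_pow_mem N).1 (hK₁ u) (hK₁ uJ) hK₁m,
      C.b₂.mem_inv_ratio_sub hun.2 huJn.2 (C.J_pow_mem N).2 (hK₂ u) (hK₂ uJ) hK₂m⟩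
    hδ htδ hδ1 hd hzd
  have hδeq := valuation_le_tt_of_best hp U Δ T hW0 hg₁ hg₂ hbal hyS hyV hyg e₂.1 e₂.2 hzV hone hδ
    htδ hδ1 hd hzd hX hbest
  -- at the level of the deviation
  have hle := valuation_inv_le_inv hδ hδeq
  set ν : A := ⟨(Δ.tt : L)⁻¹ / δ⁻¹, div_mem_of_valuation_le (inv_ne_zero hδ) hle⟩
  have hzt₁ := C.b₁.mem_inv_mono hδ hδeq hzd.1
  have hzt₂ := C.b₂.mem_inv_mono hδ hδeq hzd.2
  refine ⟨fun z₁ z₂ hm₁ hr₁ hm₂ hr₂ => ?_, ?_⟩
  · obtain ⟨hq, hqr, -⟩ := hq₁ z₁ hm₁ hr₁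
    obtain ⟨hq', hqr', -⟩ := hq₂ z₂ hm₂ hr₂
    obtain ⟨_, r₁⟩ := C.b₁.slope_of_ratio C.π_surj htt Δ.π_tt hlam hlt hd D.b_ne hbl hun.1 (hK₁ u)
      hK₁p D.near₁ hzt₁ hq hqr
    obtain ⟨_, r₂⟩ := C.b₂.slope_of_ratio C.π_surj htt Δ.π_tt hlam hlt hd D.b_ne hbl hun.2 (hK₂ u)
      hK₂p D.near₂ hzt₂ hq' hqr'
    exact mul_right_cancel₀ Δ.π_η (add_right_cancel (r₁.trans r₂.symm))
  · obtain ⟨a₁, ha₁⟩ := C.π_surj (π ν * c₁)
    obtain ⟨a₂, ha₂⟩ := C.π_surj (π ν * c₂)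
    have hπd : ∀ a : A, π (d + Δ.tt * a) ≠ 0 := fun a => by
      rw [map_add, map_mul, Δ.π_tt, zero_mul, add_zero, hd]; exact one_ne_zero
    refine ⟨N, _, d + Δ.tt * a₁, d + Δ.tt * a₂, hπd a₁, hπd a₂, hzV,
      C.b₁.exists_const_add htt hzt₁ ?_, C.b₂.exists_const_add htt hzt₂ ?_⟩
    · rw [C.b₁.red_eq_smul_of_le (inv_ne_zero hδ) hle hzd.1,
        show C.b₁.red δ⁻¹ _ = c₁ • (1 : F₁) from congrArg Prod.fst hX, smul_smul, ha₁]
    · rw [C.b₂.red_eq_smul_of_le (inv_ne_zero hδ) hle hzd.2,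
        show C.b₂.red δ⁻¹ _ = c₂ • (1 : F₂) from congrArg Prod.snd hX, smul_smul, ha₂]

end PairReduction

end FLTAgent.Semistable
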