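import Fermat.Agent.SemistableSplit.Branch
import Fermat.Agent.SemistableNodes.OffNodes
import Fermat.Agent.Deuring.Poles

/-!
# Compatible pairs in characteristic `p`

Every pair of residual functions lifts to a function (`exists_red_eq`), functions can be combined
across the branches (`exists_combine`), and equations of Artin–Schreier type bound pairs at every
place and force compatibility at the nodes (`values_of_add_pow`, `mem_glued_of_combinations`).
-/

set_option autoImplicit false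

noncomputable section

open AlgebraicCurve FLTAgent.FFRiemannRoch FLTAgent.FFBasic

namespace FLTAgent.Semistable

variable {k G : Type*} [Field k] [Field G] [Algebra k G]

theorem pow_mem_ball {v : Place k G} {n : ℤ} {a : G} (h : a ∈ ball v n) :
    ∀ m : ℕ, a ^ m ∈ ball v (m * n)
  | 0 => by simpa using algebraMap_mem_ball v (le_refl (0 : ℤ)) (1 : k)
  | m + 1 => by
    rw [pow_succ, Nat.cast_succ, add_one_mul]
    exact mul_mem_ball v (pow_mem_ball h m) h

/-- `c₁ d ^ p + c₂ a ^ (p - 1) d` has poles of order at most `p n` only if `d` has poles of order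
at most `n`, when `a` has poles of order at most `n`. -/
theorem mem_ball_of_add_pow {p : ℕ} (hp : 2 ≤ p) (v : Place k G) {n : ℤ} {a d : G} {c₁ c₂ : k}
    (hc₁ : c₁ ≠ 0) (ha : a ∈ ball v n)
    (h : c₁ • d ^ p + c₂ • (a ^ (p - 1) * d) ∈ ball v ((p : ℤ) * n)) : d ∈ ball v n := by
  rcases eq_or_ne d 0 with rfl | hd
  · exact zero_mem _
  refine (mem_ball_iff_ord v).mpr (Or.inr ?_)
  by_contra hlt
  push Not at hlt
  have hd' : d ∈ ball v (-v.ord d) := (mem_ball_iff_ord v).mpr (Or.inr (by omega))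
  have h2 : c₂ • (a ^ (p - 1) * d) ∈ ball v (((p - 1 : ℕ) : ℤ) * n + -v.ord d) :=
    Submodule.smul_mem _ _ (mul_mem_ball v (pow_mem_ball ha _) hd')
  have h1 := ball_mono v (m := (p : ℤ) * n) (n := ((p - 1 : ℕ) : ℤ) * n + -v.ord d) (by
    rw [Nat.cast_sub (by omega : 1 ≤ p)]; push_cast; nlinarith) h
  have h3 := sub_mem h1 h2
  rw [add_sub_cancel_right, mem_ball_iff_ord, Algebra.smul_def] at h3
  have h4 := h3.resolve_left (mul_ne_zero ((map_ne_zero _).mpr hc₁) (pow_ne_zero _ hd))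
  rw [v.ord_mul ((map_ne_zero _).mpr hc₁) (pow_ne_zero _ hd), ord_algebraMap, zero_add,
    ← zpow_natCast, v.ord_zpow, Nat.cast_sub (by omega : 1 ≤ p)] at h4
  have : (2 : ℤ) ≤ p := by exact_mod_cast hp
  push_cast at h4
  nlinarith

variable [IsAlgClosed k] [IsFunctionField k G]

/-- A nonzero function with bounded poles vanishing at given places, and staying so after
multiplication by `z`. -/
theorem exists_vanishing {E : Divisor k G} (hdeg : 0 < Divisor.degree E) {ι : Type*} [Fintype ι]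
    {q : ι → Place k G} (hq : ∀ s, E (q s) = 0) (z : G) :
    ∃ n₀ : ℕ, ∀ n, n₀ ≤ n → ∃ a : G, a ≠ 0 ∧ a ∈ riemannRochSpace (n • E) ∧
      z * a ∈ riemannRochSpace (n • E) ∧
      ∀ s, HasValue (q s) a 0 ∧ HasValue (q s) (z * a) 0 := by
  classical
  set P : Divisor k G := Deuring.pol (K := k) z with hP
  set Sg : Divisor k G := ∑ s, Finsupp.single (q s) 1 with hS
  have hS0 : (0 : Divisor k G) ≤ Sg := Finset.sum_nonneg fun s _ => single_nonneg _ zero_le_one
  refine ⟨(2 * (genusFF k G : ℤ) + Divisor.degree P + Divisor.degree Sg).toNat, fun n hn => ?_⟩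
  have hdeg' : 2 * (genusFF k G : ℤ) ≤ Divisor.degree (n • E - P - Sg) := by
    rw [map_sub, map_sub, map_nsmul, nsmul_eq_mul]
    have : (n : ℤ) * 1 ≤ n * Divisor.degree E :=
      mul_le_mul_of_nonneg_left (by omega) (by omega)
    omega
  obtain ⟨v₀⟩ : Nonempty (Place k G) := inferInstance
  obtain ⟨a, ha, ha0, -⟩ := exists_ord_eq_neg_of_two_mul_le v₀ hdeg'
  have hP0 : (0 : Divisor k G) ≤ P := Deuring.pol_nonneg z
  have haE : a ∈ riemannRochSpace (n • E - Sg) :=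
    riemannRochSpace_mono (sub_le_sub_right (sub_le_self _ hP0) _) ha
  have hzE : z * a ∈ riemannRochSpace (n • E - Sg) := by
    intro v
    have hz : z ∈ ball v (P v) := (mem_ball_iff_ord v).mpr (Or.inr (by
      rw [hP, Deuring.pol_apply]; omega))
    have := mul_mem_ball v hz (ha v)
    rwa [show P v + (n • E - P - Sg : Divisor k G) v = (n • E - Sg : Divisor k G) v by
      simp only [Finsupp.sub_apply]; ring] at this
  have hle : ∀ s, (n • E - Sg : Divisor k G) (q s) ≤ -1 := fun s => by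
    rw [Finsupp.sub_apply, Finsupp.smul_apply, hq, smul_zero, hS, Finsupp.finsetSum_apply]
    have h1 : (1 : ℤ) ≤ ∑ t, (Finsupp.single (q t) (1 : ℤ)) (q s) := by
      refine le_trans ?_ (Finset.single_le_sum (fun t _ => ?_) (Finset.mem_univ s))
      · simp
      · exact single_nonneg _ zero_le_one _
    omega
  exact ⟨a, ha0, riemannRochSpace_mono (sub_le_self _ hS0) haE,
    riemannRochSpace_mono (sub_le_self _ hS0) hzE, fun s =>
      ⟨hasValue_zero_iff.mpr (ball_mono _ (hle s) (haE (q s))),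
        hasValue_zero_iff.mpr (ball_mono _ (hle s) (hzE (q s)))⟩⟩

omit [IsAlgClosed k] [IsFunctionField k G] in
/-- The pole bound at a pole of `jj` from twisted combinations. -/
theorem mem_ball_of_combinations_pole {p : ℕ} (hp : 2 ≤ p) {v : Place k G} {n : ℤ} {jj e₀ e₁ : G}
    (hn : 0 < n) (hjj : v.ord jj = -n)
    (hyp : ∀ α γ : k, (α • 1 + γ • jj) ^ (p - 1) * (α • e₀ + γ • e₁) ∈ ball v ((p : ℤ) * n)) :
    e₀ ∈ ball v n ∧ e₁ ∈ ball v n := by
  have hpN : (((p - 1 : ℕ) : ℤ)) = (p : ℤ) - 1 := by rw [Nat.cast_sub (by omega)]; norm_num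
  have hj0 : jj ≠ 0 := fun h0 => by rw [h0, Place.ord_zero] at hjj; omega
  have step : ∀ α : k, α • e₀ + e₁ ∈ ball v n := by
    intro α
    have hα := hyp α 1
    rw [one_smul, one_smul] at hα
    set a := α • (1 : G) + jj with ha
    have hone : α • (1 : G) ∈ ball v 0 := by
      rw [← Algebra.algebraMap_eq_smul_one]; exact algebraMap_mem_ball v le_rfl α
    have hnot : a ∉ ball v (n - 1) := fun hm => by
      have := sub_mem hm (ball_mono v (show (0 : ℤ) ≤ n - 1 by omega) hone)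
      rw [ha, add_sub_cancel_left, mem_ball_iff_ord] at this
      rcases this with h0 | h0
      · exact hj0 h0
      · omega
    have ha0 : a ≠ 0 := fun h0 => hnot (h0 ▸ zero_mem _)
    have hord : v.ord a = -n := by
      have hmem : a ∈ ball v n :=
        add_mem (ball_mono v (by omega) hone) ((mem_ball_iff_ord v).mpr (Or.inr (by omega)))
      have h1 := ((mem_ball_iff_ord v).mp hmem).resolve_left ha0
      have h2 : ¬ -(n - 1) ≤ v.ord a := fun h2 => hnot ((mem_ball_iff_ord v).mpr (Or.inr h2))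
      omega
    rcases eq_or_ne (α • e₀ + e₁) 0 with h0 | h0
    · rw [h0]; exact zero_mem _
    have h3 := ((mem_ball_iff_ord v).mp hα).resolve_left (mul_ne_zero (pow_ne_zero _ ha0) h0)
    rw [v.ord_mul (pow_ne_zero _ ha0) h0, ← zpow_natCast, v.ord_zpow, hord, hpN] at h3
    exact (mem_ball_iff_ord v).mpr (Or.inr (by linarith))
  have h1 := step 0
  rw [zero_smul, zero_add] at h1
  have h2 := sub_mem (step 1) h1
  rw [one_smul, add_sub_cancel_right] at h2
  exact ⟨h2, h1⟩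

/-- The pole bound at a regular place of `jj` from twisted combinations. -/
theorem mem_ball_of_combinations_regular {p : ℕ} {v : Place k G} {jj e₀ e₁ : G}
    (hjj : jj ∈ ball v 0)
    (hyp : ∀ α γ : k, (α • 1 + γ • jj) ^ (p - 1) * (α • e₀ + γ • e₁) ∈ ball v 0) :
    e₀ ∈ ball v 0 ∧ e₁ ∈ ball v 0 := by
  have h1 := hyp 1 0
  simp only [one_smul, zero_smul, add_zero, one_pow, one_mul] at h1
  refine ⟨h1, ?_⟩
  obtain ⟨c₀, hc₀⟩ := exists_hasValue hjj
  have hc := hyp (1 - c₀) 1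
  rw [one_smul, one_smul] at hc
  have hv : HasValue v ((1 - c₀) • (1 : G) + jj) 1 := by
    have := ((hasValue_one (v := v)).smul (1 - c₀)).add hc₀
    rwa [mul_one, sub_add_cancel] at this
  rcases eq_or_ne ((1 - c₀) • e₀ + e₁) 0 with h0 | h0
  · have : e₁ = -((1 - c₀) • e₀) := eq_neg_of_add_eq_zero_right h0
    rw [this]; exact neg_mem (Submodule.smul_mem _ _ h1)
  have ha0 : (1 - c₀) • (1 : G) + jj ≠ 0 := hv.ne_zero one_ne_zero
  have h3 := ((mem_ball_iff_ord v).mp hc).resolve_left (mul_ne_zero (pow_ne_zero _ ha0) h0)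
  rw [v.ord_mul (pow_ne_zero _ ha0) h0, ← zpow_natCast, v.ord_zpow, hv.ord_eq_zero one_ne_zero,
    mul_zero, zero_add] at h3
  have h4 : (1 - c₀) • e₀ + e₁ ∈ ball v 0 := (mem_ball_iff_ord v).mpr (Or.inr h3)
  simpa using sub_mem h4 (Submodule.smul_mem _ (1 - c₀) h1)

variable {L : Type*} [Field L] {A : ValuationSubring L} {π : A →+* k}
variable {F F₁ F₂ : Type*} [Field F] [Field F₁] [Field F₂]
  [Algebra L F] [Algebra k F₁] [Algebra k F₂] {ι : Type*} [Fintype ι]
  [IsFunctionField k F₁] [IsFunctionField k F₂] [IsAlgClosed L] [IsFunctionField L F]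

namespace PairReduction

variable (C : PairReduction A π F F₁ F₂ ι)

/-- Every pair is the pair reduction of a function. -/
theorem exists_red_eq (z : F₁ × F₂) : ∃ h : F, C.Mem (1, 1) h ∧ C.red (1, 1) h = z := by
  obtain ⟨n₁, h₁⟩ := exists_vanishing C.degree_pos₁ C.node₁_off z.1
  obtain ⟨n₂, h₂⟩ := exists_vanishing C.degree_pos₂ C.node₂_off z.2
  obtain ⟨n₀, hn₀⟩ := C.resSub_one_eq_glued
  set n := n₀ + n₁ + n₂
  obtain ⟨a, ha0, ha, hza, hav⟩ := h₁ n (by omega)
  obtain ⟨b, hb0, hb, hzb, hbv⟩ := h₂ n (by omega)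
  have hP : ((z.1 * a, z.2 * b) : F₁ × F₂) ∈ C.glued n 1 :=
    ⟨hza, hzb, fun s => by rw [(hav s).2.valueAt_eq, (hbv s).2.valueAt_eq, mul_zero]⟩
  have hQ : ((a, b) : F₁ × F₂) ∈ C.glued n 1 :=
    ⟨ha, hb, fun s => by rw [(hav s).1.valueAt_eq, (hbv s).1.valueAt_eq, mul_zero]⟩
  rw [← hn₀ n (by omega)] at hP hQ
  obtain ⟨P, -, hPm, hPr⟩ := hP
  obtain ⟨Q, -, hQm, hQr⟩ := hQ
  have hQ0 : Q ≠ 0 := by
    rintro rfl
    rw [C.red_zero] at hQr
    exact ha0 (congrArg Prod.fst hQr).symm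
  have hm : C.Mem (1, 1) (P / Q) := by
    refine mem_of_mul_mem hQm (by rw [hQr]; exact ha0) (by rw [hQr]; exact hb0) ?_
    rwa [div_mul_cancel₀ _ hQ0, show ((1, 1) : L × L) = 1 from rfl, one_mul]
  refine ⟨P / Q, hm, ?_⟩
  have := red_mul_one_right hm hQm
  rw [div_mul_cancel₀ _ hQ0, hPr, hQr] at this
  exact Prod.ext (mul_right_cancel₀ ha0 (congrArg Prod.fst this).symm)
    (mul_right_cancel₀ hb0 (congrArg Prod.snd this).symm)

/-- A function close to one on the first branch and close to zero on the second. -/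
theorem exists_separator (ht : ∃ t : A, t ≠ 0 ∧ π t = 0) (harch : Arch π) {b : L} (hb : b ≠ 0) :
    ∃ e : F, C.b₁.Mem b⁻¹ (e - 1) ∧ C.b₂.Mem b⁻¹ e := by
  obtain ⟨h, hm, hr⟩ := C.exists_red_eq (1, 0)
  have hr₁ : C.b₁.red 1 h = 1 := congrArg Prod.fst hr
  have hr₂ : C.b₂.red 1 h = 0 := congrArg Prod.snd hr
  have hm' : C.Mem (1, 1) (1 - h) := mem_one_pair.sub hm
  have hr₁' : C.b₁.red 1 (1 - h) = 0 := by
    rw [C.b₁.red_sub C.b₁.mem_one hm.1, C.b₁.red_one_one, hr₁, sub_self]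
  have hr₂' : C.b₂.red 1 (1 - h) = 1 := by
    rw [C.b₂.red_sub C.b₂.mem_one hm.2, C.b₂.red_one_one, hr₂, sub_zero]
  obtain ⟨c₂, hc₂A, hc₂⟩ := C.b₂.exists_small ht hm.2 hr₂
  obtain ⟨c₁, hc₁A, hc₁⟩ := C.b₁.exists_small ht hm'.1 hr₁'
  have key : ∀ {c : L}, c ∉ A → ∃ M, ∀ M', M ≤ M' → A.valuation b⁻¹ ≤ A.valuation (c ^ M') := by
    intro c hc
    have hc1 : 1 < A.valuation c := not_le.mp fun h' => hc ((A.valuation_le_one_iff c).mp h')
    obtain ⟨M, hM⟩ := harch.exists_pow_le C.π_surj (t := c⁻¹) (b := b)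
      (by rw [map_inv₀]; exact inv_lt_one_of_one_lt₀ hc1) hb
    refine ⟨M, fun M' hM' => ?_⟩
    rw [map_inv₀, inv_pow] at hM
    rw [map_inv₀, map_pow]
    exact (inv_le_comm₀ (valuation_pos hb) (pow_pos (zero_lt_one.trans hc1) M)).mpr hM |>.trans
      (pow_le_pow_right₀ hc1.le hM')
  obtain ⟨M₁, hM₁⟩ := key hc₁A
  obtain ⟨M₂, hM₂⟩ := key hc₂A
  set M := M₁ + M₂ + 1 with hM
  set Dn := h ^ M + (1 - h) ^ M with hDn
  have hD : C.Mem (1, 1) Dn := by
    have h1 := (hm.pow M).add (hm'.pow M)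
    rwa [show ((1, 1) : L × L) = 1 from rfl, one_pow] at h1
  have hDr : (C.red (1, 1) Dn).1 = 1 ∧ (C.red (1, 1) Dn).2 = 1 := by
    have e1 : ((1, 1) : L × L) ^ M = (1, 1) := by rw [show ((1, 1) : L × L) = 1 from rfl, one_pow]
    rw [hDn, red_add (e1 ▸ hm.pow M) (e1 ▸ hm'.pow M)]
    have p1 := red_pow hm M
    have p2 := red_pow hm' M
    rw [e1] at p1 p2
    rw [p1, p2, hr]
    constructor
    · show (1 : F₁) ^ M + (C.b₁.red 1 (1 - h)) ^ M = 1
      rw [hr₁', one_pow, zero_pow (by omega), add_zero]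
    · show (0 : F₂) ^ M + (C.b₂.red 1 (1 - h)) ^ M = 1
      rw [hr₂', one_pow, zero_pow (by omega), zero_add]
  have hD₁ : C.b₁.red 1 Dn ≠ 0 := by rw [show C.b₁.red 1 Dn = 1 from hDr.1]; exact one_ne_zero
  have hD₂ : C.b₂.red 1 Dn ≠ 0 := by rw [show C.b₂.red 1 Dn = 1 from hDr.2]; exact one_ne_zero
  have hD0 : Dn ≠ 0 := fun h0 => hD₁ (by rw [h0, C.b₁.red_zero])
  refine ⟨h ^ M / Dn, ?_, ?_⟩
  · have e : h ^ M / Dn - 1 = -((1 - h) ^ M / Dn) := by
      rw [div_sub_one hD0, ← neg_div]; congr 1; rw [hDn]; ring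
    rw [e]
    refine Branch.Mem.neg _ (C.b₁.mem_of_mul_mem C.π_surj hD.1 hD₁ ?_)
    rw [mul_one, div_mul_cancel₀ _ hD0]
    exact C.b₁.mem_of_le (pow_ne_zero _ (by rintro rfl; exact hc₁A A.zero_mem)) (hM₁ M (by omega))
      (Branch.Mem.pow _ hc₁ M)
  · refine C.b₂.mem_of_mul_mem C.π_surj hD.2 hD₂ ?_
    rw [mul_one, div_mul_cancel₀ _ hD0]
    exact C.b₂.mem_of_le (pow_ne_zero _ (by rintro rfl; exact hc₂A A.zero_mem)) (hM₂ M (by omega))
      (Branch.Mem.pow _ hc₂ M)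

/-- One function approximating given functions on the two branches. -/
theorem exists_combine (ht : ∃ t : A, t ≠ 0 ∧ π t = 0) (harch : Arch π) {c₁ c₂ : L} (hc₁ : c₁ ≠ 0)
    (hc₂ : c₂ ≠ 0) (x₁ x₂ : F) :
    ∃ y : F, C.b₁.Mem c₁ (y - x₁) ∧ C.b₂.Mem c₂ (y - x₂) := by
  obtain ⟨d₁, hd₁, hm₁⟩ := C.b₁.exists_mem (x₁ - x₂)
  obtain ⟨d₂, hd₂, hm₂⟩ := C.b₂.exists_mem (x₁ - x₂)
  obtain ⟨b, hb, hb₁, hb₂⟩ : ∃ b : L, b ≠ 0 ∧ A.valuation b ≤ A.valuation (d₁ / c₁) ∧
      A.valuation b ≤ A.valuation (d₂ / c₂) := by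
    rcases le_total (A.valuation (d₁ / c₁)) (A.valuation (d₂ / c₂)) with h | h
    · exact ⟨_, div_ne_zero hd₁ hc₁, le_rfl, h⟩
    · exact ⟨_, div_ne_zero hd₂ hc₂, h, le_rfl⟩
  obtain ⟨e, he₁, he₂⟩ := C.exists_separator ht harch hb
  have key : ∀ {c d : L}, c ≠ 0 → d ≠ 0 → A.valuation b ≤ A.valuation (d / c) →
      A.valuation c ≤ A.valuation (b⁻¹ * d) := by
    intro c d hc hd hle
    have := mul_le_mul' (valuation_inv_le_inv hb hle) (le_refl (A.valuation d))
    rwa [← map_mul, ← map_mul, inv_div, div_mul_cancel₀ _ hd] at this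
  refine ⟨x₂ + e * (x₁ - x₂), ?_, ?_⟩
  · rw [show x₂ + e * (x₁ - x₂) - x₁ = (e - 1) * (x₁ - x₂) by ring]
    exact C.b₁.mem_of_le (mul_ne_zero (inv_ne_zero hb) hd₁) (key hc₁ hd₁ hb₁)
      (Branch.Mem.mul _ he₁ hm₁)
  · rw [show x₂ + e * (x₁ - x₂) - x₂ = e * (x₁ - x₂) by ring]
    exact C.b₂.mem_of_le (mul_ne_zero (inv_ne_zero hb) hd₂) (key hc₂ hd₂ hb₂)
      (Branch.Mem.mul _ he₂ hm₂)

variable {C}

omit [IsAlgClosed L] [IsFunctionField L F] in
/-- Pairs satisfying an Artin–Schreier equation have bounded poles, and equal values at the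
nodes where it degenerates. -/
theorem values_of_add_pow {p : ℕ} [CharP k p] (hp : p.Prime) {N : ℕ} {a d : F₁ × F₂} {c₁ c₂ : k}
    (hc₁ : c₁ ≠ 0) (ha : a ∈ C.glued N 1)
    (h : c₁ • d ^ p + c₂ • (a ^ (p - 1) * d) ∈ C.glued (p * N) 1) :
    d.1 ∈ riemannRochSpace (N • C.E₁) ∧ d.2 ∈ riemannRochSpace (N • C.E₂) ∧
      ∀ s, (c₂ = 0 ∨ valueAt (C.node₁ s) a.1 = 0) →
        valueAt (C.node₁ s) d.1 = valueAt (C.node₂ s) d.2 := by
  have hd₁ : d.1 ∈ riemannRochSpace (N • C.E₁) := fun v => by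
    refine mem_ball_of_add_pow (c₂ := c₂) hp.two_le v hc₁ (ha.1 v) ?_
    have := h.1 v
    simp only [Finsupp.smul_apply, nsmul_eq_mul, Nat.cast_mul, mul_assoc, Prod.fst_add,
      Prod.smul_fst, Prod.pow_fst, Prod.fst_mul] at this ⊢
    exact this
  have hd₂ : d.2 ∈ riemannRochSpace (N • C.E₂) := fun v => by
    refine mem_ball_of_add_pow (c₂ := c₂) hp.two_le v hc₁ (ha.2.1 v) ?_
    have := h.2.1 v
    simp only [Finsupp.smul_apply, nsmul_eq_mul, Nat.cast_mul, mul_assoc, Prod.snd_add,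
      Prod.smul_snd, Prod.pow_snd, Prod.snd_mul] at this ⊢
    exact this
  refine ⟨hd₁, hd₂, fun s hs => ?_⟩
  have va₁ := hasValue_valueAt (mem_ball_zero_of_mem (C.node₁_le N s) ha.1)
  have va₂ := hasValue_valueAt (mem_ball_zero_of_mem (C.node₂_le N s) ha.2.1)
  have vd₁ := hasValue_valueAt (mem_ball_zero_of_mem (C.node₁_le N s) hd₁)
  have vd₂ := hasValue_valueAt (mem_ball_zero_of_mem (C.node₂_le N s) hd₂)
  have haa : valueAt (C.node₁ s) a.1 = valueAt (C.node₂ s) a.2 := by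
    rw [ha.2.2 s, Pi.one_apply, one_mul]
  have e := h.2.2 s
  simp only [Prod.fst_add, Prod.snd_add, Prod.smul_fst, Prod.smul_snd, Prod.pow_fst, Prod.pow_snd,
    Prod.fst_mul, Prod.snd_mul, Pi.one_apply, one_mul] at e
  rw [(((vd₁.pow p).smul c₁).add (((va₁.pow (p - 1)).mul vd₁).smul c₂)).valueAt_eq,
    (((vd₂.pow p).smul c₁).add (((va₂.pow (p - 1)).mul vd₂).smul c₂)).valueAt_eq, ← haa] at e
  have hz : c₂ * valueAt (C.node₁ s) a.1 ^ (p - 1) = 0 := by
    rcases hs with h0 | h0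
    · rw [h0, zero_mul]
    · rw [h0, zero_pow (by have := hp.two_le; omega), mul_zero]
  rw [← mul_assoc, ← mul_assoc, hz, zero_mul, zero_mul, add_zero, add_zero] at e
  have := Fact.mk hp
  exact frobenius_inj k p (mul_left_cancel₀ hc₁ e)

omit [IsAlgClosed L] [IsFunctionField L F] in
/-- Two pairs are compatible when enough of their twisted combinations are. -/
theorem mem_glued_of_combinations {p : ℕ} (hp : 2 ≤ p) {N : ℕ} (hN : 0 < N) {j d₀ d₁ : F₁ × F₂}
    (hj : j ∈ C.glued N 1) (hj₁ : ∀ v, 0 < C.E₁ v → v.ord j.1 = -((N : ℤ) * C.E₁ v))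
    (hj₂ : ∀ v, 0 < C.E₂ v → v.ord j.2 = -((N : ℤ) * C.E₂ v))
    (h : ∀ α γ : k, (α • 1 + γ • j) ^ (p - 1) * (α • d₀ + γ • d₁) ∈ C.glued (p * N) 1) :
    d₀ ∈ C.glued N 1 ∧ d₁ ∈ C.glued N 1 := by
  have side₁ : ∀ v, d₀.1 ∈ ball v ((N • C.E₁ : Divisor k F₁) v) ∧
      d₁.1 ∈ ball v ((N • C.E₁ : Divisor k F₁) v) := by
    intro v
    have hyp : ∀ α γ : k, (α • (1 : F₁) + γ • j.1) ^ (p - 1) * (α • d₀.1 + γ • d₁.1) ∈
        ball v ((p : ℤ) * ((N : ℤ) * C.E₁ v)) := fun α γ => by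
      have := (h α γ).1 v
      rwa [Finsupp.smul_apply, nsmul_eq_mul, Nat.cast_mul, mul_assoc] at this
    rw [Finsupp.smul_apply, nsmul_eq_mul]
    have hEv : (0 : ℤ) ≤ C.E₁ v := C.polar₁.1 v
    rcases hEv.eq_or_lt with h0 | h0
    · rw [← h0, mul_zero] at hyp ⊢
      rw [mul_zero] at hyp
      refine mem_ball_of_combinations_regular ?_ hyp
      have := hj.1 v
      rwa [Finsupp.smul_apply, ← h0, smul_zero] at this
    · exact mem_ball_of_combinations_pole hp (by positivity) (hj₁ v h0) hyp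
  have side₂ : ∀ v, d₀.2 ∈ ball v ((N • C.E₂ : Divisor k F₂) v) ∧
      d₁.2 ∈ ball v ((N • C.E₂ : Divisor k F₂) v) := by
    intro v
    have hyp : ∀ α γ : k, (α • (1 : F₂) + γ • j.2) ^ (p - 1) * (α • d₀.2 + γ • d₁.2) ∈
        ball v ((p : ℤ) * ((N : ℤ) * C.E₂ v)) := fun α γ => by
      have := (h α γ).2.1 v
      rwa [Finsupp.smul_apply, nsmul_eq_mul, Nat.cast_mul, mul_assoc] at this
    rw [Finsupp.smul_apply, nsmul_eq_mul]
    have hEv : (0 : ℤ) ≤ C.E₂ v := C.polar₂.1 v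
    rcases hEv.eq_or_lt with h0 | h0
    · rw [← h0, mul_zero] at hyp ⊢
      rw [mul_zero] at hyp
      refine mem_ball_of_combinations_regular ?_ hyp
      have := hj.2.1 v
      rwa [Finsupp.smul_apply, ← h0, smul_zero] at this
    · exact mem_ball_of_combinations_pole hp (by positivity) (hj₂ v h0) hyp
  have hvals : ∀ s, valueAt (C.node₁ s) d₀.1 = valueAt (C.node₂ s) d₀.2 ∧
      valueAt (C.node₁ s) d₁.1 = valueAt (C.node₂ s) d₁.2 := by
    intro s
    have v01 := hasValue_valueAt (mem_ball_zero_of_mem (C.node₁_le N s) fun v => (side₁ v).1)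
    have v02 := hasValue_valueAt (mem_ball_zero_of_mem (C.node₂_le N s) fun v => (side₂ v).1)
    have v11 := hasValue_valueAt (mem_ball_zero_of_mem (C.node₁_le N s) fun v => (side₁ v).2)
    have v12 := hasValue_valueAt (mem_ball_zero_of_mem (C.node₂_le N s) fun v => (side₂ v).2)
    have vj₁ := hasValue_valueAt (mem_ball_zero_of_mem (C.node₁_le N s) hj.1)
    have vj₂ := hasValue_valueAt (mem_ball_zero_of_mem (C.node₂_le N s) hj.2.1)
    have hjj : valueAt (C.node₂ s) j.2 = valueAt (C.node₁ s) j.1 := by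
      rw [hj.2.2 s, Pi.one_apply, one_mul]
    have e : ∀ α γ : k,
        (α + γ * valueAt (C.node₁ s) j.1) ^ (p - 1) *
          (α * valueAt (C.node₁ s) d₀.1 + γ * valueAt (C.node₁ s) d₁.1) =
        (α + γ * valueAt (C.node₁ s) j.1) ^ (p - 1) *
          (α * valueAt (C.node₂ s) d₀.2 + γ * valueAt (C.node₂ s) d₁.2) := by
      intro α γ
      have e := (h α γ).2.2 s
      simp only [Prod.fst_mul, Prod.snd_mul, Prod.pow_fst, Prod.pow_snd, Prod.fst_add, Prod.snd_add,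
        Prod.smul_fst, Prod.smul_snd, Prod.fst_one, Prod.snd_one, Pi.one_apply, one_mul] at e
      rw [((((hasValue_one.smul α).add (vj₁.smul γ)).pow (p - 1)).mul
          ((v01.smul α).add (v11.smul γ))).valueAt_eq,
        ((((hasValue_one.smul α).add (vj₂.smul γ)).pow (p - 1)).mul
          ((v02.smul α).add (v12.smul γ))).valueAt_eq, mul_one, hjj] at e
      exact e
    have e₀ := e 1 0
    simp only [one_mul, zero_mul, add_zero, one_pow] at e₀
    refine ⟨e₀, ?_⟩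
    have e₁ := e (1 - valueAt (C.node₁ s) j.1) 1
    simp only [one_mul, sub_add_cancel, one_pow, e₀, add_right_inj] at e₁
    exact e₁
  exact ⟨⟨fun v => (side₁ v).1, fun v => (side₂ v).1, fun s => by
      rw [(hvals s).1, Pi.one_apply, one_mul]⟩,
    ⟨fun v => (side₁ v).2, fun v => (side₂ v).2, fun s => by
      rw [(hvals s).2, Pi.one_apply, one_mul]⟩⟩

end PairReduction

end FLTAgent.Semistable
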