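import Fermat.Agent.SemistableSplit.Branch
import Fermat.Agent.SemistableNodes.Deviation

/-!
# Regularity of deviations

The deviation of a function near a constant that moves rational sections to sections has poles
bounded by those of the target (`TorsionData.red_mem_rr`): otherwise rational sections would
acquire unbounded poles (`mem_ball_of_step`).
-/

set_option autoImplicit false

noncomputable section

open AlgebraicCurve FLTAgent.FFRiemannRoch FLTAgent.FFBasic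

namespace FLTAgent.Semistable

/-- An element multiplying families of boundedly polar elements into themselves has bounded
poles. -/
theorem mem_ball_of_step {k G : Type*} [Field k] [Field G] [Algebra k G] {v : Place k G}
    {S : ℕ → Submodule k G} {Gen : ℕ → Set G} (hspan : ∀ M, S M ≤ Submodule.span k (Gen M))
    {e C : ℤ} (hb : ∀ M : ℕ, ∀ y ∈ S M, y ≠ 0 → -((M : ℤ) * e) - C ≤ v.ord y) {N : ℕ} {x ω : G}
    (hω : ω ∈ ball v ((N : ℤ) * e))
    (hstep : ∀ M, ∀ y ∈ Gen M, ∃ c : k, y * (x + c • ω) ∈ S (M + N))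
    {M₀ : ℕ} {y₀ : G} (hy₀ : y₀ ∈ S M₀) (hy₀0 : y₀ ≠ 0) : x ∈ ball v ((N : ℤ) * e) := by
  by_contra hx
  -- a twist of `x` still has a pole beyond the bound
  have htw : ∀ c : k, x + c • ω ≠ 0 ∧ v.ord (x + c • ω) ≤ -((N : ℤ) * e) - 1 := by
    intro c
    have h : x + c • ω ∉ ball v ((N : ℤ) * e) := fun h => hx (by
      have := sub_mem h (Submodule.smul_mem _ c hω)
      rwa [add_sub_cancel_right] at this)
    refine ⟨fun h0 => h (h0 ▸ zero_mem _), ?_⟩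
    by_contra hlt
    exact h ((mem_ball_iff_ord v).mpr (Or.inr (by omega)))
  have hdesc : ∀ j : ℕ, ∃ y ∈ S (M₀ + j * N), y ≠ 0 ∧
      v.ord y ≤ v.ord y₀ + (j : ℤ) * (-((N : ℤ) * e) - 1) := by
    intro j
    induction j with
    | zero => exact ⟨y₀, by rwa [zero_mul, add_zero], hy₀0, by simp⟩
    | succ j ih =>
      obtain ⟨y, hy, hy0, hord⟩ := ih
      obtain ⟨z, hz, hz0, hzord⟩ : ∃ z ∈ Gen (M₀ + j * N), z ≠ 0 ∧ v.ord z ≤ v.ord y := by
        by_contra! hno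
        have hle : Submodule.span k (Gen (M₀ + j * N)) ≤ ball v (-(v.ord y + 1)) := by
          refine Submodule.span_le.mpr fun z hz => (mem_ball_iff_ord v).mpr ?_
          rcases eq_or_ne z 0 with h0 | h0
          · exact Or.inl h0
          · exact Or.inr (by have := hno z hz h0; omega)
        have := ((mem_ball_iff_ord v).mp (hle (hspan _ hy))).resolve_left hy0
        omega
      obtain ⟨c, hc⟩ := hstep _ z hz
      obtain ⟨ht0, ht⟩ := htw c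
      refine ⟨_, ?_, mul_ne_zero hz0 ht0, ?_⟩
      · rwa [Nat.succ_mul, ← add_assoc]
      · rw [v.ord_mul hz0 ht0]
        push_cast
        linarith
  set j := ((M₀ : ℤ) * e + C + v.ord y₀).toNat + 1 with hj
  obtain ⟨y, hy, hy0, hord⟩ := hdesc j
  have h1 := hb _ y hy hy0
  have h2 : (M₀ : ℤ) * e + C + v.ord y₀ < j := by
    rw [hj]
    push_cast
    have := Int.self_le_toNat ((M₀ : ℤ) * e + C + v.ord y₀)
    omega
  push_cast at h1
  nlinarith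

variable {L k : Type*} [Field L] [Field k] {A : ValuationSubring L} {π : A →+* k}
variable {F Fb : Type*} [Field F] [Field Fb] [Algebra L F] [Algebra k Fb]

/-- The reduction of a moved product at the level of a deviation. -/
theorem Branch.red_step (B : Branch A π F Fb) (hπ : Function.Surjective π) {x q z ω : F} {δ : L}
    {tt d : A} {c : k} (hx : B.Mem 1 x) (hq : B.Mem 1 q) (hω : B.Mem 1 ω) (hδ : δ ≠ 0)
    (htt : A.valuation (tt : L) ≤ A.valuation δ) (hδ1 : A.valuation δ < 1) (hd : π d = 1)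
    (hz : B.Mem δ⁻¹ (z - (d : L) • ω)) (hqr : B.red 1 q = c • B.red 1 x) :
    B.Mem 1 (δ⁻¹ • ((x + algebraMap L F (tt : L) * q) * z - (d : L) • (x * ω))) ∧
      B.red 1 (δ⁻¹ • ((x + algebraMap L F (tt : L) * q) * z - (d : L) • (x * ω))) =
        B.red 1 x * (B.red δ⁻¹ (z - (d : L) • ω) +
          (π ⟨(tt : L) / δ, div_mem_of_valuation_le hδ htt⟩ * c) • B.red 1 ω) := by
  set μ : A := ⟨(tt : L) / δ, div_mem_of_valuation_le hδ htt⟩
  set D := δ⁻¹ • (z - (d : L) • ω) with hD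
  have hDm : B.Mem 1 D := B.mem_smul_one_iff.mpr hz
  have hDr : B.red 1 D = B.red δ⁻¹ (z - (d : L) • ω) := B.red_one_smul hz
  have hd0 := B.mem_one_of_mem_inv hδ hδ1.le hz
  have hd1 := B.red_one_eq_zero_of_mem_inv hπ hδ hδ1 hz
  have hdω : B.Mem 1 ((d : L) • ω) := Branch.Mem.smul B hω d
  have hzm : B.Mem 1 z := by
    have := Branch.Mem.add B hd0 hdω
    rwa [sub_add_cancel] at this
  have hzr : B.red 1 z = B.red 1 ω := by
    rw [← sub_add_cancel z ((d : L) • ω), B.red_add hd0 hdω, hd1, zero_add, B.red_smul hω, hd,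
      one_smul]
  have e : δ⁻¹ • ((x + algebraMap L F (tt : L) * q) * z - (d : L) • (x * ω)) =
      x * D + (μ : L) • (q * z) := by
    rw [hD]
    show _ = x * δ⁻¹ • (z - (d : L) • ω) + ((tt : L) / δ) • (q * z)
    rw [div_eq_inv_mul]
    simp only [Algebra.smul_def, map_mul]
    ring
  have h1 : B.Mem 1 (x * D) := by simpa using Branch.Mem.mul B hx hDm
  have h2 : B.Mem 1 (q * z) := by simpa using Branch.Mem.mul B hq hzm
  rw [e]
  refine ⟨Branch.Mem.add B h1 (Branch.Mem.smul B h2 μ), ?_⟩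
  have r1 := B.red_mul hx hDm
  have r2 := B.red_mul hq hzm
  rw [mul_one] at r1 r2
  rw [B.red_add h1 (Branch.Mem.smul B h2 μ), B.red_smul h2, r1, r2, hDr, hqr, hzr, mul_add,
    smul_mul_assoc, mul_smul_comm, smul_smul]

variable {F₁ F₂ : Type*} [Field F₁] [Field F₂] [Algebra k F₁] [Algebra k F₂] {ι : Type*}
  [Fintype ι]

namespace PairReduction

variable {C : PairReduction A π F F₁ F₂ ι} {m : ℕ}

/-- The node unit of the exchanged branches. -/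
def NodeUnit.swap (U : NodeUnit C) : NodeUnit C.swap where
  Q := U.Q
  Q_ne := U.Q_ne
  Q_lt := U.Q_lt
  h := U.h'
  h' := U.h
  mul_eq := by rw [mul_comm]; exact U.mul_eq
  h_mem₁ := U.h'_mem₂
  h_mem₂ := U.h'_mem₁
  h'_mem₁ := U.h_mem₂
  h'_mem₂ := U.h_mem₁
  deg := U.deg
  h_rr := U.h'_rr
  h'_rr := U.h_rr
  res_ne₁ := U.res_ne₂
  res_ne₂ := U.res_ne₁

/-- Torsion data for the exchanged branches. -/
def TorsionData.swapData (T : C.TorsionData m) : C.swap.TorsionData m where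
  D := T.D
  degree_eq := T.degree_eq
  f := T.f
  f_ne := T.f_ne
  div_eq := T.div_eq
  c := (T.c.2, T.c.1)
  mem := ⟨T.mem.2, T.mem.1⟩
  ne₁ := T.ne₂
  ne₂ := T.ne₁

/-- At a fixed pair of scales, reductions have poles bounded linearly in the degree. -/
theorem TorsionData.exists_order_bound₁ (T : C.TorsionData m) (U : NodeUnit C) (harch : Arch π)
    (hm : 0 < m) {g : L × L} (hg₁ : g.1 ≠ 0) (hg₂ : g.2 ≠ 0) (v : Place k F₁) :
    ∃ B : ℤ, ∀ (M : ℕ) (u : F), u ∈ riemannRochSpace (T.D + M • C.E) → C.Mem g u →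
      (C.red g u).1 ≠ 0 → -((M : ℤ) * C.E₁ v) - B ≤ v.ord (C.red g u).1 := by
  set G := g ^ m * T.c with hG
  have hG₁ : G.1 ≠ 0 := mul_ne_zero (pow_ne_zero m hg₁) T.c_ne₁
  have hG₂ : G.2 ≠ 0 := mul_ne_zero (pow_ne_zero m hg₂) T.c_ne₂
  obtain ⟨N, hN⟩ := harch.exists_pow_le C.π_surj U.Q_lt (div_ne_zero hG₂ hG₁)
  set K : ℤ := (N : ℤ) * U.deg * C.E₁ v + v.ord T.bar.1 + (N : ℤ) * v.ord U.bar₁ with hK
  refine ⟨|K|, fun M u hu hug h0 => ?_⟩
  obtain ⟨hm', hr⟩ := T.mem_pow_mul hug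
  set y := u ^ m * T.f * U.h ^ N with hy
  have hh := Branch.Mem.pow C.b₂ U.h_scaled.1.2 N
  have hh₁ := Branch.Mem.pow C.b₁ U.h_scaled.1.1 N
  rw [one_pow] at hh₁
  have hy₁ : C.b₁.Mem G.1 y := by
    have := Branch.Mem.mul C.b₁ hm'.1 hh₁
    rwa [mul_one] at this
  have hy₂ : C.b₂.Mem G.1 y := by
    refine C.b₂.mem_of_le (mul_ne_zero hG₂ (pow_ne_zero N (inv_ne_zero U.Q_ne))) ?_
      (Branch.Mem.mul C.b₂ hm'.2 hh)
    rw [map_mul, map_pow, map_inv₀, inv_pow, ← div_eq_mul_inv,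
      le_div_iff₀ (pow_pos (valuation_pos U.Q_ne) N), mul_comm]
    rw [map_div₀, le_div_iff₀ (valuation_pos hG₁)] at hN
    exact hN
  have hrr : G.1 • y ∈ riemannRochSpace ((m * M + N * U.deg) • C.E) := by
    refine Submodule.smul_mem _ _ ?_
    rw [add_nsmul, mul_comm N U.deg, mul_nsmul C.E U.deg N]
    exact mul_mem_riemannRochSpace (T.pow_mul_mem_rr hm hu) (pow_mem_riemannRochSpace U.h_rr N)
  have hreg := C.reg₁ _ _ hy₁ hy₂ hrr
  have hb : C.b₁.red 1 U.h = U.bar₁ := C.b₁.red_one U.h_mem₁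
  have hres : C.b₁.res ⟨G.1 • y, hy₁⟩ = (C.red g u).1 ^ m * T.bar.1 * U.bar₁ ^ N := by
    have h2 := C.b₁.red_pow U.h_scaled.1.1 N
    rw [one_pow, hb] at h2
    have h3 := C.b₁.red_mul hm'.1 hh₁
    rw [mul_one, show C.b₁.red G.1 (u ^ m * T.f) = (C.red g u).1 ^ m * T.bar.1 from
      congrArg Prod.fst hr, h2] at h3
    rw [← C.b₁.red_eq hy₁, h3]
  rw [hres, mem_riemannRochSpace_iff] at hreg
  have hp0 : (C.red g u).1 ^ m * T.bar.1 ≠ 0 := mul_ne_zero (pow_ne_zero m h0) T.bar_ne₁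
  have h := (hreg v).resolve_left (mul_ne_zero hp0 (pow_ne_zero N U.bar₁_ne))
  rw [v.ord_mul hp0 (pow_ne_zero N U.bar₁_ne), v.ord_mul (pow_ne_zero m h0) T.bar_ne₁,
    ← zpow_natCast, v.ord_zpow, ← zpow_natCast, v.ord_zpow, Finsupp.smul_apply, nsmul_eq_mul,
    Nat.cast_add, Nat.cast_mul, Nat.cast_mul] at h
  have habs := le_abs_self K
  have hnn := abs_nonneg K
  have hm1 : (1 : ℤ) ≤ m := by exact_mod_cast hm
  by_contra hlt
  push Not at hlt
  nlinarith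

/-- The same on the second branch. -/
theorem TorsionData.exists_order_bound₂ (T : C.TorsionData m) (U : NodeUnit C) (harch : Arch π)
    (hm : 0 < m) {g : L × L} (hg₁ : g.1 ≠ 0) (hg₂ : g.2 ≠ 0) (v : Place k F₂) :
    ∃ B : ℤ, ∀ (M : ℕ) (u : F), u ∈ riemannRochSpace (T.D + M • C.E) → C.Mem g u →
      (C.red g u).2 ≠ 0 → -((M : ℤ) * C.E₂ v) - B ≤ v.ord (C.red g u).2 := by
  obtain ⟨B, hB⟩ := T.swapData.exists_order_bound₁ U.swap harch hm (g := (g.2, g.1)) hg₂ hg₁ v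
  exact ⟨B, fun M u hu hug h0 => hB M u hu ⟨hug.2, hug.1⟩ h0⟩

variable {Φ : Morph C C} {R : RatForm C}

/-- The deviation at any scale of integrality. -/
theorem deviation_scaled (Δ : Deviation Φ R) (B : Branch A π F Fb) {y : F} {z : ℤ} {l : L}
    (hy : B.Mem (R.ϖ ^ z) y) (hyr : B.red (R.ϖ ^ z) y ≠ 0)
    (hdev : ∃ r, B.Mem 1 r ∧ B.red 1 r = 0 ∧
      Φ.g • (R.ϖ ^ z • y) - R.ϖ ^ z • y = algebraMap L F (Δ.tt : L) * r)
    (hl : B.Mem l y) :
    ∃ q, B.Mem 1 q ∧ B.red 1 q = (-(z : k) * π Δ.η) • B.red 1 (l • y) ∧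
      l • (Φ.g • y) = l • y + algebraMap L F (Δ.tt : L) * q := by
  obtain ⟨q, hq, hqr, he⟩ := deviation_expand Δ B (w := 1) (d := 1) hy hdev
    ⟨0, B.mem_zero 1, B.red_zero 1, by simp⟩
  have hne : R.ϖ ^ z ≠ 0 := zpow_ne_zero _ R.ϖ_ne
  have hle := B.valuation_le_of_red_ne_zero C.π_surj hl hyr
  set t : A := ⟨l / R.ϖ ^ z, div_mem_of_valuation_le hne hle⟩
  refine ⟨(t : L) • q, Branch.Mem.smul B hq t, ?_, ?_⟩
  · rw [B.red_smul hq, hqr, B.red_one_smul hl, B.red_eq_smul_of_le hne hle hy, smul_smul,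
      smul_smul, map_one, one_mul, mul_comm]
  · have h := congrArg (fun w => (t : L) • w) he
    simp only [mul_one, map_one, OneMemClass.coe_one, one_mul, smul_add, smul_smul] at h
    rw [show (t : L) * R.ϖ ^ z = l from div_mul_cancel₀ _ hne, ← mul_smul_comm] at h
    exact h

/-- Moved products of a rational section with a function near a constant, and their
reductions. -/
theorem TorsionData.exists_step (T : C.TorsionData m) (Δ : Deviation Φ R) {N : ℕ} {z ω : F}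
    {δ : L} {d : A} (hz : z ∈ riemannRochSpace (T.D - Φ.g • T.D + N • C.E))
    (hω : ω ∈ riemannRochSpace (N • C.E)) (hωm : C.Mem (1, 1) ω) (hδ : δ ≠ 0)
    (htt : A.valuation (Δ.tt : L) ≤ A.valuation δ) (hδ1 : A.valuation δ < 1) (hd : π d = 1)
    (hzω : C.Mem (δ⁻¹, δ⁻¹) (z - (d : L) • ω)) {g : L × L} {y : F} {M : ℕ} (hyS : y ∈ R.S)
    (hy : y ∈ riemannRochSpace (T.D + M • C.E)) (hyg : C.Mem g y) :
    ∃ (v : F) (c₁ c₂ : k), v ∈ riemannRochSpace (T.D + (M + N) • C.E) ∧ C.Mem g v ∧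
      (A.valuation (Δ.tt : L) < A.valuation δ → c₁ = 0 ∧ c₂ = 0) ∧
      C.red g v = C.red g y * (C.red (δ⁻¹, δ⁻¹) (z - (d : L) • ω) +
        (c₁ • (C.red (1, 1) ω).1, c₂ • (C.red (1, 1) ω).2)) := by
  rcases eq_or_ne y 0 with rfl | hy0
  · refine ⟨0, 0, 0, zero_mem _, C.mem_zero g, fun _ => ⟨rfl, rfl⟩, ?_⟩
    rw [C.red_zero, zero_mul]
  obtain ⟨z₁, hm₁, hr₁⟩ := R.exists_norm₁ y hyS hy0
  obtain ⟨z₂, hm₂, hr₂⟩ := R.exists_norm₂ y hyS hy0
  obtain ⟨q₁, hq₁, hqr₁, hqe₁⟩ := deviation_scaled Δ C.b₁ hm₁ hr₁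
    (Δ.dev₁ _ (R.smul_mem _ (zpow_mem R.ϖ_mem z₁) _ hyS) (C.b₁.mem_smul_one_iff.mpr hm₁)) hyg.1
  obtain ⟨q₂, hq₂, hqr₂, hqe₂⟩ := deviation_scaled Δ C.b₂ hm₂ hr₂
    (Δ.dev₂ _ (R.smul_mem _ (zpow_mem R.ϖ_mem z₂) _ hyS) (C.b₂.mem_smul_one_iff.mpr hm₂)) hyg.2
  obtain ⟨n₁, e₁⟩ := C.b₁.red_step C.π_surj (tt := Δ.tt) (C.b₁.mem_smul_one_iff.mpr hyg.1) hq₁
    hωm.1 hδ htt hδ1 hd hzω.1 hqr₁
  obtain ⟨n₂, e₂⟩ := C.b₂.red_step C.π_surj (tt := Δ.tt) (C.b₂.mem_smul_one_iff.mpr hyg.2) hq₂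
    hωm.2 hδ htt hδ1 hd hzω.2 hqr₂
  set v := δ⁻¹ • (Φ.g • y * z - (d : L) • (y * ω)) with hv
  have hvl : ∀ l : L, l • v =
      δ⁻¹ • (l • (Φ.g • y) * z - (d : L) • (l • y * ω)) := fun l => by
    rw [hv, smul_comm l δ⁻¹, smul_sub, smul_comm l (d : L), smul_mul_assoc l (Φ.g • y) z,
      smul_mul_assoc l y ω]
  rw [← hqe₁, ← hvl] at n₁ e₁
  rw [← hqe₂, ← hvl] at n₂ e₂
  rw [C.b₁.red_one_smul hyg.1, C.b₁.red_one_smul (C.b₁.mem_smul_one_iff.mp n₁)] at e₁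
  rw [C.b₂.red_one_smul hyg.2, C.b₂.red_one_smul (C.b₂.mem_smul_one_iff.mp n₂)] at e₂
  refine ⟨v, π ⟨(Δ.tt : L) / δ, div_mem_of_valuation_le hδ htt⟩ * (-(z₁ : k) * π Δ.η),
    π ⟨(Δ.tt : L) / δ, div_mem_of_valuation_le hδ htt⟩ * (-(z₂ : k) * π Δ.η), ?_,
    ⟨C.b₁.mem_smul_one_iff.mp n₁, C.b₂.mem_smul_one_iff.mp n₂⟩, fun hlt => ?_, Prod.ext e₁ e₂⟩
  · refine Submodule.smul_mem _ _ (Submodule.sub_mem _ ?_ (Submodule.smul_mem _ _ ?_))
    · have h := SemistableHecke.smul_mem_riemannRochSpace Φ.g hy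
      rw [smul_add, smul_comm Φ.g M C.E, Δ.map_E] at h
      have := mul_mem_riemannRochSpace h hz
      rwa [show Φ.g • T.D + M • C.E + (T.D - Φ.g • T.D + N • C.E) = T.D + (M + N) • C.E by
        rw [add_nsmul]; abel] at this
    · have := mul_mem_riemannRochSpace hy hω
      rwa [add_assoc, ← add_nsmul] at this
  · have h0 : π ⟨(Δ.tt : L) / δ, div_mem_of_valuation_le hδ htt⟩ = 0 :=
      π_eq_zero_of_lt_one C.π_surj (by
        rw [map_div₀]
        exact (div_lt_one₀ (valuation_pos hδ)).mpr hlt)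
    rw [h0, zero_mul, zero_mul]
    exact ⟨rfl, rfl⟩

variable [IsAlgClosed k] [IsFunctionField k F₁] [IsFunctionField k F₂]
  [IsAlgClosed L] [IsFunctionField L F]

omit [IsAlgClosed L] in
/-- The deviation from a constant multiple has poles bounded by those of the target. -/
theorem TorsionData.red_mem_rr (T : C.TorsionData m) (U : NodeUnit C) (Δ : Deviation Φ R)
    (harch : Arch π) (hm : 0 < m)
    (hspan : ∀ n : ℕ, riemannRochSpace (T.D + n • C.E) ≤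
      Submodule.span L ((R.S : Set F) ∩ riemannRochSpace (T.D + n • C.E)))
    {g : L × L} (hg₁ : g.1 ≠ 0) (hg₂ : g.2 ≠ 0) {M₀ : ℕ} {y₀ : F}
    (hy₀ : y₀ ∈ riemannRochSpace (T.D + M₀ • C.E)) (hy₀g : C.Mem g y₀)
    (h₁ : (C.red g y₀).1 ≠ 0) (h₂ : (C.red g y₀).2 ≠ 0) {N : ℕ} {z ω : F}
    {δ : L} {d : A} (hz : z ∈ riemannRochSpace (T.D - Φ.g • T.D + N • C.E))
    (hω : ω ∈ riemannRochSpace (N • C.E)) (hωm : C.Mem (1, 1) ω) (hδ : δ ≠ 0)
    (htt : A.valuation (Δ.tt : L) ≤ A.valuation δ) (hδ1 : A.valuation δ < 1) (hd : π d = 1)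
    (hzω : C.Mem (δ⁻¹, δ⁻¹) (z - (d : L) • ω)) :
    (∀ v, (C.red (δ⁻¹, δ⁻¹) (z - (d : L) • ω)).1 ∈ ball v ((N : ℤ) * C.E₁ v)) ∧
      ∀ v, (C.red (δ⁻¹, δ⁻¹) (z - (d : L) • ω)).2 ∈ ball v ((N : ℤ) * C.E₂ v) := by
  have hωg := C.red_mem_glued_one hωm hω
  set W : ℕ → Submodule k (F₁ × F₂) := fun M => C.resSub g (riemannRochSpace (T.D + M • C.E))
  set Gn : ℕ → Set (F₁ × F₂) := fun M => R.gens g (riemannRochSpace (T.D + M • C.E))
  have hW : ∀ M, W M ≤ Submodule.span k (Gn M) := fun M =>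
    R.le_span_gens harch (hspan M) hg₁ hg₂
  have hstep : ∀ M, ∀ w ∈ Gn M, ∃ c₁ c₂ : k,
      w * (C.red (δ⁻¹, δ⁻¹) (z - (d : L) • ω) +
        (c₁ • (C.red (1, 1) ω).1, c₂ • (C.red (1, 1) ω).2)) ∈ W (M + N) := by
    rintro M _ ⟨y, hyS, hy, l, hyl, rfl⟩
    obtain ⟨v, c₁, c₂, hv, hvg, -, hvr⟩ :=
      T.exists_step Δ hz hω hωm hδ htt hδ1 hd hzω hyS hy hyl
    refine ⟨c₁, c₂, l • v, Submodule.smul_mem _ l hv, C.mem_smul_iff.mpr hvg, ?_⟩
    rw [← hvr]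
    exact Prod.ext (C.b₁.red_smul_eq hvg.1) (C.b₂.red_smul_eq hvg.2)
  constructor <;> intro v
  · obtain ⟨B, hB⟩ := T.exists_order_bound₁ U harch hm hg₁ hg₂ v
    refine mem_ball_of_step (S := fun M => (W M).map (LinearMap.fst k F₁ F₂))
      (Gen := fun M => LinearMap.fst k F₁ F₂ '' Gn M)
      (fun M => by rw [← Submodule.map_span]; exact Submodule.map_mono (hW M))
      (e := C.E₁ v) (C := B) ?_ (ω := (C.red (1, 1) ω).1) ?_ ?_
      (M₀ := M₀) (y₀ := (C.red g y₀).1) ⟨_, ⟨y₀, hy₀, hy₀g, rfl⟩, rfl⟩ h₁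
    · rintro M _ ⟨_, ⟨u, hu, hug, rfl⟩, rfl⟩ h0
      exact hB M u hu hug h0
    · have := hωg.1 v
      rw [Finsupp.smul_apply, nsmul_eq_mul] at this
      exact this
    · rintro M _ ⟨w, hw, rfl⟩
      obtain ⟨c₁, c₂, h⟩ := hstep M w hw
      exact ⟨c₁, _, h, rfl⟩
  · obtain ⟨B, hB⟩ := T.exists_order_bound₂ U harch hm hg₁ hg₂ v
    refine mem_ball_of_step (S := fun M => (W M).map (LinearMap.snd k F₁ F₂))
      (Gen := fun M => LinearMap.snd k F₁ F₂ '' Gn M)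
      (fun M => by rw [← Submodule.map_span]; exact Submodule.map_mono (hW M))
      (e := C.E₂ v) (C := B) ?_ (ω := (C.red (1, 1) ω).2) ?_ ?_
      (M₀ := M₀) (y₀ := (C.red g y₀).2) ⟨_, ⟨y₀, hy₀, hy₀g, rfl⟩, rfl⟩ h₂
    · rintro M _ ⟨_, ⟨u, hu, hug, rfl⟩, rfl⟩ h0
      exact hB M u hu hug h0
    · have := hωg.2.1 v
      rw [Finsupp.smul_apply, nsmul_eq_mul] at this
      exact this
    · rintro M _ ⟨w, hw, rfl⟩
      obtain ⟨c₁, c₂, h⟩ := hstep M w hw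
      exact ⟨c₂, _, h, rfl⟩

end PairReduction

end FLTAgent.Semistable
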